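import Fermat.Agent.ML.Raise.St2
import Fermat.Agent.SS.Desc
import Fermat.Agent.SS.Mod.Unip

/-!
# ML / At2 / N2 / St2All : `[ST2]` and the two-element unipotency at EVERY level `M * q` (`q ∤ M`, `M` NOT necessarily rigid)

`ML.st2` needs `4 ∣ M ∨ 9 ∣ M`.  For `q = 2` the levels `M * 2`, `M` odd, are not rigid.  Both identities are additive identities between
Galois translates of a torsion class, so they descend along `B^* : J₀(N) → J₀(N c)`, `c = aux q` (`SS/Desc.lean`).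
-/

set_option autoImplicit false
set_option linter.style.haveILetI false
set_option linter.unusedSectionVars false

noncomputable section

open AlgebraicCurve ModularCurve IsLocalRing

namespace Fermat.Agent.ML.At2

open Fermat.Agent.SS
open Fermat.Agent.RED hiding Kb
open Fermat.Agent.S24

/-- `(σ² - q²)(τ - 1) = 0` on the `p`-power torsion of `J₀(N)`. -/
def St2At (N p q : ℕ) : Prop :=
  ∀ A : ValuationSubring Kb, A.LiesOverPrime q → ∀ σ : GQ, A.IsFrobeniusAt σ q →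
    ∀ τ ∈ A.inertiaSubgroupIn ℚ, ∀ (e : ℕ) (x : JZero N), p ^ e • x = 0 →
      σ • σ • (τ • x - x) = q ^ 2 • (τ • x - x)

/-- `(τ' - 1)(τ - 1) = 0` on the `p`-power torsion of `J₀(N)`. -/
def Unip2At (N p q : ℕ) : Prop :=
  ∀ A : ValuationSubring Kb, A.LiesOverPrime q → ∀ τ ∈ A.inertiaSubgroupIn ℚ,
    ∀ τ' ∈ A.inertiaSubgroupIn ℚ, ∀ (e : ℕ) (x : JZero N), p ^ e • x = 0 →
      τ' • (τ • x - x) = τ • x - x

theorem st2At_rigid {M q : ℕ} [NeZero M] [hq : Fact q.Prime] (hqM : ¬ q ∣ M)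
    (h49 : 4 ∣ M ∨ 9 ∣ M) {p : ℕ} (hp : p.Prime) (hpq : p ≠ q) : St2At (M * q) p q :=
  fun A hA _ hσ _ hτ e x hx => st2 hqM h49 hp hpq A hA hσ hτ e x hx

theorem unip2At_rigid {M q : ℕ} [NeZero M] [hq : Fact q.Prime] (hqM : ¬ q ∣ M)
    (h49 : 4 ∣ M ∨ 9 ∣ M) {p : ℕ} (hp : p.Prime) (hpq : p ≠ q) : Unip2At (M * q) p q := by
  intro A hA τ hτ τ' hτ' e x hx
  haveI : IsAlgClosed (ResidueField A) := GalEq.isAlgClosed_residueField A
  haveI : CharP (ResidueField A) q := GalEq.charP_residueField hq.out hA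
  obtain ⟨𝒩, hI, -⟩ := exists_nodalData_compat hqM A h49 hA
  have hpk : (p : ResidueField A) ≠ 0 := by
    intro h0
    have := (CharP.cast_eq_zero_iff (ResidueField A) q p).1 h0
    exact hpq ((Nat.prime_dvd_prime_iff_eq hq.out hp).1 this).symm
  exact unipotent_of_torsion 𝒩 (RB.isSepParam_jF (M * q))
    (Cusp.isSepParam_jb M (ResidueField A) q hqM) hp hpk e (hI τ hτ) (hI τ' hτ') (y := x) hx

/-- `[ST2]` descends from the level `N c`, `c = 4, 9`. -/
theorem st2At_of_mul (N c : ℕ) [NeZero N] [NeZero c] (hc : c = 4 ∨ c = 9) {p : ℕ} (hp : p ≠ 0)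
    (q : ℕ) (h : St2At (N * c) p q) : St2At N p q := by
  intro A hA σ hσ τ hτ e x hx
  have ht : ∀ (g : GQ) (y : JZero N), p ^ e • y = 0 → p ^ e • (g • y) = 0 := fun g y hy => by
    rw [smul_comm (p ^ e) g y, hy, smul_zero]
  have h1 : p ^ e • (τ • x - x) = 0 := by rw [nsmul_sub, ht τ x hx, hx, sub_zero]
  rw [← sub_eq_zero]
  refine eq_zero_of_Bstar_eq_zero N c hc hp _ ⟨e, ?_⟩ ?_
  · rw [nsmul_sub, ht σ _ (ht σ _ h1), nsmul_left_comm, h1, smul_zero, sub_zero]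
  · rw [map_sub, map_nsmul, Bstar_smul, Bstar_smul, map_sub, Bstar_smul, sub_eq_zero]
    exact h A hA σ hσ τ hτ e _ (by rw [← map_nsmul, hx, map_zero])

/-- the two-element unipotency descends from the level `N c`, `c = 4, 9`. -/
theorem unip2At_of_mul (N c : ℕ) [NeZero N] [NeZero c] (hc : c = 4 ∨ c = 9) {p : ℕ} (hp : p ≠ 0)
    (q : ℕ) (h : Unip2At (N * c) p q) : Unip2At N p q := by
  intro A hA τ hτ τ' hτ' e x hx
  have ht : ∀ (g : GQ) (y : JZero N), p ^ e • y = 0 → p ^ e • (g • y) = 0 := fun g y hy => by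
    rw [smul_comm (p ^ e) g y, hy, smul_zero]
  have h1 : p ^ e • (τ • x - x) = 0 := by rw [nsmul_sub, ht τ x hx, hx, sub_zero]
  rw [← sub_eq_zero]
  refine eq_zero_of_Bstar_eq_zero N c hc hp _ ⟨e, ?_⟩ ?_
  · rw [nsmul_sub, ht τ' _ h1, h1, sub_zero]
  · rw [map_sub, Bstar_smul, map_sub, Bstar_smul, sub_eq_zero]
    exact h A hA τ hτ τ' hτ' e _ (by rw [← map_nsmul, hx, map_zero])

/-- **[ST2] at every level `M * q`, `q ∤ M`.** -/
theorem st2At_all (M q : ℕ) [NeZero M] [hq : Fact q.Prime] (hqM : ¬ q ∣ M) {p : ℕ} (hp : p.Prime)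
    (hpq : p ≠ q) : St2At (M * q) p q := by
  haveI : NeZero q := ⟨hq.out.ne_zero⟩
  refine st2At_of_mul (M * q) (aux q) (aux_eq q) hp.ne_zero q ?_
  have e : M * q * aux q = M * aux q * q := by ring
  rw [e]
  refine st2At_rigid (not_dvd_mul_aux hq.out hqM) ?_ hp hpq
  rcases aux_eq q with h | h <;> rw [h] <;> simp

/-- **`(τ' - 1)(τ - 1) = 0` at every level `M * q`, `q ∤ M`.** -/
theorem unip2At_all (M q : ℕ) [NeZero M] [hq : Fact q.Prime] (hqM : ¬ q ∣ M) {p : ℕ}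
    (hp : p.Prime) (hpq : p ≠ q) : Unip2At (M * q) p q := by
  haveI : NeZero q := ⟨hq.out.ne_zero⟩
  refine unip2At_of_mul (M * q) (aux q) (aux_eq q) hp.ne_zero q ?_
  have e : M * q * aux q = M * aux q * q := by ring
  rw [e]
  refine unip2At_rigid (not_dvd_mul_aux hq.out hqM) ?_ hp hpq
  rcases aux_eq q with h | h <;> rw [h] <;> simp

/-- `[ST2]`, explicit form (same shape as `ML.st2`, without rigidity). -/
theorem st2_all {M q : ℕ} [NeZero M] [hq : Fact q.Prime] (hqM : ¬ q ∣ M) {p : ℕ} (hp : p.Prime)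
    (hpq : p ≠ q) (A : ValuationSubring Kb) (hA : A.LiesOverPrime q) {σ : GQ}
    (hσ : A.IsFrobeniusAt σ q) {τ : GQ} (hτ : τ ∈ A.inertiaSubgroupIn ℚ) (e : ℕ)
    (x : JZero (M * q)) (hx : p ^ e • x = 0) : σ • σ • (τ • x - x) = q ^ 2 • (τ • x - x) :=
  st2At_all M q hqM hp hpq A hA σ hσ τ hτ e x hx

/-- two-element unipotency, explicit form. -/
theorem unip2_all {M q : ℕ} [NeZero M] [hq : Fact q.Prime] (hqM : ¬ q ∣ M) {p : ℕ}
    (hp : p.Prime) (hpq : p ≠ q) (A : ValuationSubring Kb) (hA : A.LiesOverPrime q) {τ τ' : GQ}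
    (hτ : τ ∈ A.inertiaSubgroupIn ℚ) (hτ' : τ' ∈ A.inertiaSubgroupIn ℚ) (e : ℕ)
    (x : JZero (M * q)) (hx : p ^ e • x = 0) : τ' • (τ • x - x) = τ • x - x :=
  unip2At_all M q hqM hp hpq A hA τ hτ τ' hτ' e x hx

end Fermat.Agent.ML.At2
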