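import Fermat.Agent.ML.At2.N2.Num

/-!
# ML / At2 / N2 / Blocks : the two blocks of the stage `q = 2`   (LEV-form)

* `U1 p S θ M qv a ≤ J₀(lev M qv univ)` : the `θ`-classes at the odd level, new at all the Taylor-Wiles primes, killed by `p^a`;
* `U2 p S θ M qv a ≤ J₀(lev (M * 2) qv univ)` : the `2`-new `θ`-classes, new at all the Taylor-Wiles primes, killed by `p^a`;
* `dTwo p M t` : a bound of `2^t dim W_θ(M)` which does not depend on the Taylor-Wiles primes.
-/

set_option autoImplicit false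
set_option linter.unusedSectionVars false

noncomputable section

open AlgebraicCurve ModularCurve

namespace Fermat.Agent.ML.At2

open Fermat.Agent.RIB Fermat.Agent.GAL Fermat.Agent.GAL.PC Fermat.Agent.ML.TWFree

/-- the lower block : `θ`-classes at the level `M ∏ l²` (odd), new at the TW primes, killed by `p^a`. -/
def U1 (p : ℕ) (S : Set ℕ) (θ : ℕ → ℤ) (M : ℕ) [NeZero M] {t : ℕ} (qv : Fin t → Nat.Primes)
    (a : ℕ) : AddSubgroup (JZero (lev M qv Finset.univ)) :=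
  Xnew p S θ M qv Finset.univ ⊓ TWFree.tors _ (p ^ a)

/-- the `2`-new block at the level `2 M ∏ l²`. -/
def U2 (p : ℕ) (S : Set ℕ) (θ : ℕ → ℤ) (M : ℕ) [NeZero M] {t : ℕ} (qv : Fin t → Nat.Primes)
    (a : ℕ) : AddSubgroup (JZero (lev (M * 2) qv Finset.univ)) :=
  newPart (fun Q => kerSub (thetaPart (lev (M * 2) qv Q) p S θ)
    (dnQ qv (rfl : M * 2 = M * 2) Q)) (PiQ (M * 2) qv) Finset.univ Finset.univ ⊓
    TWFree.tors _ (p ^ a)

/-- the static bound of `d`. -/
def dTwo (p M t : ℕ) [NeZero M] : ℕ := 2 ^ t * Nat.card {x : JZero M // p • x = 0}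

variable {p : ℕ} {S : Set ℕ} {θ : ℕ → ℤ} {M : ℕ} [NeZero M] {t : ℕ} {qv : Fin t → Nat.Primes}
  {a : ℕ}

theorem mem_U1 {x : JZero (lev M qv Finset.univ)} :
    x ∈ U1 p S θ M qv a ↔ x ∈ Xnew p S θ M qv Finset.univ ∧ p ^ a • x = 0 := Iff.rfl

theorem mem_U2 {x : JZero (lev (M * 2) qv Finset.univ)} :
    x ∈ U2 p S θ M qv a ↔
      x ∈ newPart (fun Q => kerSub (thetaPart (lev (M * 2) qv Q) p S θ)
        (dnQ qv (rfl : M * 2 = M * 2) Q)) (PiQ (M * 2) qv) Finset.univ Finset.univ ∧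
      p ^ a • x = 0 := Iff.rfl

end Fermat.Agent.ML.At2
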