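import Fermat.Agent.ML.Lift.Inst.Geo
import Fermat.Agent.ML.Lift.Inst.New
import Fermat.Agent.ML.Lift.Trace

/-!
# ML / At2 / N2 / Defs : the subgroups of the stage `q = 2`  (**StepTwoStmt**), level-free

* `UL p S θ qv N a` : the classes of `thetaPart N` which are new at all the `qv i` and killed by `p^a`   (the LOWER module `U`, `N` odd);
* `UK p S θ qv h a` (`h : Nq = N * q`) : the classes of `UL .. Nq a` killed by the two push-forwards `dnE h c`   (the `q`-new part);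
* both are Galois stable;  `embE h ε` maps `UL N a [c_q]` into `UK h a`;
* `boxG_map`, `card_boxG_map` : the box of the image of a subgroup under an equivariant map which is injective on it.
-/

set_option autoImplicit false

noncomputable section

open AlgebraicCurve ModularCurve

namespace Fermat.Agent.ML.At2

open Fermat.Agent.RIB Fermat.Agent.GAL Fermat.Agent.GAL.PC Fermat.Agent.ML.TWFree
  Fermat.Agent.ML.Lift Fermat.Agent.ML.Tower

local notation "Qbar" => AlgebraicClosure ℚ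
local notation "GQ" => (AlgebraicClosure ℚ ≃ₐ[ℚ] AlgebraicClosure ℚ)

/-- the classes of the `θ`-part of level `N`, new at all the Taylor-Wiles primes, killed by `p^a`. -/
def UL (p : ℕ) (S : Set ℕ) (θ : ℕ → ℤ) {t : ℕ} (qv : Fin t → Nat.Primes) (N : ℕ) [NeZero N]
    (a : ℕ) : AddSubgroup (JZero N) where
  carrier := {x | x ∈ thetaPart N p S θ ∧ (∀ i, IsNewAt N ((qv i : Nat.Primes) : ℕ) x) ∧
    p ^ a • x = 0}
  zero_mem' := ⟨(thetaPart N p S θ).zero_mem, fun _ => IsNewAt.zero _ _, nsmul_zero _⟩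
  add_mem' := by
    rintro x y ⟨h1, h2, h3⟩ ⟨h1', h2', h3'⟩
    exact ⟨(thetaPart N p S θ).add_mem h1 h1', fun i => (h2 i).add (h2' i),
      by rw [nsmul_add, h3, h3', add_zero]⟩
  neg_mem' := by
    rintro x ⟨h1, h2, h3⟩
    exact ⟨(thetaPart N p S θ).neg_mem h1, fun i => (h2 i).neg, by rw [neg_nsmul, h3, neg_zero]⟩

section

variable {p : ℕ} {S : Set ℕ} {θ : ℕ → ℤ} {t : ℕ} {qv : Fin t → Nat.Primes}

theorem mem_UL {N : ℕ} [NeZero N] {a : ℕ} {x : JZero N} :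
    x ∈ UL p S θ qv N a ↔ x ∈ thetaPart N p S θ ∧
      (∀ i, IsNewAt N ((qv i : Nat.Primes) : ℕ) x) ∧ p ^ a • x = 0 := Iff.rfl

/-- the `q`-new part of `UL`. -/
def UK (p : ℕ) (S : Set ℕ) (θ : ℕ → ℤ) {t : ℕ} (qv : Fin t → Nat.Primes) {N Nq q : ℕ} [NeZero N]
    [NeZero Nq] [NeZero q] (h : Nq = N * q) (a : ℕ) : AddSubgroup (JZero Nq) :=
  UL p S θ qv Nq a ⊓ ⨅ c : Fin 2, (dnE h c).ker

theorem mem_UK {N Nq q : ℕ} [NeZero N] [NeZero Nq] [NeZero q] {h : Nq = N * q} {a : ℕ}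
    {x : JZero Nq} : x ∈ UK p S θ qv h a ↔ x ∈ UL p S θ qv Nq a ∧ ∀ c, dnE h c x = 0 := by
  rw [UK, AddSubgroup.mem_inf, AddSubgroup.mem_iInf]
  rfl

theorem gal_nsmul {N : ℕ} [NeZero N] (g : GQ) (n : ℕ) (x : JZero N) :
    g • (n • x) = n • (g • x) := map_nsmul (DistribSMul.toAddMonoidHom (JZero N) g) n x

theorem gal_zero' {N : ℕ} [NeZero N] (g : GQ) : g • (0 : JZero N) = 0 :=
  map_zero (DistribSMul.toAddMonoidHom (JZero N) g)

theorem smul_mem_UL {N : ℕ} [NeZero N] {a : ℕ} (g : GQ) {x : JZero N}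
    (hx : x ∈ UL p S θ qv N a) : g • x ∈ UL p S θ qv N a :=
  ⟨smul_mem_thetaPart g hx.1, fun i => (hx.2.1 i).smul g, by rw [← gal_nsmul, hx.2.2, gal_zero']⟩

theorem smul_mem_UK {N Nq q : ℕ} [NeZero N] [NeZero Nq] [NeZero q] {h : Nq = N * q} {a : ℕ}
    (g : GQ) {x : JZero Nq} (hx : x ∈ UK p S θ qv h a) : g • x ∈ UK p S θ qv h a := by
  rw [mem_UK] at hx ⊢
  exact ⟨smul_mem_UL g hx.1, fun c => by rw [dnE_smul, hx.2 c, gal_zero']⟩

theorem UK_le_UL {N Nq q : ℕ} [NeZero N] [NeZero Nq] [NeZero q] (h : Nq = N * q) (a : ℕ) :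
    UK p S θ qv h a ≤ UL p S θ qv Nq a := inf_le_left

/-- `upE h c` maps `UL N a` into `UL Nq a`. -/
theorem upE_mem_UL {N Nq q : ℕ} [NeZero N] [NeZero Nq] [NeZero q] (hq : q.Prime)
    (hne : ∀ i, ((qv i : Nat.Primes) : ℕ) ≠ q) (h : Nq = N * q)
    (hS : ∀ r : ℕ, r.Prime → r ∉ S → ¬ r ∣ Nq * p) (c : Fin 2) {a : ℕ} {x : JZero N}
    (hx : x ∈ UL p S θ qv N a) : upE h c x ∈ UL p S θ qv Nq a :=
  ⟨upE_mem_thetaPart h hS c hx.1, fun i => isNewAt_upE hq (qv i).2 (hne i) h c (hx.2.1 i),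
    by rw [← map_nsmul, hx.2.2, map_zero]⟩

/-- **(EMB)** : `e_q v ∈ UK`. -/
theorem embE_mem_UK {N Nq q : ℕ} [NeZero N] [NeZero Nq] [NeZero q] (hq : q.Prime)
    (hqN : ¬ q ∣ N) (hp : p.Prime) (hqp : q ≠ p) (hne : ∀ i, ((qv i : Nat.Primes) : ℕ) ≠ q)
    (h : Nq = N * q) (hS : ∀ r : ℕ, r.Prime → r ∉ S → ¬ r ∣ Nq * p) {ε : ℤ} (hε : ε * ε = 1)
    {A : ValuationSubring Qbar} (hA : A.LiesOverPrime q) {σ : GQ} (hσ : A.IsFrobeniusAt σ q)
    {a : ℕ} {v : JZero N} (hv : v ∈ UL p S θ qv N a)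
    (hc : σ • v + q • σ⁻¹ • v = (ε * ((q : ℤ) + 1)) • v) : embE h ε v ∈ UK p S θ qv h a := by
  rw [mem_UK]
  refine ⟨⟨embE_mem_thetaPart h hS ε hv.1, fun i => ?_, ?_⟩, fun c => ?_⟩
  · exact isNewAt_embE hq (qv i).2 (hne i) h ε (hv.2.1 i)
  · rw [← map_nsmul, hv.2.2, map_zero]
  · exact dnE_embE_of_frob hq hqN hp hqp hε h hA hσ ⟨a, hv.2.2⟩ hc c

end

/-! ### the box of an image -/

section Box

variable {Γ : Type*} [Group Γ] {M J : Type*} [AddCommGroup M] [DistribMulAction Γ M]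
  [AddCommGroup J] [DistribMulAction Γ J]

theorem mem_boxG_map {p a t : ℕ} (τ : Fin t → Γ) (U : AddSubgroup M)
    (hU : ∀ (g : Γ), ∀ v ∈ U, g • v ∈ U) (f : M →+ J) (hf : ∀ (g : Γ) v, f (g • v) = g • f v)
    (hi : ∀ v ∈ U, f v = 0 → v = 0) {x : J} :
    x ∈ boxG p a τ (U.map f) ↔ ∃ v ∈ boxG p a τ U, f v = x := by
  constructor
  · rintro ⟨⟨v, hv, rfl⟩, h2, h3⟩
    refine ⟨v, ⟨hv, hi _ (U.nsmul_mem hv _) (by rw [map_nsmul, h2]), fun i => ?_⟩, rfl⟩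
    exact hi _ (zOp_iterate_mem U hU _ _ hv) (by rw [map_zOp_iterate f hf, h3 i])
  · rintro ⟨v, ⟨h1, h2, h3⟩, rfl⟩
    exact ⟨⟨v, h1, rfl⟩, by rw [← map_nsmul, h2, map_zero],
      fun i => by rw [← map_zOp_iterate f hf, h3 i, map_zero]⟩

theorem card_boxG_map {p a t : ℕ} (τ : Fin t → Γ) (U : AddSubgroup M)
    (hU : ∀ (g : Γ), ∀ v ∈ U, g • v ∈ U) (f : M →+ J) (hf : ∀ (g : Γ) v, f (g • v) = g • f v)
    (hi : ∀ v ∈ U, f v = 0 → v = 0) :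
    Nat.card ↥(boxG p a τ (U.map f)) = Nat.card ↥(boxG p a τ U) := by
  symm
  refine Nat.card_congr (Equiv.ofBijective
    (fun v : boxG p a τ U => (⟨f v.1, (mem_boxG_map τ U hU f hf hi).2 ⟨v.1, v.2, rfl⟩⟩ :
      boxG p a τ (U.map f))) ⟨?_, ?_⟩)
  · intro v w hvw
    have h1 : f v.1 = f w.1 := congrArg Subtype.val hvw
    have h2 : v.1 - w.1 = 0 := hi _ (U.sub_mem v.2.1 w.2.1) (by rw [map_sub, h1, sub_self])
    exact Subtype.ext (sub_eq_zero.1 h2)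
  · intro x
    obtain ⟨v, hv, hx⟩ := (mem_boxG_map τ U hU f hf hi).1 x.2
    exact ⟨⟨v, hv⟩, Subtype.ext hx⟩

end Box

end Fermat.Agent.ML.At2
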