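import Fermat.Agent.ML.Main.StepSplit
import Fermat.Agent.ML.ESide.EM
import Fermat.Agent.ML.Lift.Base.Pull

/-!
# ML / AT-2 / N2 / Lower : the entry of `StepTwoStmt`

* `trace_frob_two` : `2 ∈ Pfin` (`W` bad at `2`, `rbar` unramified at `2`) ⟹ `tr rbar(Frob_2) = 3 ε_2` at all places, all Frobenius elements;
* `mixed2_of_mem_Pfin` : hence `Mixed2`;   `ws_odd_ne_bot` : `θ` occurs at the ODD level `M` (`L₀ = M * 4`), with `S = cutS T qv`.
-/

set_option autoImplicit false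
set_option linter.unusedSectionVars false

noncomputable section

open AlgebraicCurve ModularCurve

namespace Fermat.Agent.ML.At2

open Fermat.Agent.RIB Fermat.Agent.GAL Fermat.Agent.ML.ESide

local notation "Qbar" => AlgebraicClosure ℚ
local notation "GQ" => (AlgebraicClosure ℚ ≃ₐ[ℚ] AlgebraicClosure ℚ)
local notation "M₂" => Matrix (Fin 2) (Fin 2)

variable {W : WeierstrassCurve ℤ} {p : ℕ} [Fact p.Prime] {T : Finset ℕ}
  {b : Module.Basis (Fin 2) (ZMod p) (TorsW W p)} {L₀ : ℕ} [NeZero L₀] {eps : ℕ → ℤ} {eP : GQ → ℤ}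

/-- the sign of `W` at a bad prime `q ≠ p` gives the trace of Frobenius on `W[p]`. -/
theorem trace_frob_of_bad (X : LCtx W p T b L₀ eps eP) {q : ℕ} (hq : q.Prime) (hqp : q ≠ p)
    (hbad : (q : ℤ) ∣ W.Δ) (A : ValuationSubring Qbar) (hA : A.LiesOverPrime q) (φ : GQ)
    (hφ : A.IsFrobeniusAt φ q) :
    (rbarB b φ).trace = ((eps q * (q + 1) : ℤ) : ZMod p) := by
  obtain ⟨hε, hSt⟩ := X.sgn q hq hqp hbad
  have hεε : eps q * eps q = 1 := by rcases hε with h | h <;> rw [h] <;> norm_num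
  have hdet : (rEB b φ).det = ((q : ℕ) : ZMod p) := by
    have h1 := X.C.det φ
    rw [show ((ExtCitation.cycloChar p φ : (ZMod p)ˣ) : ZMod p) = (q : ZMod p) from
      GAL.cycloChar_of_isFrobeniusAt hq hqp hA hφ] at h1
    exact h1
  refine (rEB_steinberg b φ q (eps q) hεε hdet fun x => ?_).2
  have h1 := (hSt 1 A hA φ hφ 1 (Subgroup.one_mem _) (x : S58.EQ W)
    (by rw [Set.mem_ofPred_eq, pow_one]; exact nsmul_coe_torsW W x)).2.2
  exact Subtype.ext h1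

theorem trace_frob_two (X : LCtx W p T b L₀ eps eP) (h2 : 2 ∈ Pfin W (rbarB b) L₀)
    (A : ValuationSubring Qbar) (hA : A.LiesOverPrime 2) (φ : GQ) (hφ : A.IsFrobeniusAt φ 2) :
    (rbarB b φ).trace = ((eps 2 * 3 : ℤ) : ZMod p) := by
  have := trace_frob_of_bad X Nat.prime_two (Ne.symm X.C.hp2) (X.dvd_of_mem_Pfin h2) A hA φ hφ
  rw [this]
  norm_num

theorem mixed2_of_mem_Pfin (X : LCtx W p T b L₀ eps eP) (h2 : 2 ∈ Pfin W (rbarB b) L₀) :
    Mixed2 (rbarB b) := by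
  obtain ⟨A, φ, hA, hφ⟩ := S54.exists_isFrobeniusAt Nat.prime_two
  refine ⟨A, hA, φ, hφ, ?_⟩
  rw [trace_frob_two X h2 A hA φ hφ]
  obtain ⟨hε, -⟩ := X.sgn 2 Nat.prime_two (Ne.symm X.C.hp2) (X.dvd_of_mem_Pfin h2)
  rcases hε with h | h <;> rw [h] <;> push_cast <;> ring

/-- `θ` occurs at the odd level. -/
theorem ws_odd_ne_bot (X : LCtx W p T b L₀ eps eP) (h2 : 2 ∈ Pfin W (rbarB b) L₀) {M : ℕ}
    [NeZero M] (hL : L₀ = M * 4) {t : ℕ} (qv : Fin t → Nat.Primes) :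
    WS M p (↑(cutS T qv) : Set ℕ) W.apOfModel ≠ ⊥ := by
  have h1 := (X.BP.occ2 M hL).1 (X.not_ram_of_mem_Pfin h2 (Ne.symm X.C.hp2))
    (mixed2_of_mem_Pfin X h2)
  intro h0
  apply h1
  rw [eq_bot_iff, ← h0]
  exact WS_mono (Finset.coe_subset.2 (subset_cutS T qv))

end Fermat.Agent.ML.At2
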