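import Fermat.Agent.ML.At2.N2.Blocks
import Fermat.Agent.ML.At2.N2.Defs
import Fermat.Agent.ML.At2.N2.Lower
import Fermat.Agent.ML.Lift.Base.Maps
import Fermat.Agent.ML.Lift.Base.Pull

/-!
# ML / At2 / N2 / Common : the blocks `U1`, `U2` of the stage `q = 2` : stability, numerics, (EMB)   (LEV-form)

All the statements are hypotheses of `Lift.raise_step_abs` for
`U := U1 p S θ M qv a`, `G := boxG p a τ U`, `uA := uOdd`, `uE := uTwo ∘ eTwo ε`, `U' := (U2 p S θ M qv a).map uTwo`.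
-/

set_option autoImplicit false
set_option linter.unusedSectionVars false

noncomputable section

open AlgebraicCurve ModularCurve

namespace Fermat.Agent.ML.At2.TwoC

open Fermat.Agent.RIB Fermat.Agent.GAL Fermat.Agent.GAL.PC Fermat.Agent.ML.TWFree
  Fermat.Agent.ML.Lift Fermat.Agent.ML.Lift.Base Fermat.Agent.ML.At2

local notation "Qbar" => AlgebraicClosure ℚ
local notation "GQ" => (AlgebraicClosure ℚ ≃ₐ[ℚ] AlgebraicClosure ℚ)
local notation "M₂" => Matrix (Fin 2) (Fin 2)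

variable {p : ℕ} {S : Set ℕ} {θ : ℕ → ℤ} {M : ℕ} [NeZero M] {t : ℕ} {qv : Fin t → Nat.Primes}
  {a : ℕ}

/-! ### stability -/

theorem smul_mem_U1 (g : GQ) {x : JZero (lev M qv Finset.univ)} (hx : x ∈ U1 p S θ M qv a) :
    g • x ∈ U1 p S θ M qv a := by
  rw [mem_U1] at hx ⊢
  exact ⟨smul_mem_Xnew g hx.1, by rw [← gal_nsmul, hx.2, gal_zero']⟩

theorem smul_mem_U2 (g : GQ) {x : JZero (lev (M * 2) qv Finset.univ)}
    (hx : x ∈ U2 p S θ M qv a) : g • x ∈ U2 p S θ M qv a := by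
  rw [mem_U2, mem_newPart, mem_kerSub] at hx ⊢
  refine ⟨⟨⟨smul_mem_thetaPart g hx.1.1.1, fun k => ?_⟩, fun l hl hl' i => ?_⟩, ?_⟩
  · rw [dnQ_smul, hx.1.1.2 k, gal_zero']
  · rw [PiQ_smul, hx.1.2 l hl hl' i, gal_zero']
  · rw [← gal_nsmul, hx.2, gal_zero']

theorem U1_le : U1 p S θ M qv a ≤ thetaPart (lev M qv Finset.univ) p S θ :=
  fun _ hx => Xnew_le _ hx.1

theorem U2_le : U2 p S θ M qv a ≤ thetaPart (lev (M * 2) qv Finset.univ) p S θ := by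
  intro x hx
  rw [mem_U2, mem_newPart, mem_kerSub] at hx
  exact hx.1.1.1

theorem zOp_iterate_eq {N : ℕ} [NeZero N] (g : GQ) (k : ℕ) (x : JZero N) :
    (Lift.zOp g)^[k] x = (TWLoc.zop g)^[k] x := by
  induction k generalizing x with
  | zero => rfl
  | succ k ih =>
    rw [Function.iterate_succ_apply, Function.iterate_succ_apply, ih]
    rfl

/-- the box of `U1` = the box of `TWFree`. -/
theorem card_boxG_U1 (τ : Fin t → GQ) {k : ℕ} (hk : k ≤ a) :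
    Nat.card ↥(boxG p k τ (U1 p S θ M qv a)) =
      Nat.card {x : JZero (lev M qv Finset.univ) // x ∈ Xnew p S θ M qv Finset.univ ∧
        p ^ k • x = 0 ∧ ∀ i, (TWLoc.zop (τ i))^[k] x = 0} := by
  refine Nat.card_congr (Equiv.subtypeEquivRight fun x => ?_)
  rw [mem_boxG, mem_U1]
  simp only [zOp_iterate_eq]
  constructor
  · rintro ⟨⟨h1, -⟩, h3, h4⟩
    exact ⟨h1, h3, h4⟩
  · rintro ⟨h1, h3, h4⟩
    refine ⟨⟨h1, ?_⟩, h3, h4⟩
    obtain ⟨c, rfl⟩ := Nat.exists_eq_add_of_le hk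
    rw [pow_add, mul_comm, mul_smul, h3, smul_zero]

/-- the box of `U2` = the box of `twfreeK_of`. -/
theorem card_boxG_U2 (τ : Fin t → GQ) {k : ℕ} (hk : k ≤ a) :
    Nat.card ↥(boxG p k τ (U2 p S θ M qv a)) =
      Nat.card {x : JZero (lev (M * 2) qv Finset.univ) //
        x ∈ newPart (fun Q => kerSub (thetaPart (lev (M * 2) qv Q) p S θ)
          (dnQ qv (rfl : M * 2 = M * 2) Q)) (PiQ (M * 2) qv) Finset.univ Finset.univ ∧
        p ^ k • x = 0 ∧ ∀ i, (TWLoc.zop (τ i))^[k] x = 0} := by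
  refine Nat.card_congr (Equiv.subtypeEquivRight fun x => ?_)
  rw [mem_boxG, mem_U2]
  simp only [zOp_iterate_eq]
  constructor
  · rintro ⟨⟨h1, -⟩, h3, h4⟩
    exact ⟨h1, h3, h4⟩
  · rintro ⟨h1, h3, h4⟩
    refine ⟨⟨h1, ?_⟩, h3, h4⟩
    obtain ⟨c, rfl⟩ := Nat.exists_eq_add_of_le hk
    rw [pow_add, mul_comm (p ^ k), mul_smul, h3, smul_zero]

variable [Fact p.Prime] {T : Finset ℕ} {rbar0 : GQ →* M₂ (ZMod p)} {n : ℕ} {τ : Fin t → GQ}

/-- the box of `U1` is Galois stable. -/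
theorem smul_mem_boxG_U1 (EC : MCtx p T θ rbar0) (TC : MTW0 p T θ M t n qv)
    {A : Fin t → ValuationSubring Qbar}
    (hA : ∀ i, (A i).LiesOverPrime ((qv i : Nat.Primes) : ℕ))
    (hτ : ∀ i, τ i ∈ (A i).inertiaSubgroupIn ℚ) (g : GQ) {x : JZero (lev M qv Finset.univ)}
    (hx : x ∈ boxG p a τ (U1 p (↑(cutS T qv) : Set ℕ) θ M qv a)) :
    g • x ∈ boxG p a τ (U1 p (↑(cutS T qv) : Set ℕ) θ M qv a) := by
  have h1 : x ∈ Lift.Base.boxSub p (↑(cutS T qv) : Set ℕ) θ M qv τ a :=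
    ⟨hx.1.1, hx.2.1, fun i => by rw [← zOp_iterate_eq]; exact hx.2.2 i⟩
  have h2 := smul_mem_boxSub EC TC hA hτ g h1
  exact ⟨⟨h2.1, h2.2.1⟩, h2.2.1, fun i => by rw [zOp_iterate_eq]; exact h2.2.2 i⟩

/-- `2^t dim W_θ(M) ≤ dTwo p M t`. -/
theorem finrank_le_dTwo (S : Set ℕ) :
    2 ^ t * Module.finrank (ZMod p) ↥(WS M p S θ) ≤ dTwo p M t := by
  have hp : p.Prime := Fact.out
  refine Nat.mul_le_mul_left _ ?_
  have hfin : Finite {x : JZero M // p • x = 0} :=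
    (finite_torsion_JZero M p hp.ne_zero).to_subtype
  have h1 : Nat.card ↥(WS M p S θ) ≤ Nat.card {x : JZero M // p • x = 0} :=
    Nat.card_le_card_of_injective (fun x => (⟨x.1, x.2.2⟩ : {x : JZero M // p • x = 0}))
      (fun x y h => Subtype.ext (congrArg (fun z : {x : JZero M // p • x = 0} => z.1) h))
  have h2 : Nat.card ↥(WS M p S θ) = p ^ Module.finrank (ZMod p) ↥(WS M p S θ) := by
    rw [Module.natCard_eq_pow_finrank (K := ZMod p), Nat.card_zmod]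
  rw [h2] at h1
  exact (Nat.lt_pow_self hp.one_lt).le.trans h1

/-- **`hcogen`** of `raise_step_abs` for `U1`, with the static exponent `dTwo`. -/
theorem cogen_U1 (EC : MCtx p T θ rbar0) (TC : MTW0 p T θ M t n qv)
    {A : Fin t → ValuationSubring Qbar}
    (hA : ∀ i, (A i).LiesOverPrime ((qv i : Nat.Primes) : ℕ))
    (hτ : ∀ i, τ i ∈ (A i).inertiaSubgroupIn ℚ)
    (hC : IsCube p (↑(cutS T qv) : Set ℕ) θ M qv τ) (ha : 1 ≤ a) :
    Nat.card ↥(boxG p 1 τ (U1 p (↑(cutS T qv) : Set ℕ) θ M qv a)) ≤ p ^ dTwo p M t := by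
  have hp : p.Prime := Fact.out
  rw [card_boxG_U1 τ ha]
  have hrb : ∀ i, rbar0 (τ i) = 1 := fun i =>
    EC.unramT _ (qv i).2 (TC.notT i) (A i) (hA i) (τ i) (hτ i)
  refine le_trans (le_trans (le_of_eq (Nat.card_congr (Equiv.subtypeEquivRight fun x => ?_)))
    (Lift.Base.cogen0 hC EC TC hrb)) (Nat.pow_le_pow_right hp.pos (finrank_le_dTwo _))
  rw [pow_one]
  rfl

/-- **BIG** : the box of `U1`. -/
theorem size_U1 (EC : MCtx p T θ rbar0) (TC : MTW0 p T θ M t n qv)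
    {A : Fin t → ValuationSubring Qbar}
    (hA : ∀ i, (A i).LiesOverPrime ((qv i : Nat.Primes) : ℕ))
    (hτ : ∀ i, τ i ∈ (A i).inertiaSubgroupIn ℚ)
    (hC : IsCube p (↑(cutS T qv) : Set ℕ) θ M qv τ)
    (hW : WS M p (↑(cutS T qv) : Set ℕ) θ ≠ ⊥) (ha : 1 ≤ a) (h2a : 2 * a ≤ n + 1) :
    p ^ (a ^ (t + 1)) ≤ Nat.card ↥(boxG p a τ (U1 p (↑(cutS T qv) : Set ℕ) θ M qv a)) := by
  have hp : p.Prime := Fact.out
  rw [card_boxG_U1 τ le_rfl]
  refine le_trans (Nat.pow_le_pow_right hp.pos ?_) (Lift.Base.box0 EC TC hA hτ hC ha h2a)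
  have hD : 1 ≤ Module.finrank (ZMod p) ↥(WS M p (↑(cutS T qv) : Set ℕ) θ) := by
    by_contra hcon
    have h0 : Module.finrank (ZMod p) ↥(WS M p (↑(cutS T qv) : Set ℕ) θ) = 0 := by omega
    have hc := IsCube.card_WS (p := p) (T := T) (θ := θ) (L₀ := M) (qv := qv)
    rw [h0, pow_zero] at hc
    apply hW
    rw [eq_bot_iff]
    intro x hx
    have := (Nat.card_eq_one_iff_unique.1 hc).1
    exact congrArg Subtype.val (Subsingleton.elim (⟨x, hx⟩ :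
      ↥(WS M p (↑(cutS T qv) : Set ℕ) θ)) 0)
  calc a ^ (t + 1) = 1 * a ^ (t + 1) := (one_mul _).symm
    _ ≤ _ := Nat.mul_le_mul_right _ (Nat.mul_pos (pow_pos (by norm_num) t) hD)

variable {L₀ : ℕ} [NeZero L₀]

/-- the box of `U' = U2.map uTwo`. -/
theorem card_boxG_U2_map (hM : L₀ = M * 4) (τ : Fin t → GQ) (k : ℕ) :
    Nat.card ↥(boxG p k τ ((U2 p S θ M qv a).map (uTwo M qv L₀ hM))) =
      Nat.card ↥(boxG p k τ (U2 p S θ M qv a)) :=
  card_boxG_map τ _ (fun g _ hv => smul_mem_U2 g hv) _ (fun g v => uTwo_smul hM g v)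
    (fun _ hv h0 => uTwo_eq_zero hM (pow_ne_zero a (Fact.out : p.Prime).ne_zero) hv.2 h0)

/-- **`hcogen'`, `hsize'`** of `raise_step_abs` for `U' = U2.map uTwo`. -/
theorem num_U2 (EC : MCtx p T θ rbar0) (TC : MTW0 p T θ (M * 2) t n qv) (h2M : ¬ 2 ∣ M)
    (hM : L₀ = M * 4) {A : Fin t → ValuationSubring Qbar}
    (hA : ∀ i, (A i).LiesOverPrime ((qv i : Nat.Primes) : ℕ))
    (hτ : ∀ i, τ i ∈ (A i).inertiaSubgroupIn ℚ)
    (C2 : IsCube p (↑(cutS T qv) : Set ℕ) θ (M * 2) qv τ)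
    (C1 : IsCube p (↑(cutS T qv) : Set ℕ) θ M qv τ) :
    ∃ D : ℕ, ∀ a : ℕ, 1 ≤ a →
      Nat.card ↥(boxG p 1 τ ((U2 p (↑(cutS T qv) : Set ℕ) θ M qv a).map (uTwo M qv L₀ hM))) ≤
        p ^ D ∧
      (2 * a ≤ n + 1 → p ^ (D * a ^ (t + 1)) ≤
        Nat.card ↥(boxG p a τ ((U2 p (↑(cutS T qv) : Set ℕ) θ M qv a).map (uTwo M qv L₀ hM)))) := by
  obtain ⟨e, -, h1, h2⟩ := twfreeK_of EC TC Nat.prime_two rfl h2M hA hτ C2 C1
  refine ⟨2 ^ t * e, fun a ha => ⟨?_, fun h2a => ?_⟩⟩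
  · rw [card_boxG_U2_map, card_boxG_U2 τ ha]
    refine le_trans (le_of_eq (Nat.card_congr (Equiv.subtypeEquivRight fun x => ?_))) h1
    rw [pow_one]
    rfl
  · rw [card_boxG_U2_map, card_boxG_U2 τ le_rfl]
    exact h2 a ha h2a

end Fermat.Agent.ML.At2.TwoC
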