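import Fermat.Agent.ML.At2.Ctrl.CubeInv
import Fermat.Agent.ML.TWFree.Inst.InBox
import Fermat.Agent.ML.Lift.Trace
import Fermat.Agent.ML.Main.LocCalc

/-!
# ML / At2 / N2 / Cyc421 : the three cubes over `4M`, `2M`, `M` with GENERATORS of inertia   (h05 of `StepTwoStmt`)

* `exists_isCube_421_cyc` : `exists_isCube_421` with one more conjunct : `τ i` GENERATES the image of `I(A i)` on the `p^(ν_i+1)`-torsion
  of the `θ`-part at the top level `lvl (M * 2 * 2) (extP qv) t` (`CycOn`; this is what `inBox_of_cyc` needs; `GenAt` is weaker).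
* `two_box_cyc` : `InBox` on a Galois stable `G ≤ thetaPart (lvl L₀ ..)` killed by `p^a` and the `(zOp (τ i))^a`.
-/

set_option autoImplicit false
set_option linter.unusedSectionVars false

noncomputable section

open AlgebraicCurve ModularCurve

namespace Fermat.Agent.ML.At2

open Fermat.Agent.RIB Fermat.Agent.ML.TWFree

local notation "Qbar" => AlgebraicClosure ℚ
local notation "GQ" => (AlgebraicClosure ℚ ≃ₐ[ℚ] AlgebraicClosure ℚ)
local notation "M₂" => Matrix (Fin 2) (Fin 2)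

variable {p : ℕ} [Fact p.Prime] {T : Finset ℕ} {θ : ℕ → ℤ} {rbar0 : GQ →* M₂ (ZMod p)}
  {M t n : ℕ} [NeZero M] {qv : Fin t → Nat.Primes}

/-- ONE choice of GENERATORS of inertia for the three cubes over `4M`, `2M`, `M`. -/
theorem exists_isCube_421_cyc (EC : MCtx p T θ rbar0) (TC : MTW p T θ (M * 2 * 2) t n qv)
    (hM : ¬ 2 ∣ M) :
    ∃ (A : Fin t → ValuationSubring Qbar) (τ : Fin t → GQ),
      (∀ i, (A i).LiesOverPrime ((qv i : Nat.Primes) : ℕ)) ∧
      (∀ i, τ i ∈ (A i).inertiaSubgroupIn ℚ) ∧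
      GenAt p T θ (M * 2 * 2) qv A τ ∧ GenAt p T θ (M * 2) qv A τ ∧ GenAt p T θ M qv A τ ∧
      IsCube p (↑(cutS T qv) : Set ℕ) θ (M * 2 * 2) qv τ ∧
      IsCube p (↑(cutS T qv) : Set ℕ) θ (M * 2) qv τ ∧
      IsCube p (↑(cutS T qv) : Set ℕ) θ M qv τ ∧
      ∀ i : Fin t, CycOn p (↑(cutS T qv) : Set ℕ) θ ((A i).inertiaSubgroupIn ℚ) (τ i)
        (p ^ (nuP p qv i + 1)) (lvl (M * 2 * 2) (extP qv) t) := by
  obtain ⟨A, τ, hA, hτ, hcyc, htop, hC⟩ := exists_isCube_cyc EC TC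
  have hgen : GenAt p T θ (M * 2 * 2) qv A τ := fun i Q => (hcyc i Q).fixed
  exact ⟨A, τ, hA, hτ, hgen, genAt_two EC TC hgen, genAt_one EC TC hM hgen, hC,
    isCube_two EC TC hA hτ hgen, isCube_one' EC TC hM hA hτ hgen, htop⟩

/-- **h05**, from `CycOn` : `InBox` (all the inertia elements at all the places) from the box of the generators `τ i`. -/
theorem two_box_cyc {L₀ : ℕ} [NeZero L₀] (hM : L₀ = M * 4) {a : ℕ}
    (TC : MTW p T θ (M * 2 * 2) t n qv) (han : a ≤ n)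
    {A : Fin t → ValuationSubring Qbar} {τ : Fin t → GQ}
    (hA : ∀ i, (A i).LiesOverPrime ((qv i : Nat.Primes) : ℕ))
    (hcyc : ∀ i : Fin t, CycOn p (↑(cutS T qv) : Set ℕ) θ ((A i).inertiaSubgroupIn ℚ) (τ i)
      (p ^ (nuP p qv i + 1)) (lvl (M * 2 * 2) (extP qv) t))
    (G : AddSubgroup (JZero (lvl L₀ (extP qv) t)))
    (hle : G ≤ thetaPart (lvl L₀ (extP qv) t) p (↑(cutS T qv) : Set ℕ) θ)
    (hgal : ∀ g : GQ, ∀ x ∈ G, g • x ∈ G) (hGa : ∀ x ∈ G, p ^ a • x = 0)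
    (hz : ∀ i, ∀ x ∈ G, (Lift.zOp (τ i))^[a] x = 0) : ∀ x ∈ G, InBox p qv a x := by
  have hL : L₀ = M * 2 * 2 := by rw [hM]; ring
  subst hL
  exact inBox_of_cyc hA hcyc (le_nuP_succ_of_le TC han) G hle hgal hGa
    (fun i x hx => by rw [zOp_iterate_eq_lift]; exact hz i x hx)

end Fermat.Agent.ML.At2
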