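import Fermat.Agent.ML.Lift.Inst.GenSub
import Fermat.Agent.ML.At2.Loc.Strict2
import Fermat.Agent.ML.At2.N2.Lower

/-!
# ML / AT-2 / N2 / Gen : the MIDDLE block of `Lift.raise_step_abs` for the stage `q = 2`   ([B3] of **StepTwoStmt**)

`N'` any level, `X' ≤ J₀(N')`, `H : Rho.IsRhoK N' (p^(K+1)) X' (rEB B) πE ρ Φ`, `Y ≤ X'` a Galois-stable `R`-submodule which is UNRAMIFIED at `2`
(`Y = uA G`, `G` at the odd level).   `2 ∈ Pfin`, `σ₀` a Frobenius element at `2`, `c₂ = tr ρ(σ₀) - 3 ε₂`.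

* `not_scalar_two` : `rbar(σ₀)` is not scalar;   `pi0_c_two` : `c₂ ∈ ker π0`;
* `strict_two` : `ρ | D_2` is constant modulo `Ann Y ⊔ I`, `c₂ ∈ I`;
* `two_mid` : **(GEN)** `ker π0 ≤ Ann Y ⊔ (u_1, .., u_t) ⊔ (p)` with `u_k ∈ ker π0` and `c₂` among the `u_k`;
* `two_hgen`, `two_hynil`, `two_hbeta` : the hypotheses `hgen`, `hynil`, `hβ'` of `raise_step_abs`, `β' = 3 (tr ρ(σ₀) + 3 ε₂)`, `N = 18 ε₂`.
-/

set_option autoImplicit false
set_option linter.unusedSectionVars false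

noncomputable section

open AlgebraicCurve ModularCurve

namespace Fermat.Agent.ML.At2

open Fermat.Agent.GAL Fermat.Agent.RIB Fermat.Agent.RIB.Rho Fermat.Agent.ML.ESide Fermat.Agent.ML.Rho
  Fermat.Agent.ML.Lift Fermat.Agent.S56 Fermat.Agent.S56.Flat Fermat.Agent.ML.FinGen
  Fermat.Agent.ML.StepGen

local notation "Qbar" => AlgebraicClosure ℚ
local notation "GQ" => (AlgebraicClosure ℚ ≃ₐ[ℚ] AlgebraicClosure ℚ)
local notation "M₂" => Matrix (Fin 2) (Fin 2)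

/-- the prime `2`. -/
def twoPr : Nat.Primes := ⟨2, Nat.prime_two⟩

variable {W : WeierstrassCurve ℤ} {p : ℕ} [Fact p.Prime] {T : Finset ℕ}
  {b : Module.Basis (Fin 2) (ZMod p) (TorsW W p)} {L₀ : ℕ} [NeZero L₀] {eps : ℕ → ℤ} {eP : GQ → ℤ}

/-- `rbar(Frob_2)` is not scalar : trace `3 ε`, determinant `2`. -/
theorem not_scalar_two (X : LCtx W p T b L₀ eps eP) (h2 : 2 ∈ Pfin W (rbarB b) L₀)
    (A : ValuationSubring Qbar) (hA : A.LiesOverPrime 2) (φ : GQ) (hφ : A.IsFrobeniusAt φ 2)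
    (c : ZMod p) : rbarB b φ ≠ c • (1 : M₂ (ZMod p)) := by
  intro hc
  have htr := trace_frob_two X h2 A hA φ hφ
  have hdet : (rbarB b φ).det = ((2 : ℕ) : ZMod p) := by
    have h1 := X.C.det φ
    rw [show ((ExtCitation.cycloChar p φ : (ZMod p)ˣ) : ZMod p) = ((2 : ℕ) : ZMod p) from
      GAL.cycloChar_of_isFrobeniusAt Nat.prime_two (Ne.symm X.C.hp2) hA hφ] at h1
    exact h1
  obtain ⟨hε, -⟩ := X.sgn 2 Nat.prime_two (Ne.symm X.C.hp2) (X.dvd_of_mem_Pfin h2)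
  have hεε : ((eps 2 : ℤ) : ZMod p) * ((eps 2 : ℤ) : ZMod p) = 1 := by
    rcases hε with h | h <;> rw [h] <;> norm_num
  rw [hc] at htr hdet
  have e1 : (c • (1 : M₂ (ZMod p))).trace = 2 * c := by
    rw [Matrix.trace_fin_two]
    simp only [Matrix.smul_apply, Matrix.one_apply_eq, smul_eq_mul, mul_one]
    ring
  have e2 : (c • (1 : M₂ (ZMod p))).det = c * c := by
    rw [Matrix.det_fin_two]
    simp
  rw [e1] at htr
  rw [e2] at hdet
  push_cast at htr hdet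
  have h3 : (1 : ZMod p) = 0 := by
    linear_combination (-(2 * c) - ((eps 2 : ℤ) : ZMod p) * 3) * htr + 4 * hdet - 9 * hεε
  exact one_ne_zero h3

section Ring

variable (X : LCtx W p T b L₀ eps eP) {t K : ℕ} {qv : Fin t → Nat.Primes}
  {N' : ℕ} [NeZero N'] {X' : AddSubgroup (JZero N')}
  {B : Module.Basis (Fin 2) (ZMod (p ^ (K + 1))) (TorsW W (p ^ (K + 1)))}
  (C : TopCtx W p b K B N' X')
  {R : Type} [CommRing R] [Algebra (ZMod (p ^ (K + 1))) R] [Module R ↥X']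
  {πE : R →ₐ[ZMod (p ^ (K + 1))] ZMod (p ^ (K + 1))} {ρ : GQ →* M₂ R}
  {Φ : M₂ R →ₐ[R] Module.End R ↥X'}
  (H : Fermat.Agent.ML.Rho.IsRhoK N' (p ^ (K + 1)) X' (rEB B) πE ρ Φ)

include C H in
theorem pi0_traceN2 (g : GQ) : pi0 πE (ρ g).trace = (rbarB b g).trace := by
  rw [← C.lift H g, Matrix.trace_fin_two, Matrix.trace_fin_two, map_add]
  rfl

include X C H in
/-- `c₂ ∈ ker π0`. -/
theorem pi0_c_two (h2 : 2 ∈ Pfin W (rbarB b) L₀) (A : ValuationSubring Qbar)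
    (hA : A.LiesOverPrime 2) (φ : GQ) (hφ : A.IsFrobeniusAt φ 2) :
    pi0 πE ((ρ φ).trace - ((eps 2 * 3 : ℤ) : R)) = 0 := by
  rw [map_sub, pi0_traceN2 C H, trace_frob_two X h2 A hA φ hφ, map_intCast, sub_self]

include C H in
/-- `ker π0` is nilpotent. -/
theorem exists_ker_pi0_pow [Finite R] : ∃ n : ℕ, RingHom.ker (pi0 πE) ^ n = ⊥ := by
  have hfg : (RingHom.ker (pi0 πE)).FG := IsNoetherian.noetherian _
  exact (Ideal.FG.isNilpotent_iff_le_nilradical hfg).2 (TopCtx.ker_pi0_le_nilradical H)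

include X C H in
/-- **`strict` at `2`**. -/
theorem strict_two [IsLocalRing R] [Finite R] (h2 : 2 ∈ Pfin W (rbarB b) L₀) (Y : Submodule R ↥X')
    (hYG : ∀ (g : GQ), ∀ y ∈ Y, ∀ y' : ↥X', (y' : JZero N') = g • (y : JZero N') → y' ∈ Y)
    (YS : Set (JZero N')) (hYS : ∀ y ∈ Y, ((y : ↥X') : JZero N') ∈ YS) (hur2 : LocUr 2 YS)
    {σ₀ : GQ} (hσ₀ : (ExtCitation.primeLocalPlace twoPr).IsFrobeniusAt σ₀ 2) (I : Ideal R)
    (hc : (ρ σ₀).trace - ((eps 2 * 3 : ℤ) : R) ∈ I) :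
    ∃ M : M₂ R, IsUnit (M.map (pi0 πE)) ∧
      ∀ σ ∈ CFT.decomp twoPr, ConjConst ℤ (Y.annihilator ⊔ I) M (ρ σ) := by
  have hp : p.Prime := Fact.out
  have hA2 : (ExtCitation.primeLocalPlace twoPr).LiesOverPrime 2 := liesOverPrime_primeLocalPlace twoPr
  have hadj : Algebra.adjoin R (Set.range ρ) = ⊤ := X.C.adjoin_range_rho' (C.lift H)
  obtain ⟨n, hn⟩ := exists_ker_pi0_pow C H
  have hnr : ¬ Ram (rbarB b) 2 := X.not_ram_of_mem_Pfin h2 (Ne.symm X.C.hp2)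
  have htors : ∀ σ ∈ inert twoPr, ρ σ ^ (p ^ (0 + n)) = 1 := by
    intro σ hσ
    refine pow_eq_one_of_ent hn ?_ 0 fun i j => ?_
    · rw [RingHom.mem_ker, map_natCast, ZMod.natCast_self]
    · have h1 : (ρ σ).map (pi0 πE) = 1 := by
        rw [C.lift H]
        exact unram_of_not_ram hnr _ hA2 σ hσ
      rw [pow_zero, pow_one, RingHom.mem_ker, Matrix.sub_apply, map_sub]
      have h3 := congrFun (congrFun h1 i) j
      rw [Matrix.map_apply] at h3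
      rw [h3]
      by_cases hij : i = j
      · subst hij
        rw [Matrix.one_apply_eq, Matrix.one_apply_eq, map_one, sub_self]
      · rw [Matrix.one_apply_ne hij, Matrix.one_apply_ne hij, map_zero, sub_self]
  have key := Loc.strict_of_ur (p := p) (V := VJ X' (rEB B) πE ρ Φ) H.rhoAct hadj (C.cont H)
    (π0 := pi0 πE) twoPr (p ^ (0 + n))
    (Nat.Coprime.pow_left _ ((Nat.coprime_primes hp Nat.prime_two).2 X.C.hp2)) htors
    (subVJ (rEB B) πE ρ Φ Y) (fun g x hx => smul_mem_subVJ H hYG g x hx)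
    (fun σ hσ x hx => H.ext_VJ
      (by
        show XJ.incl X' ρ Φ (σ • x.1) = _
        rw [H.coe_gal]
        exact hur2 _ hA2 σ hσ _ (hYS _ hx.1))
      (by
        show σ • x.2 = x.2
        rw [hx.2, smul_zero]))
    hσ₀
    (fun c => by
      rw [C.lift H]
      exact not_scalar_two X h2 _ hA2 σ₀ hσ₀ c)
    2 (eps 2 * 3)
    (by
      rw [C.det_frob H Nat.prime_two (Ne.symm X.C.hp2) hA2 hσ₀]
      norm_num)
    I (Ideal.mem_sup_right hc)
  rwa [annihilator_subVJ] at key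

include X C H in
/-- **(GEN) for the stage `q = 2`.** -/
theorem two_mid [IsLocalRing R] [Finite R] (h2 : 2 ∈ Pfin W (rbarB b) L₀)
    (Wg : TWGenL p (two_ne_zero_kM X.C.hp2) (mapK (kM p) (rbarB b)) (toP T) t qv)
    (hlev : ∀ q : Nat.Primes, q ∉ toP T ∪ Finset.univ.image qv → ¬ (q : ℕ) ∣ N' * p)
    (Y : Submodule R ↥X')
    (hYG : ∀ (g : GQ), ∀ y ∈ Y, ∀ y' : ↥X', (y' : JZero N') = g • (y : JZero N') → y' ∈ Y)
    (hY0 : Y ≠ ⊥) (YS : Set (JZero N')) (hYS : ∀ y ∈ Y, ((y : ↥X') : JZero N') ∈ YS)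
    (hur2 : LocUr 2 YS)
    (hmin : ∀ v ∈ toP T, v ≠ twoPr → v ≠ ExtCitation.pPrime p →
      LocUr (v : ℕ) YS ∨ (Ram (rbarB b) (v : ℕ) ∧ LocUnip (v : ℕ) YS))
    (hatp : FlatData p YS ∨
      ((∀ s ∈ (Ap p).inertiaSubgroupIn ℚ, eP s = 1) ∧ LocPSt p eP (K + 1) YS))
    {σ₀ : GQ} (hσ₀ : (ExtCitation.primeLocalPlace twoPr).IsFrobeniusAt σ₀ 2) :
    ∃ u : Fin t → R, (∀ k, pi0 πE (u k) = 0) ∧
      (∃ k, u k = (ρ σ₀).trace - ((eps 2 * 3 : ℤ) : R)) ∧
      RingHom.ker (pi0 πE) ≤ Y.annihilator ⊔ Ideal.span (Set.range u) ⊔ Ideal.span {(p : R)} := by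
  classical
  have hA2 : (ExtCitation.primeLocalPlace twoPr).LiesOverPrime 2 := liesOverPrime_primeLocalPlace twoPr
  set c₂ : R := (ρ σ₀).trace - ((eps 2 * 3 : ℤ) : R) with hc₂
  have hc0 : pi0 πE c₂ = 0 := pi0_c_two X C H h2 _ hA2 σ₀ hσ₀
  have hnr : ¬ Ram (rbarB b) 2 := X.not_ram_of_mem_Pfin h2 (Ne.symm X.C.hp2)
  have hI : ∀ a ∈ Ideal.span {c₂}, pi0 πE a = 0 := by
    intro a ha
    obtain ⟨d, rfl⟩ := Ideal.mem_span_singleton'.1 ha
    rw [map_mul, hc0, mul_zero]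
  have HG := genHyp_sub X C H hlev Y hYG hY0 YS hYS {twoPr} (Ideal.span {c₂}) hI
    (fun v hv => by
      rw [Finset.mem_singleton] at hv
      subst hv
      exact strict_two X C H h2 Y hYG YS hYS hur2 hσ₀ _ (Ideal.subset_span rfl))
    (fun v hv hvR hvp => hmin v hv (fun e => hvR (Finset.mem_singleton.2 e)) hvp) hatp
  have h2T : twoPr ∈ toP T :=
    mem_toP'.2 (X.hbadT 2 Nat.prime_two (X.dvd_of_mem_Pfin h2))
  have key := X.C.gen_stage Wg (Rs := {twoPr}) (Finset.singleton_subset_iff.2 h2T)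
    (fun h => X.C.hp2 (congrArg Subtype.val (Finset.mem_singleton.1 h))) (fun _ => 1)
    (fun v hv => by
      rw [Finset.mem_singleton] at hv
      subst hv
      exact X.C.weight_one twoPr (fun σ hσ => unram_of_not_ram hnr _ hA2 σ hσ) hσ₀
        (not_scalar_two X h2 _ hA2 σ₀ hσ₀)) HG
  rw [Finset.sum_singleton] at key
  obtain ⟨ht, x, hx, -, hle⟩ := key
  obtain ⟨n, hn⟩ := exists_ker_pi0_pow C H
  have hle' := hle ⟨n, hn⟩
  let u : Fin t → R := fun k => if h : (k : ℕ) = 0 then c₂ else x ⟨(k : ℕ) - 1, by omega⟩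
  have hu0 : u ⟨0, by omega⟩ = c₂ := dif_pos rfl
  have hux : ∀ i : Fin (t - 1), u ⟨(i : ℕ) + 1, by omega⟩ = x i := fun i => by
    show (if h : (i : ℕ) + 1 = 0 then c₂ else x ⟨(i : ℕ) + 1 - 1, _⟩) = x i
    rw [dif_neg (Nat.succ_ne_zero _)]
    rfl
  refine ⟨u, fun k => ?_, ⟨_, hu0⟩, hle'.trans ?_⟩
  · show pi0 πE (if h : (k : ℕ) = 0 then c₂ else x ⟨(k : ℕ) - 1, _⟩) = 0
    split_ifs with h
    · exact hc0
    · exact hx _
  · have h1 : Ideal.span {c₂} ≤ Ideal.span (Set.range u) :=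
      Ideal.span_mono (by rintro _ rfl; exact ⟨_, hu0⟩)
    have h3 : Ideal.span (Set.range x) ≤ Ideal.span (Set.range u) :=
      Ideal.span_mono (by rintro _ ⟨i, rfl⟩; exact ⟨_, hux i⟩)
    refine sup_le (sup_le (sup_le ?_ ?_) ?_) le_sup_right
    · exact le_sup_of_le_left le_sup_left
    · exact le_sup_of_le_left (le_sup_of_le_right h1)
    · exact le_sup_of_le_left (le_sup_of_le_right h3)

include C H in
/-- hypothesis `hgen` of `raise_step_abs` from the conclusion of `two_mid`. -/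
theorem two_hgen {J : Ideal R} (hle : RingHom.ker (pi0 πE) ≤ J) {τ : GQ} (hτ : rbarB b τ = 1) :
    (ρ τ).trace - 2 ∈ J := by
  refine hle ?_
  rw [RingHom.mem_ker, map_sub, pi0_traceN2 C H, hτ, map_ofNat, Matrix.trace_one, Fintype.card_fin]
  norm_num

include H in
/-- hypothesis `hynil` of `raise_step_abs` (`δ = 0`). -/
theorem two_hynil {a : R} (ha : pi0 πE a = 0) : IsNilpotent (a - (p : R) * 0) := by
  rw [mul_zero, sub_zero]
  exact TopCtx.isNilpotent_of_pi0 H ha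

/-- hypothesis `hβ'` of `raise_step_abs` : `β' = 3 (tr ρ(σ₀) + 3 ε)` acts by `18 ε` on the classes killed by `c₂`. -/
theorem two_hbeta {ε : ℤ} {s : R} {x : ↥X'} (hx : (s - ((ε * 3 : ℤ) : R)) • x = 0) :
    (3 * (s + ((ε * 3 : ℤ) : R))) • x = (18 * ε) • x := by
  have h1 : s • x = ((ε * 3 : ℤ) : R) • x := by
    rwa [sub_smul, sub_eq_zero] at hx
  rw [mul_smul, add_smul, h1, ← add_smul, ← mul_smul, ← Int.cast_smul_eq_zsmul R (18 * ε) x]
  congr 1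
  push_cast
  ring

end Ring

end Fermat.Agent.ML.At2
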