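import Fermat.Agent.ML.At2.N2.Gen
import Fermat.Agent.ML.Lift.Base.Loc
import Fermat.Agent.ML.Main.CellMk2
import Fermat.Agent.ML.Rho.TraceRing

/-!
# ML / AT-2 / N2 / GenInst : (GEN) of the stage `q = 2` at the cell level `lvl L₀ (extP qv) t`, all hypotheses discharged

* `two_gen` : `G₄ ≤ thetaPart (lvl L₀ ..)` Galois stable, killed by `p^(K+1)`, UNRAMIFIED at `2`, `Y ≤ X'` the corresponding `R`-submodule
  ⟹ the conclusion of `two_mid`;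
* `two_gen_map` : the same for `Y = H.isTraceRing.mapSub G hG uA hA hAV`   (the shape of `Lift.raise_step_abs`).
-/

set_option autoImplicit false
set_option linter.unusedSectionVars false

noncomputable section

open AlgebraicCurve ModularCurve

namespace Fermat.Agent.ML.At2

open Fermat.Agent.GAL Fermat.Agent.RIB Fermat.Agent.RIB.Rho Fermat.Agent.ML.ESide Fermat.Agent.ML.Rho
  Fermat.Agent.ML.Lift Fermat.Agent.S56 Fermat.Agent.S56.Flat Fermat.Agent.ML.FinGen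
  Fermat.Agent.ML.StepGen

local notation "Qbar" => AlgebraicClosure ℚ
local notation "GQ" => (AlgebraicClosure ℚ ≃ₐ[ℚ] AlgebraicClosure ℚ)
local notation "M₂" => Matrix (Fin 2) (Fin 2)

variable {W : WeierstrassCurve ℤ} {p : ℕ} [Fact p.Prime] {T : Finset ℕ}
  {b : Module.Basis (Fin 2) (ZMod p) (TorsW W p)} {L₀ : ℕ} [NeZero L₀] {eps : ℕ → ℤ} {eP : GQ → ℤ}
  {t F₀ C₀ a m n K : ℕ} {qv : Fin t → Nat.Primes}
  {X' : AddSubgroup (JZero (lvl L₀ (extP qv) t))}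
  {B : Module.Basis (Fin 2) (ZMod (p ^ (K + 1))) (TorsW W (p ^ (K + 1)))}
  {R : Type} [CommRing R] [Algebra (ZMod (p ^ (K + 1))) R] [Module R ↥X']
  {πE : R →ₐ[ZMod (p ^ (K + 1))] ZMod (p ^ (K + 1))} {ρ : GQ →* M₂ R}
  {Φ : M₂ R →ₐ[R] Module.End R ↥X'}

/-- **(GEN) of the stage `q = 2`** at the level of the cells. -/
theorem two_gen [IsLocalRing R] [Finite R] (hLow : LowerStmt) (X : LCtx W p T b L₀ eps eP)
    (h2 : 2 ∈ Pfin W (rbarB b) L₀)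
    (F : Frm p X.C.hp2 T W.apOfModel (rbarB b) t F₀ C₀ a m n K qv)
    (C : TopCtx W p b K B (lvl L₀ (extP qv) t) X')
    (H : Fermat.Agent.ML.Rho.IsRhoK (lvl L₀ (extP qv) t) (p ^ (K + 1)) X' (rEB B) πE ρ Φ)
    (G₄ : AddSubgroup (JZero (lvl L₀ (extP qv) t)))
    (hle : G₄ ≤ thetaPart (lvl L₀ (extP qv) t) p (↑(cutS T qv) : Set ℕ) W.apOfModel)
    (hgal : ∀ g : GQ, ∀ x ∈ G₄, g • x ∈ G₄) (hpa : ∀ x ∈ G₄, p ^ (K + 1) • x = 0)
    (hur2 : LocUr 2 (G₄ : Set (JZero (lvl L₀ (extP qv) t))))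
    (Y : Submodule R ↥X') (hY : ∀ y : ↥X', y ∈ Y ↔ (y : JZero (lvl L₀ (extP qv) t)) ∈ G₄)
    (hY0 : Y ≠ ⊥) {σ₀ : GQ}
    (hσ₀ : (ExtCitation.primeLocalPlace twoPr).IsFrobeniusAt σ₀ 2) :
    ∃ u : Fin t → R, (∀ k, pi0 πE (u k) = 0) ∧
      (∃ k, u k = (ρ σ₀).trace - ((eps 2 * 3 : ℤ) : R)) ∧
      RingHom.ker (pi0 πE) ≤ Y.annihilator ⊔ Ideal.span (Set.range u) ⊔ Ideal.span {(p : R)} := by
  have hp : p.Prime := Fact.out
  have hP : (∅ : Finset ℕ) ⊆ Pfin W (rbarB b) L₀ := Finset.empty_subset _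
  have hLc : L₀ = cellLevel L₀ ∅ := by simp [cellLevel]
  have TC : MTW p T W.apOfModel L₀ t n qv := X.cellMk_mtw F hP hLc
  have htors : ∀ x ∈ (G₄ : Set (JZero (lvl L₀ (extP qv) t))), ∃ k : ℕ, p ^ k • x = 0 :=
    fun x hx => ⟨K + 1, hpa x hx⟩
  refine two_mid X C H h2 F.gen ?_ Y
    (fun g y hy y' hy' => (hY y').2 (hy' ▸ hgal g _ ((hY y).1 hy))) hY0
    (G₄ : Set (JZero (lvl L₀ (extP qv) t))) (fun y hy => (hY y).1 hy) hur2 ?_ ?_ hσ₀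
  · -- the level
    intro q hq hd
    rw [Finset.mem_union, not_or, mem_toP'] at hq
    rcases (Nat.Prime.dvd_mul q.2).1 hd with h | h
    · rcases dvd_lvl_cases t q.2 h with h | ⟨j, hj⟩
      · exact hq.1 (X.BP.levT q q.2 (h.mul_right p))
      · exact hq.2 (Finset.mem_image.2 ⟨j, Finset.mem_univ j, (Subtype.ext hj).symm⟩)
    · exact hq.1 (X.BP.levT q q.2 (h.mul_left L₀))
  · -- the odd primes of `T`
    intro v hv hv2 hvp
    have hvp' : (v : ℕ) ≠ p := fun e => hvp (Subtype.ext e)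
    have hv2' : (v : ℕ) ≠ 2 := fun e => hv2 (Subtype.ext e)
    by_cases hram : Ram (rbarB b) (v : ℕ)
    · exact Or.inr ⟨hram, X.cell_unip_odd hP hLc TC.notT _ htors v.2 hvp' hv2' hram⟩
    · exact Or.inl (X.cell_ur_odd hP hLc TC.notT _ htors v.2 (mem_toP'.1 hv)
        (Finset.notMem_empty _) hvp' hv2' hram)
  · -- at `p`
    by_cases hpL : p ∣ L₀
    · have hpΔ : (p : ℤ) ∣ W.Δ := by
        by_contra hg
        exact X.BP.goodp hg hpL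
      exact Or.inr ⟨(X.sgnP hpΔ).2.1, X.cellMk_atp_Ma hLow F hP hpL L₀ hLc hle hgal hpa⟩
    · refine Or.inl ⟨lvl L₀ (extP qv) t, inferInstance, G₄, AddMonoidHom.id _, K + 1, ?_,
        fun _ _ => rfl, hgal, fun _ _ h => h, hpa, fun y hy => ⟨y, hy, rfl⟩⟩
      intro hd
      rcases dvd_lvl_cases t hp hd with h | ⟨j, hj⟩
      · exact hpL h
      · exact TC.notT j (hj ▸ X.C.p_mem)

/-- **(GEN) of the stage `q = 2`**, in the shape of `Lift.raise_step_abs`. -/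
theorem two_gen_map [IsLocalRing R] [Finite R] (hLow : LowerStmt) (X : LCtx W p T b L₀ eps eP)
    (h2 : 2 ∈ Pfin W (rbarB b) L₀)
    (F : Frm p X.C.hp2 T W.apOfModel (rbarB b) t F₀ C₀ a m n K qv)
    (C : TopCtx W p b K B (lvl L₀ (extP qv) t) X')
    (H : Fermat.Agent.ML.Rho.IsRhoK (lvl L₀ (extP qv) t) (p ^ (K + 1)) X' (rEB B) πE ρ Φ)
    {Mo : Type*} [AddCommGroup Mo] [DistribMulAction GQ Mo] (G : AddSubgroup Mo)
    (hG : ∀ (g : GQ), ∀ v ∈ G, g • v ∈ G) (uA : Mo →+ JZero (lvl L₀ (extP qv) t))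
    (hA : ∀ (g : GQ) v, uA (g • v) = g • uA v) (hAV : ∀ v ∈ G, uA v ∈ X')
    (hAi : ∀ v ∈ G, uA v = 0 → v = 0) (hG0 : ∃ v ∈ G, v ≠ 0)
    (hθ : ∀ v ∈ G, uA v ∈ thetaPart (lvl L₀ (extP qv) t) p (↑(cutS T qv) : Set ℕ) W.apOfModel)
    (hur2 : LocUr 2 (uA '' (G : Set Mo))) {σ₀ : GQ}
    (hσ₀ : (ExtCitation.primeLocalPlace twoPr).IsFrobeniusAt σ₀ 2) :
    ∃ u : Fin t → R, (∀ k, pi0 πE (u k) = 0) ∧
      (∃ k, u k = (ρ σ₀).trace - ((eps 2 * 3 : ℤ) : R)) ∧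
      RingHom.ker (pi0 πE) ≤ (H.isTraceRing.mapSub G hG uA hA hAV).annihilator ⊔
        Ideal.span (Set.range u) ⊔ Ideal.span {(p : R)} := by
  refine two_gen hLow X h2 F C H (G.map uA) ?_ ?_ ?_ ?_ _ (fun y => Iff.rfl) ?_ hσ₀
  · rintro _ ⟨v, hv, rfl⟩
    exact hθ v hv
  · rintro g _ ⟨v, hv, rfl⟩
    exact ⟨g • v, hG g v hv, hA g v⟩
  · rintro _ ⟨v, hv, rfl⟩
    exact C.hXm _ (hAV v hv)
  · exact hur2
  · intro h0
    obtain ⟨v, hv, hv0⟩ := hG0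
    have h1 : (⟨uA v, hAV v hv⟩ : ↥X') ∈ H.isTraceRing.mapSub G hG uA hA hAV := ⟨v, hv, rfl⟩
    rw [h0, Submodule.mem_bot] at h1
    exact hv0 (hAi v hv (congrArg Subtype.val h1))

end Fermat.Agent.ML.At2
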