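import Fermat.Agent.ML.At2.N2.Gen
import Fermat.Agent.ML.Lift.Base.Loc
import Fermat.Agent.ML.Lift.Soft.Spec
import Fermat.Agent.ML.Lift.Soft.MidLoc
import Fermat.Agent.ML.Main.CellMk2

/-!
# ML / AT-2 / N2 / GenLow : the MIDDLE block of `Lift.step_core` for the stage `q = 2`, at the NON-rigid level

`L₀ = M * 2 * 2`, `N = lvl M (extP qv) t` (odd), `Nq = lvl (M * 2) (extP qv) t`, `h = lvl_mul_q (rfl : M * 2 = M * 2) qv : Nq = N * 2`,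
`X' ≤ J₀(Nq)` any, `H : Rho.IsRhoK Nq (p^(K+1)) X' (rEB B) πE ρ Φ`, `G ≤ thetaPart N` Galois stable, killed by `p^a`.

* `GenLow.two_gen_low` : `hu` and `gen` of `Lift.step_core`, `c₂ = tr ρ(σ₀) - 3 ε₂` is one of the `u k`;
* `GenLow.two_val_low`, `GenLow.two_frob_low`, `GenLow.two_hN_low` : `val`, `frob`, `hN` of `Lift.step_core` for `δ = 0`,
  `β' = tr ρ(σ₀) + 3 ε₂`, `Nn = 6 ε₂`, `f = 1`;
* `GenLow.two_mid_low` : all of them in ONE existential.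
-/

set_option autoImplicit false
set_option linter.unusedSectionVars false

noncomputable section

open AlgebraicCurve ModularCurve

namespace Fermat.Agent.ML.At2.GenLow

open Fermat.Agent.GAL Fermat.Agent.RIB Fermat.Agent.RIB.Rho Fermat.Agent.ML.ESide Fermat.Agent.ML.Rho
  Fermat.Agent.ML.Lift Fermat.Agent.S56 Fermat.Agent.S56.Flat Fermat.Agent.ML.FinGen
  Fermat.Agent.ML.StepGen Fermat.Agent.ML.At2 Fermat.Agent.ML.TWFree Fermat.Agent.ML.Raise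

local notation "Qbar" => AlgebraicClosure ℚ
local notation "GQ" => (AlgebraicClosure ℚ ≃ₐ[ℚ] AlgebraicClosure ℚ)
local notation "M₂" => Matrix (Fin 2) (Fin 2)

variable {W : WeierstrassCurve ℤ} {p : ℕ} [Fact p.Prime] {T : Finset ℕ}
  {b : Module.Basis (Fin 2) (ZMod p) (TorsW W p)} {L₀ : ℕ} [NeZero L₀] {eps : ℕ → ℤ} {eP : GQ → ℤ}
  {M : ℕ} [NeZero M] {t F₀ C₀ a m n K : ℕ} {qv : Fin t → Nat.Primes}
  {X' : AddSubgroup (JZero (lvl (M * 2) (extP qv) t))}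
  {B : Module.Basis (Fin 2) (ZMod (p ^ (K + 1))) (TorsW W (p ^ (K + 1)))}
  {R : Type} [CommRing R] [Algebra (ZMod (p ^ (K + 1))) R] [Module R ↥X']
  {πE : R →ₐ[ZMod (p ^ (K + 1))] ZMod (p ^ (K + 1))} {ρ : GQ →* M₂ R}
  {Φ : M₂ R →ₐ[R] Module.End R ↥X'}

/-- **(GEN) of the stage `q = 2`** at the level `lvl (M * 2)`. -/
theorem two_gen_low [IsLocalRing R] [Finite R] (X : LCtx W p T b L₀ eps eP)
    (h2 : 2 ∈ Pfin W (rbarB b) L₀) (hM : L₀ = M * 2 * 2)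
    (F : Frm p X.C.hp2 T W.apOfModel (rbarB b) t F₀ C₀ a m n K qv)
    (C : TopCtx W p b K B (lvl (M * 2) (extP qv) t) X')
    (H : Fermat.Agent.ML.Rho.IsRhoK (lvl (M * 2) (extP qv) t) (p ^ (K + 1)) X' (rEB B) πE ρ Φ)
    (G : AddSubgroup (JZero (lvl M (extP qv) t)))
    (hgal : ∀ g : GQ, ∀ x ∈ G, g • x ∈ G) (hpa : ∀ x ∈ G, p ^ a • x = 0) (hG0 : G ≠ ⊥)
    (hGV : ∀ v ∈ G, upE (lvl_mul_q (rfl : M * 2 = M * 2) qv) 0 v ∈ X')
    (hinj : ∀ v ∈ G, upE (lvl_mul_q (rfl : M * 2 = M * 2) qv) 0 v = 0 → v = 0)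
    (hatp : FlatData p (upE (lvl_mul_q (rfl : M * 2 = M * 2) qv) 0 ''
        (G : Set (JZero (lvl M (extP qv) t)))) ∨
      ((∀ s ∈ (Ap p).inertiaSubgroupIn ℚ, eP s = 1) ∧
        LocPSt p eP (K + 1) (upE (lvl_mul_q (rfl : M * 2 = M * 2) qv) 0 ''
          (G : Set (JZero (lvl M (extP qv) t))))))
    {σ₀ : GQ} (hσ₀ : (ExtCitation.primeLocalPlace twoPr).IsFrobeniusAt σ₀ 2) :
    ∃ u : Fin t → R, (∀ k, pi0 πE (u k) = 0) ∧
      (∃ k, u k = (ρ σ₀).trace - ((eps 2 * 3 : ℤ) : R)) ∧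
      RingHom.ker (pi0 πE) ≤
        annG X' R (G.map (upE (lvl_mul_q (rfl : M * 2 = M * 2) qv) 0)) ⊔
          Ideal.span (Set.range u) ⊔ Ideal.span {(p : R)} := by
  classical
  have hp : p.Prime := Fact.out
  have hP : (∅ : Finset ℕ) ⊆ Pfin W (rbarB b) L₀ := Finset.empty_subset _
  have hLc : L₀ = cellLevel L₀ ∅ := by simp [cellLevel]
  have TC : MTW p T W.apOfModel L₀ t n qv := X.cellMk_mtw F hP hLc
  obtain ⟨M', hM', hodd', hsq⟩ := X.BP.shape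
  have hMM : M = M' := by omega
  subst hMM
  set h := lvl_mul_q (rfl : M * 2 = M * 2) qv with hh
  set YS : Set (JZero (lvl (M * 2) (extP qv) t)) :=
    upE h 0 '' (G : Set (JZero (lvl M (extP qv) t))) with hYSdef
  have htors : ∀ x ∈ YS, ∃ k : ℕ, p ^ k • x = 0 := by
    rintro _ ⟨v, hv, rfl⟩
    exact ⟨a, by rw [← map_nsmul, hpa v hv, map_zero]⟩
  have hdvd : M * 2 ∣ L₀ := ⟨2, hM⟩
  have hq2 : ∀ j, ((qv j : Nat.Primes) : ℕ) ≠ 2 := fun j e =>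
    TC.notT j (e ▸ X.hbadT 2 Nat.prime_two (X.dvd_of_mem_Pfin h2))
  -- the submodule
  have hG₁ : ∀ s : GQ, ∀ x ∈ G.map (upE h 0), s • x ∈ G.map (upE h 0) := by
    rintro g _ ⟨v, hv, rfl⟩
    exact ⟨g • v, hgal g v hv, upE_smul h 0 g v⟩
  have hG₁X : G.map (upE h 0) ≤ X' := by
    rintro _ ⟨v, hv, rfl⟩
    exact hGV v hv
  have hG₁0 : G.map (upE h 0) ≠ ⊥ := by
    intro h0
    apply hG0
    rw [eq_bot_iff]
    intro v hv
    have h1 : upE h 0 v ∈ G.map (upE h 0) := ⟨v, hv, rfl⟩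
    rw [h0, AddSubgroup.mem_bot] at h1
    exact AddSubgroup.mem_bot.2 (hinj v hv h1)
  rw [annG_eq H _ hG₁]
  refine two_mid X C H h2 F.gen ?_ (midSub H _ hG₁) (fun g => midSub_gal H g)
    (midSub_ne_bot H hG₁X hG₁0) YS (fun y hy => hy) ?_ ?_ hatp hσ₀
  · -- the level
    intro q hq hd
    rw [Finset.mem_union, not_or, mem_toP'] at hq
    rcases (Nat.Prime.dvd_mul q.2).1 hd with h' | h'
    · rcases dvd_lvl_cases t q.2 h' with h' | ⟨j, hj⟩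
      · exact hq.1 (X.BP.levT q q.2 ((h'.trans hdvd).mul_right p))
      · exact hq.2 (Finset.mem_image.2 ⟨j, Finset.mem_univ j, (Subtype.ext hj).symm⟩)
    · exact hq.1 (X.BP.levT q q.2 (h'.mul_left L₀))
  · -- unramified at `2`
    refine LocUr.image ?_ (upE h 0) (fun g v => upE_smul h 0 g v)
    refine locUr_of_not_dvd (p := p) Nat.prime_two (fun hd => ?_) _ (fun x hx => ⟨a, hpa x hx⟩)
    rcases (Nat.Prime.dvd_mul Nat.prime_two).1 hd with h' | h'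
    · rcases dvd_lvl_cases t Nat.prime_two h' with h' | ⟨j, hj⟩
      · exact (Nat.not_even_iff_odd.2 hodd') (even_iff_two_dvd.2 h')
      · exact hq2 j hj.symm
    · exact X.C.hp2 ((Nat.prime_dvd_prime_iff_eq Nat.prime_two hp).1 h').symm
  · -- the odd primes of `T`
    intro v hv hv2 hvp
    have hvp' : (v : ℕ) ≠ p := fun e => hvp (Subtype.ext e)
    have hv2' : (v : ℕ) ≠ 2 := fun e => hv2 (Subtype.ext e)
    have hvT : (v : ℕ) ∈ T := mem_toP'.1 hv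
    by_cases hram : Ram (rbarB b) (v : ℕ)
    · refine Or.inr ⟨hram, locUnip_of_not_sq v.2 hp hvp' ?_ _ htors⟩
      refine not_sq_dvd_lvl_of v.2 (fun j hj => TC.notT j (hj ▸ hvT)) (fun hd => ?_) t
      exact not_sq_dvd_of_shape hsq v v.2 hv2' (hM' ▸ hd.trans hdvd)
    · refine Or.inl (locUr_of_not_dvd v.2 (fun hd => ?_) _ htors)
      rcases (Nat.Prime.dvd_mul v.2).1 hd with h' | h'
      · rcases dvd_lvl_cases t v.2 h' with h' | ⟨j, hj⟩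
        · exact hram (X.BP.ram v v.2 (h'.trans hdvd) hv2' hvp')
        · exact TC.notT j (hj ▸ hvT)
      · exact hvp' ((Nat.prime_dvd_prime_iff_eq v.2 hp).1 h')

/-- **`hN`** : `f = 1`. -/
theorem two_hN_low (X : LCtx W p T b L₀ eps eP) (h2 : 2 ∈ Pfin W (rbarB b) L₀) :
    ¬ (p : ℤ) ^ (1 + 1) ∣ 6 * eps 2 := by
  have hp : p.Prime := Fact.out
  obtain ⟨hε, -⟩ := X.sgn 2 Nat.prime_two (Ne.symm X.C.hp2) (X.dvd_of_mem_Pfin h2)
  intro hd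
  have h6 : (p : ℤ) ^ (1 + 1) ∣ 6 := by
    rcases hε with h | h <;> rw [h] at hd
    · simpa using hd
    · have := (dvd_neg (a := (p : ℤ) ^ (1 + 1)) (b := 6 * -1)).2 hd
      simpa using this
  have h6' : p ^ (1 + 1) ∣ 6 := by exact_mod_cast h6
  have hle := Nat.le_of_dvd (by norm_num) h6'
  have hp3 : 3 ≤ p := by
    have := hp.two_le
    have := X.C.hp2
    omega
  have h9 : 3 ^ (1 + 1) ≤ p ^ (1 + 1) := Nat.pow_le_pow_left hp3 _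
  omega

/-- **`val`** : `c₂ x = 0 ⟹ (tr ρ(σ₀) + 3 ε₂) x = 6 ε₂ x`. -/
theorem two_val_low {V : Type*} [AddCommGroup V] [Module R V] (ε : ℤ) (tr : R) (x : V)
    (hx : (tr - ((ε * 3 : ℤ) : R)) • x = 0) :
    (tr + (ε : R) * (((2 : ℕ) : R) + 1)) • x = (6 * ε) • x := by
  have e : tr + (ε : R) * (((2 : ℕ) : R) + 1) = (tr - ((ε * 3 : ℤ) : R)) + ((6 * ε : ℤ) : R) := by
    push_cast
    ring
  rw [e, add_smul, hx, zero_add, Int.cast_smul_eq_zsmul]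

/-- **`frob`** : `c₂ x = 0 ⟹ σ₀ x + 2 σ₀⁻¹ x = 3 ε₂ x`. -/
theorem two_frob_low (X : LCtx W p T b L₀ eps eP)
    (C : TopCtx W p b K B (lvl (M * 2) (extP qv) t) X')
    (H : Fermat.Agent.ML.Rho.IsRhoK (lvl (M * 2) (extP qv) t) (p ^ (K + 1)) X' (rEB B) πE ρ Φ)
    {σ₀ : GQ} (hσ₀ : (ExtCitation.primeLocalPlace twoPr).IsFrobeniusAt σ₀ 2) (x : ↥X')
    (hx : ((ρ σ₀).trace - ((eps 2 * 3 : ℤ) : R)) • x = 0) :
    σ₀ • (x : JZero (lvl (M * 2) (extP qv) t)) +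
        2 • σ₀⁻¹ • (x : JZero (lvl (M * 2) (extP qv) t)) =
      (eps 2 * (((2 : ℕ) : ℤ) + 1)) • (x : JZero (lvl (M * 2) (extP qv) t)) := by
  have hA2 : (ExtCitation.primeLocalPlace twoPr).LiesOverPrime 2 :=
    liesOverPrime_primeLocalPlace twoPr
  have hdet : (ρ σ₀).det = (((twoPr : Nat.Primes) : ℕ) : R) :=
    C.det_frob H Nat.prime_two (Ne.symm X.C.hp2) hA2 hσ₀
  refine mid_frob H (v := twoPr) (ε := eps 2) hdet x ?_
  rw [← hx]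
  congr 1
  have : (((twoPr : Nat.Primes) : ℕ) : R) = 2 := by
    show ((2 : ℕ) : R) = 2
    norm_num
  rw [this]
  push_cast
  ring

/-- **the middle block of `Lift.step_core`** for the stage `q = 2` :
`δ = 0`, `β' = tr ρ(σ₀) + 3 ε₂`, `Nn = 6 ε₂`, `f = 1`. -/
theorem two_mid_low [IsLocalRing R] [Finite R] (X : LCtx W p T b L₀ eps eP)
    (h2 : 2 ∈ Pfin W (rbarB b) L₀) (hM : L₀ = M * 2 * 2)
    (F : Frm p X.C.hp2 T W.apOfModel (rbarB b) t F₀ C₀ a m n K qv)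
    (C : TopCtx W p b K B (lvl (M * 2) (extP qv) t) X')
    (H : Fermat.Agent.ML.Rho.IsRhoK (lvl (M * 2) (extP qv) t) (p ^ (K + 1)) X' (rEB B) πE ρ Φ)
    (G : AddSubgroup (JZero (lvl M (extP qv) t)))
    (hgal : ∀ g : GQ, ∀ x ∈ G, g • x ∈ G) (hpa : ∀ x ∈ G, p ^ a • x = 0) (hG0 : G ≠ ⊥)
    (hGV : ∀ v ∈ G, upE (lvl_mul_q (rfl : M * 2 = M * 2) qv) 0 v ∈ X')
    (hinj : ∀ v ∈ G, upE (lvl_mul_q (rfl : M * 2 = M * 2) qv) 0 v = 0 → v = 0)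
    (hatp : FlatData p (upE (lvl_mul_q (rfl : M * 2 = M * 2) qv) 0 ''
        (G : Set (JZero (lvl M (extP qv) t)))) ∨
      ((∀ s ∈ (Ap p).inertiaSubgroupIn ℚ, eP s = 1) ∧
        LocPSt p eP (K + 1) (upE (lvl_mul_q (rfl : M * 2 = M * 2) qv) 0 ''
          (G : Set (JZero (lvl M (extP qv) t))))))
    {σ₀ : GQ} (hσ₀ : (ExtCitation.primeLocalPlace twoPr).IsFrobeniusAt σ₀ 2) :
    ∃ u δ : Fin t → R, (∀ k, pi0 πE (u k) = 0) ∧
      RingHom.ker (pi0 πE) ≤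
        annG X' R (G.map (upE (lvl_mul_q (rfl : M * 2 = M * 2) qv) 0)) ⊔
          Ideal.span (Set.range u) ⊔ Ideal.span {(p : R)} ∧
      ¬ (p : ℤ) ^ (1 + 1) ∣ 6 * eps 2 ∧
      (∀ x : ↥X', (x : JZero (lvl (M * 2) (extP qv) t)) ∈
          G.map (upE (lvl_mul_q (rfl : M * 2 = M * 2) qv) 0) →
        (∀ k, (u k - (p : R) * δ k) • x = 0) →
        ((ρ σ₀).trace + ((eps 2 : ℤ) : R) * (((2 : ℕ) : R) + 1)) • x = (6 * eps 2) • x) ∧
      (∀ x : ↥X', (x : JZero (lvl (M * 2) (extP qv) t)) ∈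
          G.map (upE (lvl_mul_q (rfl : M * 2 = M * 2) qv) 0) →
        (∀ k, (u k - (p : R) * δ k) • x = 0) →
        ∃ (A : ValuationSubring Qbar) (σ : GQ), A.LiesOverPrime 2 ∧ A.IsFrobeniusAt σ 2 ∧
          σ • (x : JZero (lvl (M * 2) (extP qv) t)) +
              2 • σ⁻¹ • (x : JZero (lvl (M * 2) (extP qv) t)) =
            (eps 2 * (((2 : ℕ) : ℤ) + 1)) • (x : JZero (lvl (M * 2) (extP qv) t))) := by
  obtain ⟨u, hu, ⟨k₀, hk₀⟩, hgen⟩ := two_gen_low X h2 hM F C H G hgal hpa hG0 hGV hinj hatp hσ₀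
  have hc : ∀ x : ↥X', (∀ k, (u k - (p : R) * (0 : Fin t → R) k) • x = 0) →
      ((ρ σ₀).trace - ((eps 2 * 3 : ℤ) : R)) • x = 0 := by
    intro x hx
    have := hx k₀
    rwa [Pi.zero_apply, mul_zero, sub_zero, hk₀] at this
  refine ⟨u, 0, hu, hgen, two_hN_low X h2, fun x _ hx => two_val_low (eps 2) _ x (hc x hx),
    fun x _ hx => ⟨_, σ₀, liesOverPrime_primeLocalPlace twoPr, hσ₀,
      two_frob_low X C H hσ₀ x (hc x hx)⟩⟩

end Fermat.Agent.ML.At2.GenLow
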