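import Fermat.Agent.ML.TWFree.Inst.QSq
import Fermat.Agent.RIB.Grow.Div
import Fermat.Agent.ML.Ihara.Theta
import Fermat.Agent.ML.Ihara.Tors

/-!
# ML / At2 / N2 / Geo : `[N2-GEO]` the degeneracy maps at `2` on the cube of levels

Levels `lev M qv Q`, `lev (M * 2) qv Q`, `lev (M * 4) qv Q` (`M` odd in the applications).

* factorisation of the two-step maps `ioE`, `PiE` through the one-step maps `upE`, `dnE`;
* `delUp c`, `delDn c` (`δ_c^*`, `δ_{c *}`, `c = 0 : τ`, `c = 1 : 2τ`) between the levels `2M'` and `4M'`;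
* `d1Up`, `d1Dn` (`d_1^*`, `d_{1 *}`, `2τ`) between the levels `M'` and `4M'`;
* `e2 = δ_0^* δ_{0 *}`, `beta2 = d_1^* d_{1 *}` : endomorphisms of `J₀(4M')` commuting with `G_ℚ`, `T_r`, `ioQ`, `PiQ`;
* images, inertia at `2` on the image of `beta2`, non vanishing of `beta2`.
-/

set_option autoImplicit false
set_option linter.unusedSectionVars false

noncomputable section

open AlgebraicCurve ModularCurve

namespace Fermat.Agent.ML.At2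

open Fermat.Agent.S24 Fermat.Agent.RIB Fermat.Agent.GAL Fermat.Agent.GAL.PC Fermat.Agent.ML
  Fermat.Agent.ML.TWFree

local notation "Qbar" => AlgebraicClosure ℚ
local notation "GQ" => (AlgebraicClosure ℚ ≃ₐ[ℚ] AlgebraicClosure ℚ)

/-! ### factorisation of the two-step maps -/

section Factor

variable (N q : ℕ) [NeZero N] [NeZero q]

theorem pullB_pullA (x : JZero N) :
    pullB (N * q) q (pullA N q x) = pullA (N * q) q (pullB N q x) := by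
  rw [pullA_eq_jPull, pullA_eq_jPull, pullB_eq_jPull, pullB_eq_jPull, ← jPull_comp, ← jPull_comp,
    ((isDg_alpha N q).comp (isDg_beta (N * q) q)).ext
      ((isDg_beta N q).comp (isDg_alpha (N * q) q)) (mul_comm _ _)]

theorem pushA_pushB (y : JZero (N * q * q)) :
    SS.pushA N q (SS.pushB (N * q) q y) = SS.pushB N q (SS.pushA (N * q) q y) := by
  rw [pushA_eq_jPush, pushA_eq_jPush, pushB_eq_jPush, pushB_eq_jPush, ← jPush_comp, ← jPush_comp,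
    ((isDg_alpha N q).comp (isDg_beta (N * q) q)).ext
      ((isDg_beta N q).comp (isDg_alpha (N * q) q)) (mul_comm _ _)]

variable {N q} {N1 N2 : ℕ} [NeZero N1] [NeZero N2]

theorem ioE_zero_eq (h1 : N1 = N * q) (h2 : N2 = N1 * q) (h : N2 = N * q * q) (x : JZero N) :
    ioE h 0 x = upE h2 0 (upE h1 0 x) := by subst h1 h2; rfl

theorem ioE_one_eq (h1 : N1 = N * q) (h2 : N2 = N1 * q) (h : N2 = N * q * q) (x : JZero N) :
    ioE h 1 x = upE h2 0 (upE h1 1 x) := by subst h1 h2; rfl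

theorem ioE_one_eq' (h1 : N1 = N * q) (h2 : N2 = N1 * q) (h : N2 = N * q * q) (x : JZero N) :
    ioE h 1 x = upE h2 1 (upE h1 0 x) := by
  subst h1 h2; exact (pullB_pullA N q x).symm

theorem ioE_two_eq (h1 : N1 = N * q) (h2 : N2 = N1 * q) (h : N2 = N * q * q) (x : JZero N) :
    ioE h 2 x = upE h2 1 (upE h1 1 x) := by subst h1 h2; rfl

theorem PiE_zero_eq (h1 : N1 = N * q) (h2 : N2 = N1 * q) (h : N2 = N * q * q) (y : JZero N2) :
    PiE h 0 y = dnE h1 0 (dnE h2 0 y) := by subst h1 h2; rfl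

theorem PiE_one_eq (h1 : N1 = N * q) (h2 : N2 = N1 * q) (h : N2 = N * q * q) (y : JZero N2) :
    PiE h 1 y = dnE h1 1 (dnE h2 0 y) := by subst h1 h2; rfl

theorem PiE_one_eq' (h1 : N1 = N * q) (h2 : N2 = N1 * q) (h : N2 = N * q * q) (y : JZero N2) :
    PiE h 1 y = dnE h1 0 (dnE h2 1 y) := by
  subst h1 h2; exact (pushA_pushB N q y).symm

theorem PiE_two_eq (h1 : N1 = N * q) (h2 : N2 = N1 * q) (h : N2 = N * q * q) (y : JZero N2) :
    PiE h 2 y = dnE h1 1 (dnE h2 1 y) := by subst h1 h2; rfl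

end Factor

/-! ### the maps at `2` on the cube -/

section Two

variable (M : ℕ) [NeZero M] {t : ℕ} (qv : Fin t → Nat.Primes)

theorem four_eq : M * 4 = M * 2 * 2 := by ring

/-- `δ_c^* : J₀(2M') → J₀(4M')` -/
def delUp (Q : Finset (Fin t)) (c : Fin 2) :
    JZero (lev (M * 2) qv Q) →+ JZero (lev (M * 4) qv Q) := upQ qv (four_eq M) Q c

/-- `δ_{c *} : J₀(4M') → J₀(2M')` -/
def delDn (Q : Finset (Fin t)) (c : Fin 2) :
    JZero (lev (M * 4) qv Q) →+ JZero (lev (M * 2) qv Q) := dnQ qv (four_eq M) Q c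

/-- `d_1^* : J₀(M') → J₀(4M')` -/
def d1Up (Q : Finset (Fin t)) : JZero (lev M qv Q) →+ JZero (lev (M * 4) qv Q) :=
  up2Q qv (four_eq M) Q 1

/-- `d_{1 *} : J₀(4M') → J₀(M')` -/
def d1Dn (Q : Finset (Fin t)) : JZero (lev (M * 4) qv Q) →+ JZero (lev M qv Q) :=
  dn2Q qv (four_eq M) Q 1

/-- `2 e = δ_0^* δ_{0 *}` -/
def e2 (Q : Finset (Fin t)) : JZero (lev (M * 4) qv Q) →+ JZero (lev (M * 4) qv Q) :=
  (delUp M qv Q 0).comp (delDn M qv Q 0)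

/-- `β_2 = d_1^* d_{1 *}` -/
def beta2 (Q : Finset (Fin t)) : JZero (lev (M * 4) qv Q) →+ JZero (lev (M * 4) qv Q) :=
  (d1Up M qv Q).comp (d1Dn M qv Q)

variable {M qv}

theorem e2_apply (Q : Finset (Fin t)) (x : JZero (lev (M * 4) qv Q)) :
    e2 M qv Q x = delUp M qv Q 0 (delDn M qv Q 0 x) := rfl

theorem beta2_apply (Q : Finset (Fin t)) (x : JZero (lev (M * 4) qv Q)) :
    beta2 M qv Q x = d1Up M qv Q (d1Dn M qv Q x) := rfl

/-- `d_1^* = δ_0^* β^* = δ_1^* α^*`. -/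
theorem d1Up_eq (Q : Finset (Fin t)) (x : JZero (lev M qv Q)) :
    d1Up M qv Q x = delUp M qv Q 0 (upQ qv (rfl : M * 2 = M * 2) Q 1 x) :=
  ioE_one_eq (lev_mul qv rfl Q) (lev_mul qv (four_eq M) Q) (lev_mul2 qv (four_eq M) Q) x

theorem d1Up_eq' (Q : Finset (Fin t)) (x : JZero (lev M qv Q)) :
    d1Up M qv Q x = delUp M qv Q 1 (upQ qv (rfl : M * 2 = M * 2) Q 0 x) :=
  ioE_one_eq' (lev_mul qv rfl Q) (lev_mul qv (four_eq M) Q) (lev_mul2 qv (four_eq M) Q) x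

theorem d1Dn_eq (Q : Finset (Fin t)) (y : JZero (lev (M * 4) qv Q)) :
    d1Dn M qv Q y = dnQ qv (rfl : M * 2 = M * 2) Q 1 (delDn M qv Q 0 y) :=
  PiE_one_eq (lev_mul qv rfl Q) (lev_mul qv (four_eq M) Q) (lev_mul2 qv (four_eq M) Q) y

theorem d1Dn_eq' (Q : Finset (Fin t)) (y : JZero (lev (M * 4) qv Q)) :
    d1Dn M qv Q y = dnQ qv (rfl : M * 2 = M * 2) Q 0 (delDn M qv Q 1 y) :=
  PiE_one_eq' (lev_mul qv rfl Q) (lev_mul qv (four_eq M) Q) (lev_mul2 qv (four_eq M) Q) y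

/-! #### degrees -/

theorem delDn_delUp (Q : Finset (Fin t)) (c : Fin 2) (x : JZero (lev (M * 2) qv Q)) :
    delDn M qv Q c (delUp M qv Q c x) = 2 • x :=
  dnE_upE_of_dvd Nat.prime_two ((Dvd.intro_left M rfl).trans (dvd_lev_self (M * 2) qv Q)) _ c x

theorem d1Dn_d1Up (Q : Finset (Fin t)) (h2 : ¬ 2 ∣ lev M qv Q) (x : JZero (lev M qv Q)) :
    d1Dn M qv Q (d1Up M qv Q x) = 6 • x :=
  PiE_ioE_self Nat.prime_two h2 _ 1 x

theorem e2_delUp (Q : Finset (Fin t)) (x : JZero (lev (M * 2) qv Q)) :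
    e2 M qv Q (delUp M qv Q 0 x) = 2 • delUp M qv Q 0 x := by
  rw [e2_apply, delDn_delUp, map_nsmul]

theorem e2_e2 (Q : Finset (Fin t)) (x : JZero (lev (M * 4) qv Q)) :
    e2 M qv Q (e2 M qv Q x) = 2 • e2 M qv Q x := e2_delUp Q _

theorem beta2_d1Up (Q : Finset (Fin t)) (h2 : ¬ 2 ∣ lev M qv Q) (x : JZero (lev M qv Q)) :
    beta2 M qv Q (d1Up M qv Q x) = 6 • d1Up M qv Q x := by
  rw [beta2_apply, d1Dn_d1Up Q h2, map_nsmul]

theorem beta2_beta2 (Q : Finset (Fin t)) (h2 : ¬ 2 ∣ lev M qv Q)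
    (x : JZero (lev (M * 4) qv Q)) :
    beta2 M qv Q (beta2 M qv Q x) = 6 • beta2 M qv Q x := beta2_d1Up Q h2 _

/-- `2 ∤ lev M qv Q` for `M` odd and odd Taylor-Wiles primes. -/
theorem not_two_dvd_lev (hM : ¬ 2 ∣ M) (hqv : ∀ i, ((qv i : Nat.Primes) : ℕ) ≠ 2)
    (Q : Finset (Fin t)) : ¬ 2 ∣ lev M qv Q := fun h => by
  rcases dvd_lev Nat.prime_two h with h | ⟨i, _, h⟩
  · exact hM h
  · exact hqv i h.symm

/-! #### Galois, Hecke -/

theorem delUp_smul (Q : Finset (Fin t)) (c : Fin 2) (σ : GQ) (x : JZero (lev (M * 2) qv Q)) :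
    delUp M qv Q c (σ • x) = σ • delUp M qv Q c x := upQ_smul _ Q c σ x

theorem delDn_smul (Q : Finset (Fin t)) (c : Fin 2) (σ : GQ) (y : JZero (lev (M * 4) qv Q)) :
    delDn M qv Q c (σ • y) = σ • delDn M qv Q c y := dnQ_smul _ Q c σ y

theorem d1Up_smul (Q : Finset (Fin t)) (σ : GQ) (x : JZero (lev M qv Q)) :
    d1Up M qv Q (σ • x) = σ • d1Up M qv Q x := up2Q_smul _ Q 1 σ x

theorem d1Dn_smul (Q : Finset (Fin t)) (σ : GQ) (y : JZero (lev (M * 4) qv Q)) :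
    d1Dn M qv Q (σ • y) = σ • d1Dn M qv Q y := dn2Q_smul _ Q 1 σ y

theorem e2_smul (Q : Finset (Fin t)) (σ : GQ) (y : JZero (lev (M * 4) qv Q)) :
    e2 M qv Q (σ • y) = σ • e2 M qv Q y := by
  rw [e2_apply, e2_apply, delDn_smul, delUp_smul]

theorem beta2_smul (Q : Finset (Fin t)) (σ : GQ) (y : JZero (lev (M * 4) qv Q)) :
    beta2 M qv Q (σ • y) = σ • beta2 M qv Q y := by
  rw [beta2_apply, beta2_apply, d1Dn_smul, d1Up_smul]

variable {p : ℕ} {S : Set ℕ} {θ : ℕ → ℤ}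

theorem e2_hecke (Q : Finset (Fin t)) (r : Nat.Primes) (hr : ¬ (r : ℕ) ∣ lev (M * 4) qv Q * p)
    (y : JZero (lev (M * 4) qv Q)) (hy : y ∈ ptors (JZero (lev (M * 4) qv Q)) p) :
    e2 M qv Q (heckeOperatorBar _ r y) = heckeOperatorBar _ r (e2 M qv Q y) :=
  SS.map_hecke_of_equivariant (SS.es_all _ p).2 (SS.es_all _ p).2 (e2 M qv Q) (e2_smul Q) r
    hr hr y hy

theorem beta2_hecke (Q : Finset (Fin t)) (r : Nat.Primes)
    (hr : ¬ (r : ℕ) ∣ lev (M * 4) qv Q * p)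
    (y : JZero (lev (M * 4) qv Q)) (hy : y ∈ ptors (JZero (lev (M * 4) qv Q)) p) :
    beta2 M qv Q (heckeOperatorBar _ r y) = heckeOperatorBar _ r (beta2 M qv Q y) :=
  SS.map_hecke_of_equivariant (SS.es_all _ p).2 (SS.es_all _ p).2 (beta2 M qv Q) (beta2_smul Q) r
    hr hr y hy

/-! #### commutation with the maps of the cube -/

theorem ioQ_e2 (Q Q' : Finset (Fin t)) (a : Fin t) (hne : 2 ≠ ((qv a : Nat.Primes) : ℕ))
    (j : Fin 3) (x : JZero (lev (M * 4) qv Q)) :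
    ioQ (M * 4) qv Q Q' a j (e2 M qv Q x) = e2 M qv Q' (ioQ (M * 4) qv Q Q' a j x) := by
  rw [e2_apply, e2_apply, delUp, delUp, delDn, delDn, ioQ_upQ,
    dnQ_ioQ Nat.prime_two _ Q Q' a hne]

theorem PiQ_e2 (Q Q' : Finset (Fin t)) (a : Fin t) (hne : 2 ≠ ((qv a : Nat.Primes) : ℕ))
    (j : Fin 3) (y : JZero (lev (M * 4) qv Q')) :
    PiQ (M * 4) qv Q Q' a j (e2 M qv Q' y) = e2 M qv Q (PiQ (M * 4) qv Q Q' a j y) := by
  rw [e2_apply, e2_apply, delUp, delUp, delDn, delDn, PiQ_upQ Nat.prime_two _ Q Q' a hne,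
    PiQ_dnQ]

theorem ioQ_beta2 (Q Q' : Finset (Fin t)) (a : Fin t) (hne : 2 ≠ ((qv a : Nat.Primes) : ℕ))
    (j : Fin 3) (x : JZero (lev (M * 4) qv Q)) :
    ioQ (M * 4) qv Q Q' a j (beta2 M qv Q x) = beta2 M qv Q' (ioQ (M * 4) qv Q Q' a j x) := by
  rw [beta2_apply, beta2_apply, d1Up, d1Up, d1Dn, d1Dn, ioQ_up2Q,
    dn2Q_ioQ Nat.prime_two _ Q Q' a hne]

theorem PiQ_beta2 (Q Q' : Finset (Fin t)) (a : Fin t) (hne : 2 ≠ ((qv a : Nat.Primes) : ℕ))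
    (j : Fin 3) (y : JZero (lev (M * 4) qv Q')) :
    PiQ (M * 4) qv Q Q' a j (beta2 M qv Q' y) = beta2 M qv Q (PiQ (M * 4) qv Q Q' a j y) := by
  rw [beta2_apply, beta2_apply, d1Up, d1Up, d1Dn, d1Dn, PiQ_up2Q Nat.prime_two _ Q Q' a hne,
    PiQ_dn2Q]

theorem e2_TQ (Q : Finset (Fin t)) (b : Fin t)
    (hb : ¬ ((qv b : Nat.Primes) : ℕ) ∣ lev (M * 4) qv Q * p)
    (y : JZero (lev (M * 4) qv Q)) (hy : y ∈ ptors (JZero (lev (M * 4) qv Q)) p) :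
    e2 M qv Q (TQ (M * 4) qv Q b y) = TQ (M * 4) qv Q b (e2 M qv Q y) := e2_hecke Q (qv b) hb y hy

theorem beta2_TQ (Q : Finset (Fin t)) (b : Fin t)
    (hb : ¬ ((qv b : Nat.Primes) : ℕ) ∣ lev (M * 4) qv Q * p)
    (y : JZero (lev (M * 4) qv Q)) (hy : y ∈ ptors (JZero (lev (M * 4) qv Q)) p) :
    beta2 M qv Q (TQ (M * 4) qv Q b y) = TQ (M * 4) qv Q b (beta2 M qv Q y) :=
  beta2_hecke Q (qv b) hb y hy

/-- `β_2` commutes with `v ↦ x_v`. -/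
theorem beta2_xv (Q Q' : Finset (Fin t)) (a : Fin t) (hne : 2 ≠ ((qv a : Nat.Primes) : ℕ))
    (hb : ¬ ((qv a : Nat.Primes) : ℕ) ∣ lev (M * 4) qv Q * p)
    (v : JZero (lev (M * 4) qv Q)) (hv : v ∈ ptors (JZero (lev (M * 4) qv Q)) p) :
    beta2 M qv Q' (Grow.Hyp.xv (TQ (M * 4) qv Q a) (ioQ (M * 4) qv Q Q' a) v) =
      Grow.Hyp.xv (TQ (M * 4) qv Q a) (ioQ (M * 4) qv Q Q' a) (beta2 M qv Q v) := by
  rw [Grow.Hyp.xv_apply, Grow.Hyp.xv_apply, map_add, map_sub, ← ioQ_beta2 Q Q' a hne,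
    ← ioQ_beta2 Q Q' a hne, ← ioQ_beta2 Q Q' a hne, beta2_TQ Q a hb v hv]

theorem e2_xv (Q Q' : Finset (Fin t)) (a : Fin t) (hne : 2 ≠ ((qv a : Nat.Primes) : ℕ))
    (hb : ¬ ((qv a : Nat.Primes) : ℕ) ∣ lev (M * 4) qv Q * p)
    (v : JZero (lev (M * 4) qv Q)) (hv : v ∈ ptors (JZero (lev (M * 4) qv Q)) p) :
    e2 M qv Q' (Grow.Hyp.xv (TQ (M * 4) qv Q a) (ioQ (M * 4) qv Q Q' a) v) =
      Grow.Hyp.xv (TQ (M * 4) qv Q a) (ioQ (M * 4) qv Q Q' a) (e2 M qv Q v) := by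
  rw [Grow.Hyp.xv_apply, Grow.Hyp.xv_apply, map_add, map_sub, ← ioQ_e2 Q Q' a hne,
    ← ioQ_e2 Q Q' a hne, ← ioQ_e2 Q Q' a hne, e2_TQ Q a hb v hv]

/-! #### `θ`-parts and multi-new parts -/

section Theta

variable (Q : Finset (Fin t)) (hS : ∀ r : ℕ, r.Prime → r ∉ S → ¬ r ∣ lev (M * 4) qv Q * p)

include hS

theorem delUp_mem_thetaPart (c : Fin 2) {x : JZero (lev (M * 2) qv Q)}
    (hx : x ∈ thetaPart (lev (M * 2) qv Q) p S θ) :
    delUp M qv Q c x ∈ thetaPart (lev (M * 4) qv Q) p S θ := upQ_mem_thetaPart _ Q hS c hx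

theorem delDn_mem_thetaPart (c : Fin 2) {y : JZero (lev (M * 4) qv Q)}
    (hy : y ∈ thetaPart (lev (M * 4) qv Q) p S θ) :
    delDn M qv Q c y ∈ thetaPart (lev (M * 2) qv Q) p S θ := dnQ_mem_thetaPart _ Q hS c hy

theorem d1Up_mem_thetaPart {x : JZero (lev M qv Q)} (hx : x ∈ thetaPart (lev M qv Q) p S θ) :
    d1Up M qv Q x ∈ thetaPart (lev (M * 4) qv Q) p S θ := up2Q_mem_thetaPart _ Q hS 1 hx

theorem d1Dn_mem_thetaPart {y : JZero (lev (M * 4) qv Q)}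
    (hy : y ∈ thetaPart (lev (M * 4) qv Q) p S θ) :
    d1Dn M qv Q y ∈ thetaPart (lev M qv Q) p S θ := dn2Q_mem_thetaPart _ Q hS 1 hy

theorem e2_mem_thetaPart {y : JZero (lev (M * 4) qv Q)}
    (hy : y ∈ thetaPart (lev (M * 4) qv Q) p S θ) :
    e2 M qv Q y ∈ thetaPart (lev (M * 4) qv Q) p S θ :=
  delUp_mem_thetaPart Q hS 0 (delDn_mem_thetaPart Q hS 0 hy)

theorem beta2_mem_thetaPart {y : JZero (lev (M * 4) qv Q)}
    (hy : y ∈ thetaPart (lev (M * 4) qv Q) p S θ) :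
    beta2 M qv Q y ∈ thetaPart (lev (M * 4) qv Q) p S θ :=
  d1Up_mem_thetaPart Q hS (d1Dn_mem_thetaPart Q hS hy)

variable (R : Finset (Fin t)) (hne : ∀ a ∈ R, 2 ≠ ((qv a : Nat.Primes) : ℕ))

theorem delDn_mem_newPart (c : Fin 2) {y : JZero (lev (M * 4) qv Q)}
    (hy : y ∈ newPart (fun Q => thetaPart (lev (M * 4) qv Q) p S θ) (PiQ (M * 4) qv) R Q) :
    delDn M qv Q c y ∈ newPart (fun Q => thetaPart (lev (M * 2) qv Q) p S θ) (PiQ (M * 2) qv) R Q :=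
  dnQ_mem_newPart _ R Q hS c hy

theorem d1Dn_mem_newPart {y : JZero (lev (M * 4) qv Q)}
    (hy : y ∈ newPart (fun Q => thetaPart (lev (M * 4) qv Q) p S θ) (PiQ (M * 4) qv) R Q) :
    d1Dn M qv Q y ∈ newPart (fun Q => thetaPart (lev M qv Q) p S θ) (PiQ M qv) R Q :=
  dn2Q_mem_newPart _ R Q hS 1 hy

include hne

theorem delUp_mem_newPart (c : Fin 2) {x : JZero (lev (M * 2) qv Q)}
    (hx : x ∈ newPart (fun Q => thetaPart (lev (M * 2) qv Q) p S θ) (PiQ (M * 2) qv) R Q) :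
    delUp M qv Q c x ∈ newPart (fun Q => thetaPart (lev (M * 4) qv Q) p S θ) (PiQ (M * 4) qv) R Q :=
  upQ_mem_newPart Nat.prime_two _ R Q hne hS c hx

theorem d1Up_mem_newPart {x : JZero (lev M qv Q)}
    (hx : x ∈ newPart (fun Q => thetaPart (lev M qv Q) p S θ) (PiQ M qv) R Q) :
    d1Up M qv Q x ∈ newPart (fun Q => thetaPart (lev (M * 4) qv Q) p S θ) (PiQ (M * 4) qv) R Q :=
  up2Q_mem_newPart Nat.prime_two _ R Q hne hS 1 hx

theorem e2_mem_newPart {y : JZero (lev (M * 4) qv Q)}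
    (hy : y ∈ newPart (fun Q => thetaPart (lev (M * 4) qv Q) p S θ) (PiQ (M * 4) qv) R Q) :
    e2 M qv Q y ∈ newPart (fun Q => thetaPart (lev (M * 4) qv Q) p S θ) (PiQ (M * 4) qv) R Q :=
  delUp_mem_newPart Q hS R hne 0 (delDn_mem_newPart Q hS R 0 hy)

theorem beta2_mem_newPart {y : JZero (lev (M * 4) qv Q)}
    (hy : y ∈ newPart (fun Q => thetaPart (lev (M * 4) qv Q) p S θ) (PiQ (M * 4) qv) R Q) :
    beta2 M qv Q y ∈ newPart (fun Q => thetaPart (lev (M * 4) qv Q) p S θ) (PiQ (M * 4) qv) R Q :=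
  d1Up_mem_newPart Q hS R hne (d1Dn_mem_newPart Q hS R hy)

end Theta

end Two

/-! ### prime-to-`p` multiplications on `p`-power torsion -/

section Cop

variable {J : Type*} [AddCommGroup J]

theorem eq_zero_of_coprime_nsmul {c n : ℕ} (h : Nat.Coprime c n) {x : J} (h1 : c • x = 0)
    (h2 : n • x = 0) : x = 0 := by
  have := Nat.dvd_gcd (addOrderOf_dvd_of_nsmul_eq_zero h1) (addOrderOf_dvd_of_nsmul_eq_zero h2)
  rw [h.gcd_eq_one, Nat.dvd_one] at this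
  exact AddMonoid.addOrderOf_eq_one_iff.1 this

/-- division by `c` prime to `n` inside a subgroup, on `n`-torsion. -/
theorem exists_nsmul_eq_of_coprime {c n : ℕ} (h : Nat.Coprime c n) (X : AddSubgroup J) {x : J}
    (hx : x ∈ X) (h2 : n • x = 0) : ∃ y ∈ X, n • y = 0 ∧ c • y = x := by
  refine ⟨(Nat.gcdA c n) • x, X.zsmul_mem hx _, ?_, ?_⟩
  · rw [smul_comm, h2, smul_zero]
  · have h1 := Nat.gcd_eq_gcd_ab c n
    rw [h.gcd_eq_one] at h1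
    have h3 : ((c : ℤ) * Nat.gcdA c n) • x = x := by
      have : ((c : ℤ) * Nat.gcdA c n) = 1 - (Nat.gcdB c n) * n := by
        push_cast at h1; linarith
      rw [this, sub_smul, one_smul, mul_smul, natCast_zsmul, h2, smul_zero, sub_zero]
    rw [← natCast_zsmul, ← mul_smul]
    exact h3

/-- a nonzero `p`-power torsion element has a nonzero multiple of order `p`. -/
theorem exists_ptors_ne_zero {p : ℕ} (X : AddSubgroup J) {x : J} (hx : x ∈ X) (h0 : x ≠ 0) (k : ℕ)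
    (hk : p ^ k • x = 0) : ∃ u ∈ X, u ≠ 0 ∧ p • u = 0 := by
  induction k generalizing x with
  | zero => exact absurd (by simpa using hk) h0
  | succ k ih =>
    by_cases h1 : p • x = 0
    · exact ⟨x, hx, h0, h1⟩
    · exact ih (X.nsmul_mem hx p) h1 (by rw [← mul_smul, ← pow_succ]; exact hk)

end Cop

section Main

variable {M : ℕ} [NeZero M] {t : ℕ} {qv : Fin t → Nat.Primes} {p : ℕ} {S : Set ℕ} {θ : ℕ → ℤ}

theorem coprime_two_pow (hp : p.Prime) (hp2 : p ≠ 2) (k : ℕ) : Nat.Coprime 2 (p ^ k) :=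
  Nat.Coprime.pow_right k ((Nat.coprime_primes Nat.prime_two hp).2 (Ne.symm hp2))

/-- `δ_c^*` is injective on `p`-power torsion (`p` odd). -/
theorem delUp_eq_zero (hp : p.Prime) (hp2 : p ≠ 2) (Q : Finset (Fin t)) (c : Fin 2)
    {x : JZero (lev (M * 2) qv Q)} (hx : x ∈ ptors (JZero (lev (M * 2) qv Q)) p)
    (h0 : delUp M qv Q c x = 0) : x = 0 := by
  obtain ⟨k, hk⟩ := hx
  have h1 : 2 • x = 0 := by rw [← delDn_delUp Q c, h0, map_zero]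
  exact eq_zero_of_coprime_nsmul (coprime_two_pow hp hp2 k) h1 hk

/-- `d_1^*` is injective on the `θ`-part (Ihara). -/
theorem d1Up_eq_zero (hp : p.Prime) (hp2 : p ≠ 2) (hAP : NonEisAP p S θ) (h2S : 2 ∈ S)
    (Q : Finset (Fin t)) (h2 : ¬ 2 ∣ lev M qv Q) {x : JZero (lev M qv Q)}
    (hx : x ∈ thetaPart (lev M qv Q) p S θ) (h0 : d1Up M qv Q x = 0) : x = 0 := by
  rw [d1Up_eq] at h0
  have h1 : upQ qv (rfl : M * 2 = M * 2) Q 1 x = 0 :=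
    delUp_eq_zero hp hp2 Q 0 (SS.map_mem_ptors' _ hx.1) h0
  have h3 : pullB (lev M qv Q) 2 x = 0 := by
    have h4 : castJ (lev_mul qv (rfl : M * 2 = M * 2) Q).symm (pullB (lev M qv Q) 2 x) = 0 := h1
    exact (AddEquiv.map_eq_zero_iff _).1 h4
  exact (ihara_theta hp (iharaTors Nat.prime_two h2) hAP h2S (thetaPart _ p S θ).zero_mem hx
    (by rw [map_zero, zero_add, h3])).2

/-- `δ_{c *}` is onto on the `p^k`-torsion of the multi-new parts (`p` odd). -/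
theorem exists_delDn_eq (hp : p.Prime) (hp2 : p ≠ 2) (Q R : Finset (Fin t))
    (hS : ∀ r : ℕ, r.Prime → r ∉ S → ¬ r ∣ lev (M * 4) qv Q * p)
    (hne : ∀ a ∈ R, 2 ≠ ((qv a : Nat.Primes) : ℕ)) (c : Fin 2) (k : ℕ)
    {u : JZero (lev (M * 2) qv Q)}
    (hu : u ∈ newPart (fun Q => thetaPart (lev (M * 2) qv Q) p S θ) (PiQ (M * 2) qv) R Q)
    (hpu : p ^ k • u = 0) :
    ∃ v ∈ newPart (fun Q => thetaPart (lev (M * 4) qv Q) p S θ) (PiQ (M * 4) qv) R Q,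
      p ^ k • v = 0 ∧ delDn M qv Q c v = u := by
  obtain ⟨u', hu', hpu', h2u'⟩ := exists_nsmul_eq_of_coprime (coprime_two_pow hp hp2 k) _ hu hpu
  exact ⟨delUp M qv Q c u', delUp_mem_newPart Q hS R hne c hu', by rw [← map_nsmul, hpu', map_zero],
    by rw [delDn_delUp, h2u']⟩

/-- `d_{1 *}` is onto on the `p^k`-torsion of the `θ`-parts (dual Ihara). -/
theorem exists_d1Dn_eq (hp : p.Prime) (hp2 : p ≠ 2) (hAP : NonEisAP p S θ) (h2S : 2 ∈ S)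
    (Q : Finset (Fin t)) (h2 : ¬ 2 ∣ lev M qv Q)
    (hS : ∀ r : ℕ, r.Prime → r ∉ S → ¬ r ∣ lev (M * 4) qv Q * p) (k : ℕ)
    {u : JZero (lev M qv Q)} (hu : u ∈ thetaPart (lev M qv Q) p S θ) (hpu : p ^ k • u = 0) :
    ∃ v ∈ thetaPart (lev (M * 4) qv Q) p S θ, p ^ k • v = 0 ∧ d1Dn M qv Q v = u := by
  have hS' : ∀ r : ℕ, r.Prime → r ∉ S → ¬ r ∣ lev M qv Q * 2 * p := fun r hr hrS hd =>
    hS r hr hrS (hd.trans (Nat.mul_dvd_mul_right
      (by rw [lev_mul2 qv (four_eq M) Q]; exact Dvd.intro _ rfl) p))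
  obtain ⟨y, hy, hpy, -, hyB⟩ := ihara_dual hp (iharaTors Nat.prime_two h2) hAP h2S hS' k
    (thetaPart _ p S θ).zero_mem hu (smul_zero _) hpu
  set y' : JZero (lev (M * 2) qv Q) := castJ (lev_mul qv (rfl : M * 2 = M * 2) Q).symm y with hy'
  have hy'm : y' ∈ thetaPart (lev (M * 2) qv Q) p S θ := (castJ_mem_thetaPart _).2 hy
  have hpy' : p ^ k • y' = 0 := by rw [hy', ← map_nsmul, hpy, map_zero]
  have hd : dnQ qv (rfl : M * 2 = M * 2) Q 1 y' = u := by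
    show SS.pushB (lev M qv Q) 2 (castJ _ y') = u
    rw [hy', castJ_castJ, castJ_rfl, hyB]
  obtain ⟨y'', hy'', hpy'', h2y''⟩ :=
    exists_nsmul_eq_of_coprime (coprime_two_pow hp hp2 k) _ hy'm hpy'
  refine ⟨delUp M qv Q 0 y'', delUp_mem_thetaPart Q hS 0 hy'', by
    rw [← map_nsmul, hpy'', map_zero], ?_⟩
  rw [d1Dn_eq, delDn_delUp, h2y'', hd]

/-- inertia at `2` acts trivially on the image of `d_1^*`. -/
theorem smul_d1Up (Q : Finset (Fin t)) (h2 : ¬ 2 ∣ lev M qv Q * p)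
    {A : ValuationSubring Qbar} (hA : A.LiesOverPrime 2) {τ : GQ}
    (hτ : τ ∈ A.inertiaSubgroupIn ℚ) {x : JZero (lev M qv Q)}
    (hx : x ∈ ptors (JZero (lev M qv Q)) p) : τ • d1Up M qv Q x = d1Up M qv Q x := by
  rw [← d1Up_smul, (SS.es_all _ p).1 2 Nat.prime_two h2 A hA τ hτ x hx]

/-- inertia at `2` acts trivially on the image of `β_2`. -/
theorem smul_beta2 (Q : Finset (Fin t)) (h2 : ¬ 2 ∣ lev M qv Q * p)
    {A : ValuationSubring Qbar} (hA : A.LiesOverPrime 2) {τ : GQ}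
    (hτ : τ ∈ A.inertiaSubgroupIn ℚ) {y : JZero (lev (M * 4) qv Q)}
    (hy : y ∈ ptors (JZero (lev (M * 4) qv Q)) p) : τ • beta2 M qv Q y = beta2 M qv Q y :=
  smul_d1Up Q h2 hA hτ (SS.map_mem_ptors' _ hy)

/-- the image of `2e = δ_0^* δ_{0 *}` on the multi-new part. -/
theorem e2_image (hp : p.Prime) (hp2 : p ≠ 2) (Q R : Finset (Fin t))
    (hS : ∀ r : ℕ, r.Prime → r ∉ S → ¬ r ∣ lev (M * 4) qv Q * p)
    (hne : ∀ a ∈ R, 2 ≠ ((qv a : Nat.Primes) : ℕ)) (k : ℕ) (y : JZero (lev (M * 4) qv Q)) :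
    (∃ x ∈ newPart (fun Q => thetaPart (lev (M * 4) qv Q) p S θ) (PiQ (M * 4) qv) R Q,
        p ^ k • x = 0 ∧ e2 M qv Q x = y) ↔
      ∃ u ∈ newPart (fun Q => thetaPart (lev (M * 2) qv Q) p S θ) (PiQ (M * 2) qv) R Q,
        p ^ k • u = 0 ∧ delUp M qv Q 0 u = y := by
  constructor
  · rintro ⟨x, hx, hpx, rfl⟩
    exact ⟨delDn M qv Q 0 x, delDn_mem_newPart Q hS R 0 hx, by rw [← map_nsmul, hpx, map_zero], rfl⟩
  · rintro ⟨u, hu, hpu, rfl⟩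
    obtain ⟨v, hv, hpv, hvu⟩ := exists_delDn_eq hp hp2 Q R hS hne 0 k hu hpu
    exact ⟨v, hv, hpv, by rw [e2_apply, hvu]⟩

/-- the image of `β_2 = d_1^* d_{1 *}` on the `p^k`-torsion of the `θ`-part. -/
theorem beta2_image (hp : p.Prime) (hp2 : p ≠ 2) (hAP : NonEisAP p S θ) (h2S : 2 ∈ S)
    (Q : Finset (Fin t)) (h2 : ¬ 2 ∣ lev M qv Q)
    (hS : ∀ r : ℕ, r.Prime → r ∉ S → ¬ r ∣ lev (M * 4) qv Q * p) (k : ℕ)
    (y : JZero (lev (M * 4) qv Q)) :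
    (∃ x ∈ thetaPart (lev (M * 4) qv Q) p S θ, p ^ k • x = 0 ∧ beta2 M qv Q x = y) ↔
      ∃ u ∈ thetaPart (lev M qv Q) p S θ, p ^ k • u = 0 ∧ d1Up M qv Q u = y := by
  constructor
  · rintro ⟨x, hx, hpx, rfl⟩
    exact ⟨d1Dn M qv Q x, d1Dn_mem_thetaPart Q hS hx, by rw [← map_nsmul, hpx, map_zero], rfl⟩
  · rintro ⟨u, hu, hpu, rfl⟩
    obtain ⟨v, hv, hpv, hvu⟩ := exists_d1Dn_eq hp hp2 hAP h2S Q h2 hS k hu hpu
    exact ⟨v, hv, hpv, by rw [beta2_apply, hvu]⟩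

/-- **[T2-G]** `Th(M') ≠ 0 ⟹ β_2 Th(4M')[p] ≠ 0`. -/
theorem exists_beta2_ne_zero (hp : p.Prime) (hp2 : p ≠ 2) (hAP : NonEisAP p S θ) (h2S : 2 ∈ S)
    (Q : Finset (Fin t)) (h2 : ¬ 2 ∣ lev M qv Q)
    (hS : ∀ r : ℕ, r.Prime → r ∉ S → ¬ r ∣ lev (M * 4) qv Q * p)
    (hne : thetaPart (lev M qv Q) p S θ ≠ ⊥) :
    ∃ v ∈ thetaPart (lev (M * 4) qv Q) p S θ, p • v = 0 ∧ beta2 M qv Q v ≠ 0 := by
  obtain ⟨⟨x, hx⟩, hx0'⟩ := AddSubgroup.ne_bot_iff_exists_ne_zero.1 hne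
  have hx0 : x ≠ 0 := fun h => hx0' (Subtype.ext h)
  obtain ⟨k, hk⟩ := hx.1
  obtain ⟨u, hu, hu0, hpu⟩ := exists_ptors_ne_zero _ hx hx0 k hk
  obtain ⟨v, hv, hpv, hvu⟩ := exists_d1Dn_eq hp hp2 hAP h2S Q h2 hS 1 hu (by rwa [pow_one])
  refine ⟨v, hv, by rwa [pow_one] at hpv, fun h0 => hu0 ?_⟩
  rw [beta2_apply, hvu] at h0
  exact d1Up_eq_zero hp hp2 hAP h2S Q h2 hu h0

/-- **[T2-M]** (first half) `Th(2M') ≠ 0 ⟹ e_2 Th(4M')[p] ≠ 0`. -/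
theorem exists_e2_ne_zero (hp : p.Prime) (hp2 : p ≠ 2) (Q : Finset (Fin t))
    (hS : ∀ r : ℕ, r.Prime → r ∉ S → ¬ r ∣ lev (M * 4) qv Q * p)
    (hne : thetaPart (lev (M * 2) qv Q) p S θ ≠ ⊥) :
    ∃ v ∈ thetaPart (lev (M * 4) qv Q) p S θ, p • v = 0 ∧ e2 M qv Q v ≠ 0 := by
  obtain ⟨⟨x, hx⟩, hx0'⟩ := AddSubgroup.ne_bot_iff_exists_ne_zero.1 hne
  have hx0 : x ≠ 0 := fun h => hx0' (Subtype.ext h)
  obtain ⟨k, hk⟩ := hx.1
  obtain ⟨u, hu, hu0, hpu⟩ := exists_ptors_ne_zero _ hx hx0 k hk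
  refine ⟨delUp M qv Q 0 u, delUp_mem_thetaPart Q hS 0 hu, by rw [← map_nsmul, hpu, map_zero],
    fun h0 => hu0 ?_⟩
  rw [e2_delUp, ← map_nsmul] at h0
  have h1 := delUp_eq_zero hp hp2 Q 0 ((ptors _ p).nsmul_mem hu.1 2) h0
  exact eq_zero_of_coprime_nsmul (coprime_two_pow hp hp2 1) h1 (by rwa [pow_one])

/-- the base vertex of the cube. -/
theorem thetaPart_lev_empty_ne_bot (L : ℕ) [NeZero L] (h : thetaPart L p S θ ≠ ⊥) :
    thetaPart (lev L qv ∅) p S θ ≠ ⊥ := by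
  intro h0
  apply h
  rw [eq_bot_iff]
  intro x hx
  have h1 : castJ (lev_empty L qv).symm x ∈ thetaPart (lev L qv ∅) p S θ :=
    (castJ_mem_thetaPart _).2 hx
  rw [h0, AddSubgroup.mem_bot] at h1
  exact (AddSubgroup.mem_bot).2 ((AddEquiv.map_eq_zero_iff _).1 h1)

end Main

end Fermat.Agent.ML.At2
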