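import Fermat.Agent.ML.Main.LocCalc

/-!
# ML / At2 / N2 / LocSt : `[B1]` the Steinberg relations at `2` are PURE ALGEBRA on `3 • Y`

`Γ` a group acting on an abelian group `X`, `Y ≤ X` a `Γ`-stable subgroup of odd torsion, `I ⊆ Γ`, `σ₀ : Γ`, `ε = ± 1`, and on `Y` :

* (U) `(τ' - 1)(τ - 1) = 0` (`τ, τ' ∈ I`);
* (T) `σ₀ τ = τ² σ₀` (`τ ∈ I`)   (the tame relation, `q = 2`);
* (C) `σ₀ + 2 σ₀⁻¹ = 3 ε`.

Put `n = τ - 1`, `A = n (σ₀ - ε)`.  Then `(σ₀ - 2ε) n = 2 A`, `σ₀ A = 4 ε A`, `2 σ₀ A = 2 ε A`, so `6 A = 0`, so `3 A = 0`.  Hence the three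
relations of `LocSt 2 ε` hold on `3 • Y`, for every `σ ∈ σ₀ I` and every `τ ∈ I`.

* `six_mul_eq_zero`, `rel_one`, `rel_two`, `rel_three` : the identities in a (non commutative) ring;
* `st3_two_of_alg` : the three relations, any group `Γ`;
* `locSt_two_of` : `LocSt 2 ε G'`, in the vocabulary of `ML/Main/Cell.lean`.
-/

set_option autoImplicit false

noncomputable section

namespace Fermat.Agent.ML.At2

local notation "Qbar" => AlgebraicClosure ℚ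
local notation "GQ" => (AlgebraicClosure ℚ ≃ₐ[ℚ] AlgebraicClosure ℚ)

/-! ### the identities in a ring -/

section Ring

variable {E : Type*} [Ring E]

/-- `6 ε A = 0`. -/
theorem six_mul_eq_zero (s n e : E) (he : e = 1 ∨ e = -1) (hq : s * s - 3 * e * s + 2 = 0)
    (hT : s * n - 2 * (n * s) = 0) : 6 * (n * (s - e)) = 0 := by
  rcases he with rfl | rfl
  · have key : 6 * (n * (s - 1)) = (s * s - 3 * 1 * s + 2) * n - (s - 1) * (s * n - 2 * (n * s))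
        - 2 * ((s * n - 2 * (n * s)) * (s - 1)) - 4 * (n * (s * s - 3 * 1 * s + 2)) := by
      noncomm_ring
    rw [key, hq, hT]
    simp
  · have key : 6 * (n * (s - -1)) = -((s * s - 3 * -1 * s + 2) * n
        - (s - -1) * (s * n - 2 * (n * s))
        - 2 * ((s * n - 2 * (n * s)) * (s - -1)) - 4 * (n * (s * s - 3 * -1 * s + 2))) := by
      noncomm_ring
    rw [key, hq, hT]
    simp

/-- `(σ - 2ε) n = 2 A`, `σ = σ₀ (1 + n'')`. -/
theorem rel_one (s n n2 e : E) (hT : s * n - 2 * (n * s) = 0) (hU : n2 * n = 0) :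
    (s * (1 + n2) - 2 * e) * n = 2 * (n * (s - e)) + 2 * (n * e - e * n) := by
  have key : (s * (1 + n2) - 2 * e) * n = 2 * (n * (s - e)) + 2 * (n * e - e * n)
      + (s * n - 2 * (n * s)) + s * (n2 * n) := by noncomm_ring
  rw [key, hT, hU]
  simp

/-- `n (σ - ε) = A`. -/
theorem rel_two (s n n2 e : E) (hT2 : s * n2 - 2 * (n2 * s) = 0) (hU : n * n2 = 0) :
    n * (s * (1 + n2) - e) = n * (s - e) := by
  have key : n * (s * (1 + n2) - e) = n * (s - e) + n * (s * n2 - 2 * (n2 * s))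
      + 2 * ((n * n2) * s) := by noncomm_ring
  rw [key, hT2, hU]
  simp

/-- `(σ - 2ε)(σ - ε) = 3 σ₀ A''`. -/
theorem rel_three (s n2 e : E) (he : e = 1 ∨ e = -1) (hq : s * s - 3 * e * s + 2 = 0)
    (hT2 : s * n2 - 2 * (n2 * s) = 0) (hU : n2 * n2 = 0) :
    (s * (1 + n2) - 2 * e) * (s * (1 + n2) - e) = 3 * (s * (n2 * (s - e))) := by
  rcases he with rfl | rfl
  · have key : (s * (1 + n2) - 2 * 1) * (s * (1 + n2) - 1) = 3 * (s * (n2 * (s - 1)))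
        + (s * s - 3 * 1 * s + 2 * 1) + s * (s * n2 - 2 * (n2 * s))
        + s * (n2 * (s * n2 - 2 * (n2 * s))) + 2 * (s * ((n2 * n2) * s)) := by noncomm_ring
    rw [key, mul_one (2 : E), hq, hT2, hU]
    simp
  · have key : (s * (1 + n2) - 2 * -1) * (s * (1 + n2) - -1) = 3 * (s * (n2 * (s - -1)))
        + (s * s - 3 * -1 * s + 2 * 1) + s * (s * n2 - 2 * (n2 * s))
        + s * (n2 * (s * n2 - 2 * (n2 * s))) + 2 * (s * ((n2 * n2) * s)) := by noncomm_ring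
    rw [key, mul_one (2 : E), hq, hT2, hU]
    simp

end Ring

/-! ### the action on a stable subgroup -/

section Rep

variable {Γ X : Type*} [Group Γ] [AddCommGroup X] [DistribMulAction Γ X]

/-- the action of `Γ` on a stable subgroup, as endomorphisms. -/
def subRep (Y : AddSubgroup X) (hY : ∀ g : Γ, ∀ x ∈ Y, g • x ∈ Y) : Γ →* Module.End ℤ ↥Y where
  toFun g := AddMonoidHom.toIntLinearMap
    { toFun := fun y => ⟨g • (y : X), hY g y y.2⟩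
      map_zero' := Subtype.ext (smul_zero g)
      map_add' := fun a b => Subtype.ext (smul_add g _ _) }
  map_one' := by
    ext y
    exact one_smul Γ (y : X)
  map_mul' g h := by
    ext y
    exact mul_smul g h (y : X)

theorem subRep_apply (Y : AddSubgroup X) (hY : ∀ g : Γ, ∀ x ∈ Y, g • x ∈ Y) (g : Γ) (y : ↥Y) :
    ((subRep Y hY g y : ↥Y) : X) = g • (y : X) := rfl

/-- **[B1]**, any group. -/
theorem st3_two_of_alg (Y : AddSubgroup X) (hY : ∀ g : Γ, ∀ x ∈ Y, g • x ∈ Y) (ε : ℤ)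
    (hε : ε = 1 ∨ ε = -1) (hodd : ∀ x ∈ Y, ∃ m : ℕ, Odd m ∧ m • x = 0) (I : Set Γ)
    (hU : ∀ τ ∈ I, ∀ τ' ∈ I, ∀ x ∈ Y, τ' • (τ • x - x) = τ • x - x) (σ₀ : Γ)
    (hT : ∀ τ ∈ I, ∀ x ∈ Y, σ₀ • τ • x = τ • τ • σ₀ • x)
    (hC : ∀ x ∈ Y, σ₀ • x + (2 : ℕ) • σ₀⁻¹ • x = (3 * ε) • x)
    {τ τ₂ : Γ} (hτ : τ ∈ I) (hτ₂ : τ₂ ∈ I) {x₁ : X} (hx₁ : x₁ ∈ Y) :
    (σ₀ * τ₂) • (τ • ((3 : ℕ) • x₁) - (3 : ℕ) • x₁) = (ε * 2) • (τ • ((3 : ℕ) • x₁) - (3 : ℕ) • x₁) ∧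
    τ • ((σ₀ * τ₂) • ((3 : ℕ) • x₁) - ε • ((3 : ℕ) • x₁)) =
      (σ₀ * τ₂) • ((3 : ℕ) • x₁) - ε • ((3 : ℕ) • x₁) ∧
    (σ₀ * τ₂) • ((σ₀ * τ₂) • ((3 : ℕ) • x₁) - ε • ((3 : ℕ) • x₁)) =
      (ε * 2) • ((σ₀ * τ₂) • ((3 : ℕ) • x₁) - ε • ((3 : ℕ) • x₁)) := by
  set r := subRep Y hY with hr
  set s : Module.End ℤ ↥Y := r σ₀ with hs
  set e : Module.End ℤ ↥Y := (ε : Module.End ℤ ↥Y) with he
  have he' : e = 1 ∨ e = -1 := by
    rcases hε with h | h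
    · left; rw [he, h]; simp
    · right; rw [he, h]; simp
  have hee : ∀ y : ↥Y, e y = ε • y := by
    intro y
    rw [he]
    simp
  -- the relations in the ring
  have hUr : ∀ a ∈ I, ∀ b ∈ I, (r b - 1) * (r a - 1) = 0 := by
    intro a ha b hb
    ext y
    have := hU a ha b hb y y.2
    show b • (a • (y : X) - y) - (a • (y : X) - y) = 0
    rw [this, sub_self]
  have hTr : ∀ a ∈ I, s * (r a - 1) - 2 * ((r a - 1) * s) = 0 := by
    intro a ha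
    have h1 : s * r a = r a * r a * s := by
      ext y
      exact hT a ha y y.2
    have h2 := hUr a ha a ha
    have key : s * (r a - 1) - 2 * ((r a - 1) * s) = (s * r a - r a * r a * s)
        + ((r a - 1) * (r a - 1)) * s := by noncomm_ring
    rw [key, h1, h2]
    simp
  have hcoe : ∀ (g : Γ) (c : ℤ) (z : ↥Y),
      (((r g - (c : Module.End ℤ ↥Y)) z : ↥Y) : X) = g • (z : X) - c • (z : X) := by
    intro g c z
    have h1 : (c : Module.End ℤ ↥Y) z = c • z := by simp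
    rw [LinearMap.sub_apply, h1]
    rfl
  have hq : s * s - 3 * e * s + 2 = 0 := by
    have h1 : s * s - 3 * e * s + 2 = (s - ((3 * ε : ℤ) : Module.End ℤ ↥Y)) * s + 2 := by
      rw [he]
      push_cast
      noncomm_ring
    rw [h1]
    refine LinearMap.ext fun y => Subtype.ext ?_
    have h2 := hC (σ₀ • (y : X)) (hY σ₀ y y.2)
    rw [inv_smul_smul] at h2
    have h3 : (2 : Module.End ℤ ↥Y) y = (2 : ℕ) • y := by
      rw [Module.End.ofNat_apply]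
    rw [LinearMap.add_apply, Module.End.mul_apply, h3, AddSubgroup.coe_add, hs, hcoe]
    show σ₀ • σ₀ • (y : X) - (3 * ε) • σ₀ • (y : X) + (2 : ℕ) • (y : X) = 0
    rw [← h2]
    abel
  set y₁ : ↥Y := ⟨x₁, hx₁⟩ with hy₁
  set y : ↥Y := (3 : ℕ) • y₁ with hy
  have hyX : (y : X) = (3 : ℕ) • x₁ := rfl
  -- `A y = 0`
  have hA : ∀ a ∈ I, ((r a - 1) * (s - e)) y = 0 := by
    intro a ha
    have h6 := six_mul_eq_zero s (r a - 1) e he' hq (hTr a ha)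
    set z : ↥Y := ((r a - 1) * (s - e)) y₁ with hz
    have h6z : (6 : ℕ) • z = 0 := by
      have := congrArg (fun f : Module.End ℤ ↥Y => f y₁) h6
      simp only [Module.End.mul_apply, LinearMap.zero_apply, Module.End.ofNat_apply] at this
      rw [hz, Module.End.mul_apply]
      simpa using this
    obtain ⟨m, ⟨k, rfl⟩, hm⟩ := hodd z z.2
    have hm' : (2 * k + 1) • z = 0 := Subtype.ext hm
    have h3z : (3 : ℕ) • z = 0 := by
      have e1 : (3 : ℕ) • ((2 * k + 1) • z) = k • ((6 : ℕ) • z) + (3 : ℕ) • z := by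
        rw [← mul_nsmul', ← mul_nsmul', ← add_nsmul]
        congr 1
        ring
      rw [hm', h6z, smul_zero, smul_zero, zero_add] at e1
      exact e1.symm
    rw [hy, map_nsmul, ← hz, h3z]
  have hec : ∀ f : Module.End ℤ ↥Y, f * e - e * f = 0 := by
    intro f
    rw [he, sub_eq_zero]
    exact (Int.cast_comm ε f).symm
  have hS : r (σ₀ * τ₂) = s * (1 + (r τ₂ - 1)) := by
    rw [map_mul, hs]
    congr 1
    abel
  have h2e : ((ε * 2 : ℤ) : Module.End ℤ ↥Y) = 2 * e := by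
    rw [mul_comm, he]
    push_cast
    rfl
  have h1c : ((1 : ℤ) : Module.End ℤ ↥Y) = 1 := Int.cast_one
  refine ⟨?_, ?_, ?_⟩
  · have h := rel_one s (r τ - 1) (r τ₂ - 1) e (hTr τ hτ) (hUr τ hτ τ₂ hτ₂)
    rw [hec, mul_zero, add_zero, ← hS, ← h2e, ← h1c] at h
    have h' := congrArg (fun f : Module.End ℤ ↥Y => ((f y : ↥Y) : X)) h
    simp only [Module.End.mul_apply] at h'
    rw [hcoe, hcoe, one_smul, hyX] at h'
    rw [← sub_eq_zero, h']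
    have := hA τ hτ
    rw [Module.End.mul_apply, ← h1c] at this
    rw [this]
    simp
  · have h := rel_two s (r τ - 1) (r τ₂ - 1) e (hTr τ₂ hτ₂) (hUr τ₂ hτ₂ τ hτ)
    rw [← hS, he, ← h1c] at h
    have h' := congrArg (fun f : Module.End ℤ ↥Y => ((f y : ↥Y) : X)) h
    simp only [Module.End.mul_apply] at h'
    rw [hcoe, hcoe, one_smul, hyX] at h'
    rw [← sub_eq_zero, h']
    have := hA τ hτ
    rw [Module.End.mul_apply, ← h1c, he] at this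
    rw [this]
    rfl
  · have h := rel_three s (r τ₂ - 1) e he' hq (hTr τ₂ hτ₂) (hUr τ₂ hτ₂ τ₂ hτ₂)
    rw [← hS, ← h2e] at h
    nth_rewrite 2 [he] at h
    have h' := congrArg (fun f : Module.End ℤ ↥Y => ((f y : ↥Y) : X)) h
    simp only [Module.End.mul_apply] at h'
    rw [hcoe, hcoe, hyX] at h'
    rw [← sub_eq_zero, h']
    have := hA τ₂ hτ₂
    rw [Module.End.mul_apply] at this
    rw [this]
    simp

end Rep

/-! ### in the vocabulary of `ML/Main/Cell.lean` -/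

section Cell

variable {X : Type*} [AddCommGroup X] [DistribMulAction GQ X]

/-- two Frobenius elements at `A` differ by an element of the inertia group. -/
theorem frob_inv_mul_mem_inertia {A : ValuationSubring Qbar} {q : ℕ} {φ σ : GQ}
    (hφ : A.IsFrobeniusAt φ q) (hσ : A.IsFrobeniusAt σ q) : φ⁻¹ * σ ∈ A.inertiaSubgroupIn ℚ := by
  refine ⟨(⟨φ, hφ.mem_decompositionSubgroup⟩ : A.decompositionSubgroup ℚ)⁻¹ *
    ⟨σ, hσ.mem_decompositionSubgroup⟩, ?_, rfl⟩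
  refine MonoidHom.mem_ker.2 ?_
  ext x
  show ((⟨φ, hφ.mem_decompositionSubgroup⟩ : A.decompositionSubgroup ℚ)⁻¹ *
    ⟨σ, hσ.mem_decompositionSubgroup⟩) • x = x
  rw [mul_smul, hσ.smul_residue_eq, ← hφ.smul_residue_eq, inv_smul_smul]

/-- **[B1]** : `LocSt 2 ε` on `3 • Y`.   `Y` Galois stable, of odd torsion, (U) at ONE place `A₀ ∣ 2`, (T), (C) for ONE Frobenius `σ₀`
at `A₀`;  `G'` Galois stable, every element of `G'` is `3 • x₁`, `x₁ ∈ Y`. -/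
theorem locSt_two_of (Y : AddSubgroup X) (hY : ∀ g : GQ, ∀ x ∈ Y, g • x ∈ Y) (ε : ℤ)
    (hε : ε = 1 ∨ ε = -1) (hodd : ∀ x ∈ Y, ∃ m : ℕ, Odd m ∧ m • x = 0)
    (A₀ : ValuationSubring Qbar) (hA₀ : A₀.LiesOverPrime 2)
    (hU : ∀ τ ∈ A₀.inertiaSubgroupIn ℚ, ∀ τ' ∈ A₀.inertiaSubgroupIn ℚ, ∀ x ∈ Y,
      τ' • (τ • x - x) = τ • x - x)
    (σ₀ : GQ) (hσ₀ : A₀.IsFrobeniusAt σ₀ 2)
    (hT : ∀ τ ∈ A₀.inertiaSubgroupIn ℚ, ∀ x ∈ Y, σ₀ • τ • x = τ • τ • σ₀ • x)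
    (hC : ∀ x ∈ Y, σ₀ • x + (2 : ℕ) • σ₀⁻¹ • x = (3 * ε) • x)
    (G' : Set X) (hG' : ∀ g : GQ, ∀ x ∈ G', g • x ∈ G')
    (h3 : ∀ x ∈ G', ∃ x₁ ∈ Y, x = (3 : ℕ) • x₁) : LocSt 2 ε G' := by
  refine LocSt.of_place Nat.prime_two hG' A₀ hA₀ fun σ hσ τ hτ x hx => ?_
  obtain ⟨x₁, hx₁, rfl⟩ := h3 x hx
  have h := st3_two_of_alg Y hY ε hε hodd (↑(A₀.inertiaSubgroupIn ℚ) : Set GQ) hU σ₀ hT hC hτ
    (frob_inv_mul_mem_inertia hσ₀ hσ) hx₁
  rw [mul_inv_cancel_left] at h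
  exact_mod_cast h

/-- the same with `LocUnip 2 Y` as hypothesis (U). -/
theorem locSt_two_of' (Y : AddSubgroup X) (hY : ∀ g : GQ, ∀ x ∈ Y, g • x ∈ Y) (ε : ℤ)
    (hε : ε = 1 ∨ ε = -1) (hodd : ∀ x ∈ Y, ∃ m : ℕ, Odd m ∧ m • x = 0)
    (hU : LocUnip 2 (Y : Set X))
    (A₀ : ValuationSubring Qbar) (hA₀ : A₀.LiesOverPrime 2)
    (σ₀ : GQ) (hσ₀ : A₀.IsFrobeniusAt σ₀ 2)
    (hT : ∀ τ ∈ A₀.inertiaSubgroupIn ℚ, ∀ x ∈ Y, σ₀ • τ • x = τ • τ • σ₀ • x)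
    (hC : ∀ x ∈ Y, σ₀ • x + (2 : ℕ) • σ₀⁻¹ • x = (3 * ε) • x)
    (G' : Set X) (hG' : ∀ g : GQ, ∀ x ∈ G', g • x ∈ G')
    (h3 : ∀ x ∈ G', ∃ x₁ ∈ Y, x = (3 : ℕ) • x₁) : LocSt 2 ε G' :=
  locSt_two_of Y hY ε hε hodd A₀ hA₀ (fun τ hτ τ' hτ' x hx => hU A₀ hA₀ τ hτ τ' hτ' x hx) σ₀ hσ₀
    hT hC G' hG' h3

end Cell

end Fermat.Agent.ML.At2
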