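import Fermat.Agent.ML.Hard.RelGeo
import Fermat.Agent.ML.At2.KeyEq.Deg
import Fermat.Agent.ML.Main.Cell

/-!
# ML / AT-2 / (N2) / RelGeoNR : [REL-GEO] at the prime `2` at a NON rigid level `N * 2`, `N` odd (arbitrary)

`ML/Hard/RelGeo.lean` needs `4 ∣ M ∨ 9 ∣ M` for the level `M * q`.   For `q = 2` the level `N` is odd, and `9 ∤ N` in general.
Here the two Galois identities are brought down from the rigid level `(N * 3 * 3) * 2` along `φ^*`, `φ = (f(τ) ↦ f(3 τ))`,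
which is `G_ℚ`-equivariant, injective on torsion and commutes with `w_2`   (`ML/At2/KeyEq/Deg.lean`).

* `unip_rigid`              : `(τ' - 1)(τ - 1) = 0` on `p`-power torsion, level `M * q`, `M` rigid, TWO elements of `I_A`;
* `unip_two`, `locUnip_two` : the same at the level `N * 2`, `N` odd;   `LocUnip 2` in the vocabulary of `Main/Cell.lean`;
* `frob_tau_sub_two`        : `σ (τ x - x) + 2 w_2 (τ x - x) = 0`, level `N * 2`, `N` odd;
* `exists_w_frob_tau_sub_two` : the shape of `Hard.exists_w_frob_tau_sub`, the level `L = L' * 2` is a variable, NO `h49`;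
* `frob_tau_sub_sign_two`   : with the sign.
-/

set_option autoImplicit false
set_option linter.style.haveILetI false
set_option linter.unusedSectionVars false
set_option synthInstance.maxHeartbeats 400000

noncomputable section

open AlgebraicCurve ModularCurve IsLocalRing

namespace Fermat.Agent.ML.At2

open Fermat.Agent.RED hiding Kb
open Fermat.Agent.S24 Fermat.Agent.SS Fermat.Agent.RIB
open Fermat.Agent.GAL Fermat.Agent.GAL.PC Fermat.Agent.S40

local notation "Qbar" => AlgebraicClosure ℚ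
local notation "GQ" => (AlgebraicClosure ℚ ≃ₐ[ℚ] AlgebraicClosure ℚ)

/-- unipotency of inertia with TWO elements, rigid level `M * q`. -/
theorem unip_rigid {M q p : ℕ} [NeZero M] [hq : Fact q.Prime] (hqM : ¬ q ∣ M)
    (h49 : 4 ∣ M ∨ 9 ∣ M) (hp : p.Prime) (hpq : p ≠ q) (A : ValuationSubring Qbar)
    (hA : A.LiesOverPrime q) {τ τ' : GQ} (hτ : τ ∈ A.inertiaSubgroupIn ℚ)
    (hτ' : τ' ∈ A.inertiaSubgroupIn ℚ) (e : ℕ) (x : JZero (M * q)) (hx : p ^ e • x = 0) :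
    τ' • (τ • x - x) = τ • x - x := by
  haveI : IsAlgClosed (ResidueField A) := GalEq.isAlgClosed_residueField A
  haveI : CharP (ResidueField A) q := GalEq.charP_residueField hq.out hA
  obtain ⟨𝒩, hI, -⟩ := exists_nodalData_compat hqM A h49 hA
  have hpk : (p : ResidueField A) ≠ 0 := by
    intro h0
    have := (CharP.cast_eq_zero_iff (ResidueField A) q p).1 h0
    exact hpq ((Nat.prime_dvd_prime_iff_eq hq.out hp).1 this).symm
  exact unipotent_of_torsion 𝒩 (RB.isSepParam_jF (M * q))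
    (Cusp.isSepParam_jb M (ResidueField A) q hqM) hp hpk e (hI τ hτ) (hI τ' hτ') (y := x) hx

section Two

variable {N : ℕ} [NeZero N]

theorem not_two_dvd_nine (h2 : ¬ 2 ∣ N) : ¬ 2 ∣ N * 3 * 3 := by
  intro h
  rw [mul_assoc] at h
  rcases (Nat.Prime.dvd_mul Nat.prime_two).1 h with h | h
  · exact h2 h
  · omega

/-- the pull-back `J₀(N * 2) → J₀((N * 3 * 3) * 2)` along `f(τ) ↦ f(3 τ)`. -/
def upNine (N : ℕ) [NeZero N] : JZero (N * 2) →+ JZero (N * 3 * 3 * 2) :=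
  jPull (dg (N * 2) (N * 3 * 3 * 2) 3 ⟨3, by ring⟩)

theorem upNine_smul (g : GQ) (x : JZero (N * 2)) : upNine N (g • x) = g • upNine N x :=
  jPull_smul (isRat_dg _ _ _ _) g x

theorem upNine_swAut (h2 : ¬ 2 ∣ N) (x : JZero (N * 2)) :
    upNine N (swAut h2 • x) = swAut (not_two_dvd_nine h2) • upNine N x :=
  swAut_smul_jPull h2 (not_two_dvd_nine h2) (isDg_dg N (N * 3 * 3) 3 ⟨3, by ring⟩)
    (isDg_dg _ _ _ _) x

theorem upNine_eq_zero {m : ℕ} (hm : m ≠ 0) {x : JZero (N * 2)} (hmx : m • x = 0)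
    (hx : upNine N x = 0) : x = 0 :=
  jPull_dg3_eq_zero_of_torsion (Or.inr (by ring)) (isDg_dg _ _ _ _) hm hmx hx

variable {p : ℕ}

/-- **unipotency of `I_2`** at the level `N * 2`, `N` odd. -/
theorem unip_two (h2 : ¬ 2 ∣ N) (hp : p.Prime) (hp2 : p ≠ 2) (A : ValuationSubring Qbar)
    (hA : A.LiesOverPrime 2) {τ τ' : GQ} (hτ : τ ∈ A.inertiaSubgroupIn ℚ)
    (hτ' : τ' ∈ A.inertiaSubgroupIn ℚ) (e : ℕ) (x : JZero (N * 2)) (hx : p ^ e • x = 0) :
    τ' • (τ • x - x) = τ • x - x := by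
  have hx9 : p ^ e • upNine N x = 0 := by rw [← map_nsmul, hx, map_zero]
  have key := unip_rigid (not_two_dvd_nine h2) (Or.inr ⟨N, by ring⟩) hp hp2 A hA hτ hτ' e
    (upNine N x) hx9
  have h1 : p ^ e • (τ • x) = 0 := by rw [smul_comm (p ^ e) τ x, hx, smul_zero]
  have h2' : p ^ e • (τ • x - x) = 0 := by rw [nsmul_sub, h1, hx, sub_zero]
  have h3 : p ^ e • (τ' • (τ • x - x)) = 0 := by
    rw [smul_comm (p ^ e) τ' (τ • x - x), h2', smul_zero]
  refine sub_eq_zero.1 (upNine_eq_zero (pow_ne_zero e hp.ne_zero) ?_ ?_)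
  · rw [nsmul_sub, h3, h2', sub_zero]
  · rw [map_sub, upNine_smul, map_sub, upNine_smul, key, sub_self]

/-- `LocUnip 2` on the `p`-power torsion of `J₀(N * 2)`, `N` odd. -/
theorem locUnip_two (h2 : ¬ 2 ∣ N) (hp : p.Prime) (hp2 : p ≠ 2) :
    LocUnip 2 {x : JZero (N * 2) | ∃ e : ℕ, p ^ e • x = 0} := by
  rintro A hA τ hτ τ' hτ' x ⟨e, he⟩
  exact unip_two h2 hp hp2 A hA hτ hτ' e x he

/-- **[REL-GEO]** at the level `N * 2`, `N` odd. -/
theorem frob_tau_sub_two (h2 : ¬ 2 ∣ N) (hp : p.Prime) (hp2 : p ≠ 2) (A : ValuationSubring Qbar)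
    (hA : A.LiesOverPrime 2) {σ : GQ} (hσ : A.IsFrobeniusAt σ 2) {τ : GQ}
    (hτ : τ ∈ A.inertiaSubgroupIn ℚ) (e : ℕ) (x : JZero (N * 2)) (hx : p ^ e • x = 0) :
    σ • (τ • x - x) + 2 • (swAut h2 • (τ • x - x)) = 0 := by
  have hx9 : p ^ e • upNine N x = 0 := by rw [← map_nsmul, hx, map_zero]
  have key := Hard.frob_tau_sub_rigid (not_two_dvd_nine h2) (Or.inr ⟨N, by ring⟩) hp hp2 A hA hσ
    hτ e (upNine N x) hx9
  have h1 : p ^ e • (τ • x) = 0 := by rw [smul_comm (p ^ e) τ x, hx, smul_zero]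
  have h2' : p ^ e • (τ • x - x) = 0 := by rw [nsmul_sub, h1, hx, sub_zero]
  have h3 : p ^ e • (σ • (τ • x - x)) = 0 := by
    rw [smul_comm (p ^ e) σ (τ • x - x), h2', smul_zero]
  have h4 : p ^ e • (swAut h2 • (τ • x - x)) = 0 := by
    have := map_nsmul (DistribSMul.toAddMonoidHom (JZero (N * 2)) (swAut h2)) (p ^ e) (τ • x - x)
    rw [h2', map_zero] at this
    exact this.symm
  refine upNine_eq_zero (pow_ne_zero e hp.ne_zero) ?_ ?_
  · rw [nsmul_add, h3, nsmul_left_comm, h4, nsmul_zero, add_zero]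
  · rw [map_add, map_nsmul, upNine_swAut h2, upNine_smul, map_sub, upNine_smul]
    exact key

end Two

/-- **[REL-GEO]** at `q = 2`, the level `L = L' * 2` is a variable, `L'` ANY odd number; one `w` for all `A`, `σ`, `τ`, `x`.
Same shape as `Hard.exists_w_frob_tau_sub`; moreover inertia is unipotent. -/
theorem exists_w_frob_tau_sub_two {L L' p : ℕ} [NeZero L] [NeZero L'] (hL : L = L' * 2)
    (h2L : ¬ 2 ∣ L') (hp : p.Prime) (hp2 : p ≠ 2) :
    ∃ w : JZero L →+ JZero L, (∀ x, w (w x) = x) ∧ (∀ (g : GQ) x, w (g • x) = g • w x) ∧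
      (∀ (S : Set ℕ) (θ : ℕ → ℤ), (∀ ℓ : ℕ, ℓ.Prime → ℓ ∉ S → ¬ ℓ ∣ L * p) →
        ∀ x ∈ thetaPart L p S θ, w x ∈ thetaPart L p S θ) ∧
      ∀ A : ValuationSubring Qbar, A.LiesOverPrime 2 → ∀ σ : GQ, A.IsFrobeniusAt σ 2 →
        ∀ τ ∈ A.inertiaSubgroupIn ℚ, ∀ x : JZero L, (∃ e : ℕ, p ^ e • x = 0) →
          σ • (τ • x - x) + 2 • w (τ • x - x) = 0 := by
  subst hL
  set w : JZero (L' * 2) →+ JZero (L' * 2) :=
    DistribSMul.toAddMonoidHom (JZero (L' * 2)) (swAut h2L) with hw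
  have hwg : ∀ (g : GQ) x, w (g • x) = g • w x := fun g x => (gal_smul_swAut_smul h2L g x).symm
  refine ⟨w, fun x => swAut_smul_swAut_smul h2L x, hwg, fun S θ hS x hx => ?_, ?_⟩
  · exact map_mem_thetaPart_of_equivariant w hwg (fun r hr hrS => ⟨hS r hr hrS, hS r hr hrS⟩) hx
  · rintro A hA σ hσ τ hτ x ⟨e, he⟩
    exact frob_tau_sub_two h2L hp hp2 A hA hσ hτ e x he

/-- `LocUnip 2` on the `p`-power torsion, the level `L = L' * 2` is a variable. -/
theorem locUnip_two' {L L' p : ℕ} [NeZero L] [NeZero L'] (hL : L = L' * 2) (h2L : ¬ 2 ∣ L')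
    (hp : p.Prime) (hp2 : p ≠ 2) : LocUnip 2 {x : JZero L | ∃ e : ℕ, p ^ e • x = 0} := by
  subst hL
  exact locUnip_two h2L hp hp2

/-- **[REL-GEO] on the `θ`-part, with the sign**, `q = 2`, non rigid level. -/
theorem frob_tau_sub_sign_two {L L' p : ℕ} [NeZero L] [NeZero L'] (hL : L = L' * 2)
    (h2L : ¬ 2 ∣ L') (hp : p.Prime) (hp2 : p ≠ 2) (S : Set ℕ) (θ : ℕ → ℤ)
    (hS : ∀ ℓ : ℕ, ℓ.Prime → ℓ ∉ S → ¬ ℓ ∣ L * p) (A : ValuationSubring Qbar)
    (hA : A.LiesOverPrime 2) {σ : GQ} (hσ : A.IsFrobeniusAt σ 2) (ε : ℤ) (hε : ε = 1 ∨ ε = -1)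
    (hsign : ∀ y ∈ WS L p S θ, σ • y + (ε * (2 : ℕ)) • y = 0 → y = 0)
    {τ : GQ} (hτ : τ ∈ A.inertiaSubgroupIn ℚ) {x : JZero L} (hx : x ∈ thetaPart L p S θ) :
    σ • (τ • x - x) = (ε * (2 : ℕ)) • (τ • x - x) := by
  obtain ⟨w, hww, hwg, hwθ, hk⟩ := exists_w_frob_tau_sub_two hL h2L hp hp2
  exact (Hard.frob_eq_of_sign w hww σ (hwg σ) (hwθ S θ hS) 2 ε hε hsign
    ((thetaPart L p S θ).sub_mem (smul_mem_thetaPart τ hx) hx) (hk A hA σ hσ τ hτ x hx.1)).2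

end Fermat.Agent.ML.At2
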