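import Fermat.Agent.ML.At2.N2.LocSt
import Fermat.Agent.ML.At2.N2.Defs
import Fermat.Agent.ML.At2.N2.RelGeoNR
import Fermat.Agent.ML.Raise.RelLast
import Fermat.Agent.ML.Lift.StepAbs
import Fermat.Agent.RIB.Grow.Tau
import Fermat.Agent.S56.Tame.Main

/-!
# ML / At2 / N2 / LocStInst : the field `st` at `2` of the output cell of **StepTwo**

Levels `N₂ = N₁ * 2` (`N₁` odd, NOT rigid), `N₄ = N₂ * 2`.   `U₂ ≤ J₀(N₂)[p^a]` Galois stable, `2`-new.   `c' = σ₀ + 2 σ₀⁻¹ + 3 ε`.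

* `pow_smul_of_unip1`, `tame_rel_torsion`, `tame_two` : (T) `σ₀ τ x = τ τ σ₀ x` on the `p`-power torsion of `J₀(N₁ * 2)`, RING-FREE
  (`S56.tame_frob` for the action of the inertia group on `J₀(N₂)[p^e]`);
* `locSt_two_inst` : `LocSt 2 ε G' ∧ LocUnip 2 G'` for `G' ⊆ 3 c' δ_0^* U₂`;
* `locSt_two_trace` : the same from the CONCLUSION of `Lift.raise_step_abs`, `β' = 3 (tr σ₀ + 3 ε)`, `U' = δ_0^* (UK ..)`.
-/

set_option autoImplicit false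
set_option linter.unusedSectionVars false

noncomputable section

open AlgebraicCurve ModularCurve

namespace Fermat.Agent.ML.At2

open Fermat.Agent.RIB Fermat.Agent.GAL Fermat.Agent.GAL.PC Fermat.Agent.ML.TWFree
  Fermat.Agent.ML.Lift Fermat.Agent.ML.Tower

local notation "Qbar" => AlgebraicClosure ℚ
local notation "GQ" => (AlgebraicClosure ℚ ≃ₐ[ℚ] AlgebraicClosure ℚ)

/-! ### the tame relation, ring-free -/

section Tame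

theorem pow_smul_of_unip1 {Γ X : Type*} [Group Γ] [AddCommGroup X] [DistribMulAction Γ X] (τ : Γ)
    (x : X) (h : τ • (τ • x - x) = τ • x - x) (n : ℕ) : τ ^ n • x = x + n • (τ • x - x) := by
  induction n with
  | zero => simp
  | succ n ih =>
    rw [pow_succ', mul_smul, ih, smul_add, smul_nsmul_comm', h, succ_nsmul]
    abel

/-- `φ τ φ⁻¹ = τ^l` on a subgroup of torsion classes on which the inertia group acts through a group of order prime to `l`. -/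
theorem tame_rel_torsion {N l : ℕ} [NeZero N] (hl : l.Prime) {A : ValuationSubring Qbar}
    (hA : A.LiesOverPrime l) (X : AddSubgroup (JZero N))
    (hst : ∀ τ ∈ A.inertiaSubgroupIn ℚ, ∀ x ∈ X, τ • x ∈ X) (m : ℕ) (hm : m ≠ 0)
    (hXm : ∀ x ∈ X, m • x = 0) (P : ℕ) (hP : Nat.Coprime P l)
    (hord : ∀ τ ∈ A.inertiaSubgroupIn ℚ, ∀ x ∈ X, τ ^ P • x = x)
    {φ : GQ} (hφ : A.IsFrobeniusAt φ l) {τ : GQ} (hτ : τ ∈ A.inertiaSubgroupIn ℚ) {x : JZero N}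
    (hx : x ∈ X) : (φ * τ * φ⁻¹) • x = τ ^ l • x := by
  let h : ↥(A.inertiaSubgroupIn ℚ) →* Function.End X :=
    { toFun := fun τ x => ⟨(τ : GQ) • x.1, hst τ τ.2 x.1 x.2⟩
      map_one' := by
        funext x
        exact Subtype.ext (one_smul GQ x.1)
      map_mul' := fun τ τ' => by
        funext x
        exact Subtype.ext (mul_smul (τ : GQ) (τ' : GQ) x.1) }
  have hpow : ∀ (τ : ↥(A.inertiaSubgroupIn ℚ)) (n : ℕ) (x : X),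
      (((h τ ^ n) x : X) : JZero N) = (τ : GQ) ^ n • x.1 := by
    intro τ n x
    rw [← map_pow]
    rfl
  obtain ⟨L, hL1, hL2⟩ := exists_level_torsion N m hm
  have hconj : φ * τ * φ⁻¹ ∈ A.inertiaSubgroupIn ℚ :=
    S56.conj_mem_inertia hl hA hφ.mem_decompositionSubgroup hτ
  have key := S56.tame_frob hl hA h
    ⟨L, hL1, fun σ hσ => by
      funext x
      exact Subtype.ext (hL2 σ hσ x.1 (hXm x.1 x.2))⟩ P hP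
    (fun σ => by
      funext x
      apply Subtype.ext
      rw [hpow]
      exact hord σ σ.2 x.1 x.2) hφ ⟨τ, hτ⟩ hconj
  have h1 := congrArg (fun f : Function.End X => ((f ⟨x, hx⟩ : X) : JZero N)) key
  simp only [hpow] at h1
  exact h1

/-- **(T)** at the level `L = L' * 2`, `L'` odd. -/
theorem tame_two {L L' p : ℕ} [NeZero L] [NeZero L'] (hL : L = L' * 2) (h2L : ¬ 2 ∣ L')
    (hp : p.Prime) (hp2 : p ≠ 2) {A : ValuationSubring Qbar} (hA : A.LiesOverPrime 2) {φ : GQ}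
    (hφ : A.IsFrobeniusAt φ 2) {τ : GQ} (hτ : τ ∈ A.inertiaSubgroupIn ℚ) (e : ℕ) (x : JZero L)
    (hx : p ^ e • x = 0) : φ • τ • x = τ • τ • φ • x := by
  have hun := locUnip_two' hL h2L hp hp2
  let X : AddSubgroup (JZero L) :=
    { carrier := {x | p ^ e • x = 0}
      zero_mem' := smul_zero _
      add_mem' := fun {a b} ha hb => by
        show p ^ e • (a + b) = 0
        rw [nsmul_add, ha, hb, add_zero]
      neg_mem' := fun {a} ha => by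
        show p ^ e • (-a) = 0
        rw [neg_nsmul, ha, neg_zero] }
  have hgal : ∀ (g : GQ), ∀ y ∈ X, g • y ∈ X := fun g y hy => by
    show p ^ e • (g • y) = 0
    rw [← gal_nsmul, hy, gal_zero']
  have h1 := tame_rel_torsion Nat.prime_two hA X (fun τ _ y hy => hgal τ y hy) (p ^ e)
    (pow_ne_zero _ hp.ne_zero) (fun y hy => hy) (p ^ e)
    (Nat.Coprime.pow_left _ ((Nat.coprime_primes hp Nat.prime_two).2 hp2))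
    (fun τ hτ y hy => by
      rw [pow_smul_of_unip1 τ y (hun A hA τ hτ τ hτ y ⟨e, hy⟩)]
      have : p ^ e • (τ • y - y) = 0 := by
        rw [nsmul_sub, hgal τ y hy, hy, sub_zero]
      rw [this, add_zero]) hφ hτ (hgal φ x hx)
  rw [mul_smul, mul_smul, inv_smul_smul, pow_two, mul_smul] at h1
  exact h1

end Tame

/-! ### the multiplier `c' = σ₀ + 2 σ₀⁻¹ + 3 ε` -/

section CHom

variable {X : Type*} [AddCommGroup X] [DistribMulAction GQ X]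
variable {X' : Type*} [AddCommGroup X'] [DistribMulAction GQ X']

/-- `c' = σ₀ + 2 σ₀⁻¹ + 3 ε`. -/
def cHom (σ₀ : GQ) (ε : ℤ) : X →+ X :=
  gOp σ₀ + (2 : ℕ) • gOp σ₀⁻¹ + (3 * ε) • AddMonoidHom.id X

theorem cHom_apply (σ₀ : GQ) (ε : ℤ) (x : X) :
    cHom σ₀ ε x = σ₀ • x + (2 : ℕ) • σ₀⁻¹ • x + (3 * ε) • x := rfl

theorem cHom_eq_trOp (σ₀ : GQ) (ε : ℤ) (x : X) : cHom σ₀ ε x = trOp 2 σ₀ x + (3 * ε) • x := rfl

theorem map_cHom (f : X →+ X') (hf : ∀ (g : GQ) x, f (g • x) = g • f x) (σ₀ : GQ) (ε : ℤ) (x : X) :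
    f (cHom σ₀ ε x) = cHom σ₀ ε (f x) := by
  rw [cHom_apply, cHom_apply, map_add, map_add, map_nsmul, map_zsmul, hf, hf]

end CHom

/-- **(C)** : `σ₀ + 2 σ₀⁻¹ = 3 ε` on `c' (ker Π_2)`, level `N₂ = N₁ * 2`. -/
theorem c_rel_two {N₁ N₂ p : ℕ} [NeZero N₁] [NeZero N₂] (h₁ : N₂ = N₁ * 2) (hN₁ : ¬ 2 ∣ N₁)
    (hp : p.Prime) (hp2 : p ≠ 2) {A : ValuationSubring Qbar} (hA : A.LiesOverPrime 2) {σ₀ : GQ}
    (hσ₀ : A.IsFrobeniusAt σ₀ 2) (ε : ℤ) (hε : ε * ε = 1) (y : JZero N₂)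
    (hy : ∃ n : ℕ, p ^ n • y = 0) (hn : ∀ c, dnE h₁ c y = 0) :
    σ₀ • cHom σ₀ ε y + (2 : ℕ) • σ₀⁻¹ • cHom σ₀ ε y = (3 * ε) • cHom σ₀ ε y := by
  subst h₁
  have h := rel_last_factor N₁ 2 p Nat.prime_two hp (Ne.symm hp2) hN₁ A hA σ₀ hσ₀ ε hε y hy
    (hn 0) (hn 1)
  have e : ε * (((2 : ℕ) : ℤ) + 1) = 3 * ε := by push_cast; ring
  rw [e, sub_eq_zero] at h
  exact h

/-- **the field `st` at `2`**, ring-free form. -/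
theorem locSt_two_inst {N₁ N₂ N₄ p : ℕ} [NeZero N₁] [NeZero N₂] [NeZero N₄] (h₁ : N₂ = N₁ * 2)
    (h₂ : N₄ = N₂ * 2) (hN₁ : ¬ 2 ∣ N₁) (hp : p.Prime) (hp2 : p ≠ 2)
    {A₀ : ValuationSubring Qbar} (hA₀ : A₀.LiesOverPrime 2) {σ₀ : GQ}
    (hσ₀ : A₀.IsFrobeniusAt σ₀ 2) (ε : ℤ) (hε : ε = 1 ∨ ε = -1) (a : ℕ)
    (U₂ : AddSubgroup (JZero N₂)) (hU₂ : ∀ g : GQ, ∀ x ∈ U₂, g • x ∈ U₂)
    (hU₂a : ∀ x ∈ U₂, p ^ a • x = 0) (hU₂n : ∀ x ∈ U₂, ∀ c, dnE h₁ c x = 0)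
    (hcen : ∀ g : GQ, ∀ x ∈ U₂,
      cHom σ₀ ε (g • upE h₂ 0 x) = g • cHom σ₀ ε (upE h₂ 0 x))
    (G' : Set (JZero N₄)) (hG' : ∀ g : GQ, ∀ x ∈ G', g • x ∈ G')
    (h : ∀ x ∈ G', ∃ x₂ ∈ U₂, x = (3 : ℕ) • cHom σ₀ ε (upE h₂ 0 x₂)) :
    LocSt 2 ε G' ∧ LocUnip 2 G' := by
  have hεε : ε * ε = 1 := by rcases hε with rfl | rfl <;> norm_num
  have hup : ∀ (g : GQ) (x : JZero N₂), upE h₂ 0 (g • x) = g • upE h₂ 0 x :=
    fun g x => upE_smul h₂ 0 g x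
  have hca : ∀ x ∈ U₂, p ^ a • cHom σ₀ ε x = 0 := fun x hx => by
    rw [← map_nsmul, hU₂a x hx, map_zero]
  have hun : LocUnip 2 (upE h₂ 0 '' {x : JZero N₂ | ∃ e : ℕ, p ^ e • x = 0}) :=
    (locUnip_two' h₁ hN₁ hp hp2).image (upE h₂ 0) hup
  set Y : AddSubgroup (JZero N₄) := (U₂.map (upE h₂ 0)).map (cHom σ₀ ε) with hY
  have hYmem : ∀ y ∈ Y, ∃ x ∈ U₂, y = upE h₂ 0 (cHom σ₀ ε x) := by
    rintro _ ⟨_, ⟨x, hx, rfl⟩, rfl⟩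
    exact ⟨x, hx, (map_cHom (upE h₂ 0) hup σ₀ ε x).symm⟩
  refine ⟨locSt_two_of Y ?_ ε hε ?_ A₀ hA₀ ?_ σ₀ hσ₀ ?_ ?_ G' hG' ?_, ?_⟩
  · rintro g _ ⟨_, ⟨x, hx, rfl⟩, rfl⟩
    refine ⟨upE h₂ 0 (g • x), ⟨g • x, hU₂ g x hx, rfl⟩, ?_⟩
    rw [hup, hcen g x hx]
  · intro y hy
    obtain ⟨x, hx, rfl⟩ := hYmem y hy
    refine ⟨p ^ a, (hp.odd_of_ne_two hp2).pow, ?_⟩
    rw [← map_nsmul, hca x hx, map_zero]
  · intro τ hτ τ' hτ' y hy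
    obtain ⟨x, hx, rfl⟩ := hYmem y hy
    exact hun A₀ hA₀ τ hτ τ' hτ' _ ⟨_, ⟨a, hca x hx⟩, rfl⟩
  · intro τ hτ y hy
    obtain ⟨x, hx, rfl⟩ := hYmem y hy
    rw [← hup, ← hup, ← hup, ← hup, ← hup,
      tame_two h₁ hN₁ hp hp2 hA₀ hσ₀ hτ a _ (hca x hx)]
  · intro y hy
    obtain ⟨x, hx, rfl⟩ := hYmem y hy
    rw [← hup, ← hup, ← map_nsmul, ← map_add, ← map_zsmul,
      c_rel_two h₁ hN₁ hp hp2 hA₀ hσ₀ ε hεε x ⟨a, hU₂a x hx⟩ (hU₂n x hx)]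
  · intro x hx
    obtain ⟨x₂, hx₂, rfl⟩ := h x hx
    exact ⟨_, ⟨_, ⟨x₂, hx₂, rfl⟩, rfl⟩, rfl⟩
  · refine hun.mono ?_
    intro x hx
    obtain ⟨x₂, hx₂, rfl⟩ := h x hx
    refine ⟨(3 : ℕ) • cHom σ₀ ε x₂, ⟨a, ?_⟩, ?_⟩
    · rw [nsmul_left_comm, hca x₂ hx₂, nsmul_zero]
    · rw [map_nsmul, map_cHom (upE h₂ 0) hup]

/-! ### from the conclusion of `raise_step_abs` -/

section Trace

variable {N₄ : ℕ} [NeZero N₄] {V : AddSubgroup (JZero N₄)} {R : Type*} [CommRing R] [Module R V]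
  {tr : GQ → R} {χ : GQ → ℤ}

/-- `tr σ₀ + 3 ε` acts as `c'`. -/
theorem coe_c'_smul (H : IsTraceRing V R tr χ) {σ₀ : GQ} (hχ : ∀ x ∈ V, χ σ₀ • x = (2 : ℕ) • x)
    (ε : ℤ) (x : V) :
    (((tr σ₀ + ((3 * ε : ℤ) : R)) • x : V) : JZero N₄) = cHom σ₀ ε (x : JZero N₄) := by
  rw [add_smul, AddSubgroup.coe_add, H.spec, Int.cast_smul_eq_zsmul,
    hχ _ (H.stable σ₀⁻¹ _ x.2), cHom_apply]
  rfl

/-- `β' = 3 (tr σ₀ + 3 ε)` acts as `3 c'`. -/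
theorem coe_beta'_smul (H : IsTraceRing V R tr χ) {σ₀ : GQ}
    (hχ : ∀ x ∈ V, χ σ₀ • x = (2 : ℕ) • x) (ε : ℤ) (x : V) :
    (((3 * (tr σ₀ + ((3 * ε : ℤ) : R))) • x : V) : JZero N₄) =
      (3 : ℕ) • cHom σ₀ ε (x : JZero N₄) := by
  rw [mul_smul, ← coe_c'_smul H hχ ε x, ofNat_smul_eq_nsmul]
  rfl

/-- **the field `st` at `2`** of the output of `Lift.raise_step_abs`, `β' = 3 (tr σ₀ + 3 ε)`, `U' = δ_0^* U₂`. -/
theorem locSt_two_trace {N₁ N₂ p : ℕ} [NeZero N₁] [NeZero N₂] (h₁ : N₂ = N₁ * 2)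
    (h₂ : N₄ = N₂ * 2) (hN₁ : ¬ 2 ∣ N₁) (hp : p.Prime) (hp2 : p ≠ 2)
    {A₀ : ValuationSubring Qbar} (hA₀ : A₀.LiesOverPrime 2) {σ₀ : GQ}
    (hσ₀ : A₀.IsFrobeniusAt σ₀ 2) (ε : ℤ) (hε : ε = 1 ∨ ε = -1) (a : ℕ)
    (U₂ : AddSubgroup (JZero N₂)) (hU₂ : ∀ g : GQ, ∀ x ∈ U₂, g • x ∈ U₂)
    (hU₂a : ∀ x ∈ U₂, p ^ a • x = 0) (hU₂n : ∀ x ∈ U₂, ∀ c, dnE h₁ c x = 0)
    (H : IsTraceRing V R tr χ)
    (hcomm : ∀ (g : GQ) (s : R) (x : V),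
      ((s • (⟨g • (x : JZero N₄), H.stable g x x.2⟩ : V) : V) : JZero N₄) =
        g • ((s • x : V) : JZero N₄))
    (hχ : ∀ x ∈ V, χ σ₀ • x = (2 : ℕ) • x) (hU₂V : U₂.map (upE h₂ 0) ≤ V)
    {β' : R} (hβ' : β' = 3 * (tr σ₀ + ((3 * ε : ℤ) : R)))
    (G' : AddSubgroup (JZero N₄)) (hG' : ∀ g : GQ, ∀ x ∈ G', g • x ∈ G')
    (hout : ∀ x ∈ G', ∃ x₁ : V, (x₁ : JZero N₄) ∈ U₂.map (upE h₂ 0) ∧
      ((β' • x₁ : V) : JZero N₄) = x) :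
    LocSt 2 ε (G' : Set (JZero N₄)) ∧ LocUnip 2 (G' : Set (JZero N₄)) := by
  refine locSt_two_inst h₁ h₂ hN₁ hp hp2 hA₀ hσ₀ ε hε a U₂ hU₂ hU₂a hU₂n ?_ _ hG' ?_
  · intro g x hx
    have hxV : upE h₂ 0 x ∈ V := hU₂V ⟨x, hx, rfl⟩
    have h := hcomm g (tr σ₀ + ((3 * ε : ℤ) : R)) ⟨upE h₂ 0 x, hxV⟩
    rw [coe_c'_smul H hχ, coe_c'_smul H hχ] at h
    exact h
  · intro x hx
    obtain ⟨x₁, ⟨x₂, hx₂, hx₁⟩, rfl⟩ := hout x hx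
    refine ⟨x₂, hx₂, ?_⟩
    rw [hβ', coe_beta'_smul H hχ, hx₁]

/-- the same for `U₂ = UK ..` and the box, VERBATIM the conclusion of `raise_step_abs`. -/
theorem locSt_two_step {N₁ N₂ p : ℕ} [NeZero N₁] [NeZero N₂] (h₁ : N₂ = N₁ * 2)
    (h₂ : N₄ = N₂ * 2) (hN₁ : ¬ 2 ∣ N₁) (hp : p.Prime) (hp2 : p ≠ 2)
    {A₀ : ValuationSubring Qbar} (hA₀ : A₀.LiesOverPrime 2) {σ₀ : GQ}
    (hσ₀ : A₀.IsFrobeniusAt σ₀ 2) (ε : ℤ) (hε : ε = 1 ∨ ε = -1) (a : ℕ)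
    (S : Set ℕ) (θ : ℕ → ℤ) {t : ℕ} (qv : Fin t → Nat.Primes) (τ : Fin t → GQ)
    (H : IsTraceRing V R tr χ)
    (hcomm : ∀ (g : GQ) (s : R) (x : V),
      ((s • (⟨g • (x : JZero N₄), H.stable g x x.2⟩ : V) : V) : JZero N₄) =
        g • ((s • x : V) : JZero N₄))
    (hχ : ∀ x ∈ V, χ σ₀ • x = (2 : ℕ) • x) (hUV : (UK p S θ qv h₁ a).map (upE h₂ 0) ≤ V)
    {β' : R} (hβ' : β' = 3 * (tr σ₀ + ((3 * ε : ℤ) : R)))
    (G' : AddSubgroup (JZero N₄)) (hG' : ∀ g : GQ, ∀ x ∈ G', g • x ∈ G')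
    (hout : ∀ x ∈ G', ∃ x₁ : V,
      (x₁ : JZero N₄) ∈ boxG p a τ ((UK p S θ qv h₁ a).map (upE h₂ 0)) ∧
      ((β' • x₁ : V) : JZero N₄) = x) :
    LocSt 2 ε (G' : Set (JZero N₄)) ∧ LocUnip 2 (G' : Set (JZero N₄)) :=
  locSt_two_trace h₁ h₂ hN₁ hp hp2 hA₀ hσ₀ ε hε a (UK p S θ qv h₁ a)
    (fun g _ hx => smul_mem_UK g hx) (fun _ hx => (mem_UK.1 hx).1.2.2)
    (fun _ hx => (mem_UK.1 hx).2) H hcomm hχ hUV hβ' G' hG' fun x hx => by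
      obtain ⟨x₁, h1, h2⟩ := hout x hx
      exact ⟨x₁, h1.1, h2⟩

end Trace

end Fermat.Agent.ML.At2
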