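import Fermat.Agent.ML.At2.N2.LocStInst
import Fermat.Agent.ML.At2.N2.Blocks
import Fermat.Agent.ML.Lift.Base.Maps

/-!
# ML / At2 / N2 / LocStU2 : the field `st` at `2` of the output cell of **StepTwo**, in the LEV-frame of `N2/Step.lean`

* `LocStU2.inst`, `LocStU2.trace` : `N2/LocStInst.lean` for an ARBITRARY equivariant map `u : J₀(N₂) →+ J₀(N₄)` instead of `upE h₂ 0`;
* `U2_eq_UK` : `U2 p S θ M qv a = UK p S θ qv (lev_mul ..) a`;   `smul_mem_U2`;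
* `locSt_two_U2` : `U' = (U2 ..).map (uTwo M qv L₀ hM)`, `β' = 3 (tr σ₀ + 3 ε)`, `G'` = the output of `Lift.raise_step_abs`
  ⟹ `LocSt 2 ε G' ∧ LocUnip 2 G'`.
-/

set_option autoImplicit false
set_option linter.unusedSectionVars false

noncomputable section

open AlgebraicCurve ModularCurve

namespace Fermat.Agent.ML.At2

open Fermat.Agent.RIB Fermat.Agent.GAL Fermat.Agent.GAL.PC Fermat.Agent.ML.TWFree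
  Fermat.Agent.ML.Lift Fermat.Agent.ML.Tower

local notation "Qbar" => AlgebraicClosure ℚ
local notation "GQ" => (AlgebraicClosure ℚ ≃ₐ[ℚ] AlgebraicClosure ℚ)

namespace LocStU2

/-- ring-free form, any equivariant `u`. -/
theorem inst {N₁ N₂ p : ℕ} [NeZero N₁] [NeZero N₂] {X : Type*} [AddCommGroup X]
    [DistribMulAction GQ X] (h₁ : N₂ = N₁ * 2) (u : JZero N₂ →+ X)
    (hup : ∀ (g : GQ) (x : JZero N₂), u (g • x) = g • u x)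
    (hN₁ : ¬ 2 ∣ N₁) (hp : p.Prime) (hp2 : p ≠ 2)
    {A₀ : ValuationSubring Qbar} (hA₀ : A₀.LiesOverPrime 2) {σ₀ : GQ}
    (hσ₀ : A₀.IsFrobeniusAt σ₀ 2) (ε : ℤ) (hε : ε = 1 ∨ ε = -1) (a : ℕ)
    (U₂ : AddSubgroup (JZero N₂)) (hU₂ : ∀ g : GQ, ∀ x ∈ U₂, g • x ∈ U₂)
    (hU₂a : ∀ x ∈ U₂, p ^ a • x = 0) (hU₂n : ∀ x ∈ U₂, ∀ c, dnE h₁ c x = 0)
    (hcen : ∀ g : GQ, ∀ x ∈ U₂, cHom σ₀ ε (g • u x) = g • cHom σ₀ ε (u x))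
    (G' : Set X) (hG' : ∀ g : GQ, ∀ x ∈ G', g • x ∈ G')
    (h : ∀ x ∈ G', ∃ x₂ ∈ U₂, x = (3 : ℕ) • cHom σ₀ ε (u x₂)) :
    LocSt 2 ε G' ∧ LocUnip 2 G' := by
  have hεε : ε * ε = 1 := by rcases hε with rfl | rfl <;> norm_num
  have hca : ∀ x ∈ U₂, p ^ a • cHom σ₀ ε x = 0 := fun x hx => by
    rw [← map_nsmul, hU₂a x hx, map_zero]
  have hun : LocUnip 2 (u '' {x : JZero N₂ | ∃ e : ℕ, p ^ e • x = 0}) :=
    (locUnip_two' h₁ hN₁ hp hp2).image u hup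
  set Y : AddSubgroup X := (U₂.map u).map (cHom σ₀ ε) with hY
  have hYmem : ∀ y ∈ Y, ∃ x ∈ U₂, y = u (cHom σ₀ ε x) := by
    rintro _ ⟨_, ⟨x, hx, rfl⟩, rfl⟩
    exact ⟨x, hx, (map_cHom u hup σ₀ ε x).symm⟩
  refine ⟨locSt_two_of Y ?_ ε hε ?_ A₀ hA₀ ?_ σ₀ hσ₀ ?_ ?_ G' hG' ?_, ?_⟩
  · rintro g _ ⟨_, ⟨x, hx, rfl⟩, rfl⟩
    refine ⟨u (g • x), ⟨g • x, hU₂ g x hx, rfl⟩, ?_⟩
    rw [hup, hcen g x hx]
  · intro y hy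
    obtain ⟨x, hx, rfl⟩ := hYmem y hy
    refine ⟨p ^ a, (hp.odd_of_ne_two hp2).pow, ?_⟩
    rw [← map_nsmul, hca x hx, map_zero]
  · intro τ hτ τ' hτ' y hy
    obtain ⟨x, hx, rfl⟩ := hYmem y hy
    exact hun A₀ hA₀ τ hτ τ' hτ' _ ⟨_, ⟨a, hca x hx⟩, rfl⟩
  · intro τ hτ y hy
    obtain ⟨x, hx, rfl⟩ := hYmem y hy
    rw [← hup, ← hup, ← hup, ← hup, ← hup,
      tame_two h₁ hN₁ hp hp2 hA₀ hσ₀ hτ a _ (hca x hx)]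
  · intro y hy
    obtain ⟨x, hx, rfl⟩ := hYmem y hy
    rw [← hup, ← hup, ← map_nsmul, ← map_add, ← map_zsmul,
      c_rel_two h₁ hN₁ hp hp2 hA₀ hσ₀ ε hεε x ⟨a, hU₂a x hx⟩ (hU₂n x hx)]
  · intro x hx
    obtain ⟨x₂, hx₂, rfl⟩ := h x hx
    exact ⟨_, ⟨_, ⟨x₂, hx₂, rfl⟩, rfl⟩, rfl⟩
  · refine hun.mono ?_
    intro x hx
    obtain ⟨x₂, hx₂, rfl⟩ := h x hx
    refine ⟨(3 : ℕ) • cHom σ₀ ε x₂, ⟨a, ?_⟩, ?_⟩
    · rw [nsmul_left_comm, hca x₂ hx₂, nsmul_zero]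
    · rw [map_nsmul, map_cHom u hup]

variable {N₄ : ℕ} [NeZero N₄] {V : AddSubgroup (JZero N₄)} {R : Type*} [CommRing R] [Module R V]
  {tr : GQ → R} {χ : GQ → ℤ}

/-- from the conclusion of `raise_step_abs`, any equivariant `u`. -/
theorem trace {N₁ N₂ p : ℕ} [NeZero N₁] [NeZero N₂] (h₁ : N₂ = N₁ * 2)
    (u : JZero N₂ →+ JZero N₄) (hup : ∀ (g : GQ) (x : JZero N₂), u (g • x) = g • u x)
    (hN₁ : ¬ 2 ∣ N₁) (hp : p.Prime) (hp2 : p ≠ 2)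
    {A₀ : ValuationSubring Qbar} (hA₀ : A₀.LiesOverPrime 2) {σ₀ : GQ}
    (hσ₀ : A₀.IsFrobeniusAt σ₀ 2) (ε : ℤ) (hε : ε = 1 ∨ ε = -1) (a : ℕ)
    (U₂ : AddSubgroup (JZero N₂)) (hU₂ : ∀ g : GQ, ∀ x ∈ U₂, g • x ∈ U₂)
    (hU₂a : ∀ x ∈ U₂, p ^ a • x = 0) (hU₂n : ∀ x ∈ U₂, ∀ c, dnE h₁ c x = 0)
    (H : IsTraceRing V R tr χ)
    (hcomm : ∀ (g : GQ) (s : R) (x : V),
      ((s • (⟨g • (x : JZero N₄), H.stable g x x.2⟩ : V) : V) : JZero N₄) =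
        g • ((s • x : V) : JZero N₄))
    (hχ : ∀ x ∈ V, χ σ₀ • x = (2 : ℕ) • x) (hU₂V : U₂.map u ≤ V)
    {β' : R} (hβ' : β' = 3 * (tr σ₀ + ((3 * ε : ℤ) : R)))
    (G' : AddSubgroup (JZero N₄)) (hG' : ∀ g : GQ, ∀ x ∈ G', g • x ∈ G')
    (hout : ∀ x ∈ G', ∃ x₁ : V, (x₁ : JZero N₄) ∈ U₂.map u ∧ ((β' • x₁ : V) : JZero N₄) = x) :
    LocSt 2 ε (G' : Set (JZero N₄)) ∧ LocUnip 2 (G' : Set (JZero N₄)) := by
  refine inst h₁ u hup hN₁ hp hp2 hA₀ hσ₀ ε hε a U₂ hU₂ hU₂a hU₂n ?_ _ hG' ?_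
  · intro g x hx
    have hxV : u x ∈ V := hU₂V ⟨x, hx, rfl⟩
    have h := hcomm g (tr σ₀ + ((3 * ε : ℤ) : R)) ⟨u x, hxV⟩
    rw [coe_c'_smul H hχ, coe_c'_smul H hχ] at h
    exact h
  · intro x hx
    obtain ⟨x₁, ⟨x₂, hx₂, hx₁⟩, rfl⟩ := hout x hx
    refine ⟨x₂, hx₂, ?_⟩
    rw [hβ', coe_beta'_smul H hχ, hx₁]

end LocStU2

section U2

variable {p : ℕ} {S : Set ℕ} {θ : ℕ → ℤ} {M : ℕ} [NeZero M] {t : ℕ} {qv : Fin t → Nat.Primes}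
  {a : ℕ}

/-- the LEV-block `U2` is the level-free block `UK`. -/
theorem U2_eq_UK : U2 p S θ M qv a =
    UK p S θ qv (lev_mul qv (rfl : M * 2 = M * 2) Finset.univ) a := by
  ext x
  rw [mem_U2, mem_newPart_univ_iff, mem_kerSub, mem_UK, mem_UL]
  constructor
  · rintro ⟨⟨⟨h1, h2⟩, h3⟩, h4⟩
    exact ⟨⟨h1, h3, h4⟩, h2⟩
  · rintro ⟨⟨h1, h3, h4⟩, h2⟩
    exact ⟨⟨⟨h1, h2⟩, h3⟩, h4⟩

theorem smul_mem_U2 (g : GQ) {x : JZero (lev (M * 2) qv Finset.univ)}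
    (hx : x ∈ U2 p S θ M qv a) : g • x ∈ U2 p S θ M qv a := by
  rw [U2_eq_UK] at hx ⊢
  exact smul_mem_UK g hx

variable {L₀ : ℕ} [NeZero L₀] {V : AddSubgroup (JZero (lvl L₀ (extP qv) t))} {R : Type*}
  [CommRing R] [Module R V] {tr : GQ → R} {χ : GQ → ℤ}

/-- **the field `st` at `2`** of the output of `Lift.raise_step_abs` in the frame of `N2/Step.lean`. -/
theorem locSt_two_U2 (hM : L₀ = M * 4) (h2M : ¬ 2 ∣ M) (hqv : ∀ i, ((qv i : Nat.Primes) : ℕ) ≠ 2)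
    (hp : p.Prime) (hp2 : p ≠ 2) {A₀ : ValuationSubring Qbar} (hA₀ : A₀.LiesOverPrime 2)
    {σ₀ : GQ} (hσ₀ : A₀.IsFrobeniusAt σ₀ 2) (ε : ℤ) (hε : ε = 1 ∨ ε = -1) (τ : Fin t → GQ)
    (H : IsTraceRing V R tr χ)
    (hcomm : ∀ (g : GQ) (s : R) (x : V),
      ((s • (⟨g • (x : JZero (lvl L₀ (extP qv) t)), H.stable g x x.2⟩ : V) : V) :
        JZero (lvl L₀ (extP qv) t)) = g • ((s • x : V) : JZero (lvl L₀ (extP qv) t)))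
    (hχ : ∀ x ∈ V, χ σ₀ • x = (2 : ℕ) • x)
    (hUV : (U2 p S θ M qv a).map (uTwo M qv L₀ hM) ≤ V)
    {β' : R} (hβ' : β' = 3 * (tr σ₀ + ((3 * ε : ℤ) : R)))
    (G' : AddSubgroup (JZero (lvl L₀ (extP qv) t))) (hG' : ∀ g : GQ, ∀ x ∈ G', g • x ∈ G')
    (hout : ∀ x ∈ G', ∃ x₁ : V, (x₁ : JZero (lvl L₀ (extP qv) t)) ∈
        boxG p a τ ((U2 p S θ M qv a).map (uTwo M qv L₀ hM)) ∧
      ((β' • x₁ : V) : JZero (lvl L₀ (extP qv) t)) = x) :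
    LocSt 2 ε (G' : Set (JZero (lvl L₀ (extP qv) t))) ∧
      LocUnip 2 (G' : Set (JZero (lvl L₀ (extP qv) t))) :=
  LocStU2.trace (lev_mul qv (rfl : M * 2 = M * 2) Finset.univ) (uTwo M qv L₀ hM)
    (fun g x => uTwo_smul hM g x) (not_two_dvd_lev h2M hqv Finset.univ) hp hp2 hA₀ hσ₀ ε hε a
    (U2 p S θ M qv a) (fun g _ hx => smul_mem_U2 g hx) (fun _ hx => hx.2)
    (fun x hx => by
      rw [U2_eq_UK] at hx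
      exact (mem_UK.1 hx).2) H hcomm hχ hUV hβ' G' hG' fun x hx => by
      obtain ⟨x₁, h1, h2⟩ := hout x hx
      exact ⟨x₁, h1.1, h2⟩

end U2

end Fermat.Agent.ML.At2
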