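import Fermat.Agent.ML.At2.N2.Blocks
import Fermat.Agent.ML.Lift.Base.Maps
import Fermat.Agent.ML.Lift.Base.Loc
import Fermat.Agent.ML.Lift.Inst.New

/-!
# ML / At2 / N2 / StepMaps : the holes `h02`, `h03`, `h04` of `ML/At2/N2/Step.lean`

The block `U' = δ_0^* (U2)` at the level `lvl L₀ (extP qv) t`, `L₀ = 4 M` :
* `two_le`   : `U' ≤ thetaPart`;
* `two_new`  : `U'` is new at all the Taylor-Wiles primes;
* `two_unip` : `LocUnip 2 U'`   (`2 ‖ lev (M * 2) qv univ`).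
-/

set_option autoImplicit false
set_option linter.unusedSectionVars false
set_option linter.unusedVariables false

noncomputable section

open AlgebraicCurve ModularCurve

namespace Fermat.Agent.ML.At2

open Fermat.Agent.RIB Fermat.Agent.GAL Fermat.Agent.GAL.PC Fermat.Agent.ML.TWFree
  Fermat.Agent.ML.ESide Fermat.Agent.ML.Lift

local notation "Qbar" => AlgebraicClosure ℚ
local notation "GQ" => (AlgebraicClosure ℚ ≃ₐ[ℚ] AlgebraicClosure ℚ)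

/-- a prime divisor of `lev L qv Q` divides `L` or is one of the `qv i`. -/
theorem stepMaps_dvd_lev {L t : ℕ} {qv : Fin t → Nat.Primes} {Q : Finset (Fin t)} {r : ℕ}
    (hr : r.Prime) (hd : r ∣ lev L qv Q) : r ∣ L ∨ ∃ i, r = ((qv i : Nat.Primes) : ℕ) := by
  rw [lev] at hd
  rcases (Nat.Prime.dvd_mul hr).1 hd with h | h
  · exact Or.inl h
  · obtain ⟨i, -, hi⟩ := (Prime.dvd_finsetProd_iff (Nat.prime_iff.1 hr) _).1 h
    have h5 : r ∣ ((qv i : Nat.Primes) : ℕ) := by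
      rcases (Nat.Prime.dvd_mul hr).1 hi with h | h <;> exact h
    exact Or.inr ⟨i, (Nat.prime_dvd_prime_iff_eq hr (qv i).2).1 h5⟩

/-- the primes of `lvl L₀ (extP qv) t * p`. -/
theorem stepMaps_hS {p L₀ t : ℕ} {T : Finset ℕ} {qv : Fin t → Nat.Primes}
    (hlev : ∀ r : ℕ, r.Prime → r ∣ L₀ * p → r ∈ T) :
    ∀ r : ℕ, r.Prime → r ∉ (↑(cutS T qv) : Set ℕ) → ¬ r ∣ lvl L₀ (extP qv) t * p := by
  intro r hr hrS hd
  apply hrS
  rw [Finset.mem_coe]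
  rcases (Nat.Prime.dvd_mul hr).1 hd with h | h
  · rw [lvl_eq_lev] at h
    rcases stepMaps_dvd_lev hr h with h | ⟨i, rfl⟩
    · exact subset_cutS T qv (hlev r hr (Dvd.dvd.mul_right h p))
    · exact mem_cutS_qv T qv i
  · exact subset_cutS T qv (hlev r hr (Dvd.dvd.mul_left h L₀))

/-- `2 ‖ lev (M * 2) qv Q`. -/
theorem stepMaps_two_exact {M t : ℕ} (hodd : Odd M) {qv : Fin t → Nat.Primes}
    (h2 : ∀ i, ((qv i : Nat.Primes) : ℕ) ≠ 2) (Q : Finset (Fin t)) :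
    2 ∣ lev (M * 2) qv Q ∧ ¬ 2 ^ 2 ∣ lev (M * 2) qv Q := by
  have e : lev (M * 2) qv Q = lev M qv Q * 2 := by rw [lev, lev]; ring
  rw [e]
  refine ⟨Dvd.intro_left _ rfl, fun h => ?_⟩
  have h1 : 2 ∣ lev M qv Q := by
    rw [pow_two] at h
    exact Nat.dvd_of_mul_dvd_mul_right (by norm_num) h
  rcases stepMaps_dvd_lev Nat.prime_two h1 with h | ⟨i, hi⟩
  · exact (Nat.not_even_iff_odd.2 hodd) (even_iff_two_dvd.2 h)
  · exact h2 i hi.symm

variable {W : WeierstrassCurve ℤ} {p : ℕ} [Fact p.Prime] {T : Finset ℕ}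
  {b : Module.Basis (Fin 2) (ZMod p) (TorsW W p)} {L₀ : ℕ} [NeZero L₀] {eps : ℕ → ℤ} {eP : GQ → ℤ}

/-- the Taylor-Wiles primes are odd. -/
theorem stepMaps_qv_ne_two (X : LCtx W p T b L₀ eps eP) {t : ℕ} {qv : Fin t → Nat.Primes}
    (hnotT : ∀ i, ((qv i : Nat.Primes) : ℕ) ∉ T) (i : Fin t) : ((qv i : Nat.Primes) : ℕ) ≠ 2 := by
  intro h
  apply hnotT i
  rw [h]
  exact X.BP.levT 2 Nat.prime_two (Dvd.dvd.mul_right X.two_dvd p)

/-- **h02** : `le`. -/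
theorem two_le (X : LCtx W p T b L₀ eps eP) {M : ℕ} [NeZero M] (hM : L₀ = M * 4) {t a : ℕ}
    {qv : Fin t → Nat.Primes} (hnotT : ∀ i, ((qv i : Nat.Primes) : ℕ) ∉ T) :
    (U2 p (↑(cutS T qv) : Set ℕ) W.apOfModel M qv a).map (uTwo M qv L₀ hM) ≤
      thetaPart (lvl L₀ (extP qv) t) p (↑(cutS T qv) : Set ℕ) W.apOfModel := by
  rintro _ ⟨x, hx, rfl⟩
  have h1 := (mem_newPart_univ_iff.1 (mem_U2.1 hx).1).1
  exact uTwo_mem_thetaPart hM (stepMaps_hS X.BP.levT) (mem_kerSub.1 h1).1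

/-- **h03** : `new`. -/
theorem two_new (X : LCtx W p T b L₀ eps eP) {M : ℕ} [NeZero M] (hM : L₀ = M * 4) {t a : ℕ}
    {qv : Fin t → Nat.Primes} (hnotT : ∀ i, ((qv i : Nat.Primes) : ℕ) ∉ T)
    (hinj : Function.Injective qv) :
    ∀ x ∈ (U2 p (↑(cutS T qv) : Set ℕ) W.apOfModel M qv a).map (uTwo M qv L₀ hM),
      ∀ i : Fin t, Tower.IsNewAt (lvl L₀ (extP qv) t) ((qv i : Nat.Primes) : ℕ) x := by
  rintro _ ⟨x, hx, rfl⟩ i
  exact isNewAt_uTwo hM (qv i).2 (stepMaps_qv_ne_two X hnotT i)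
    ((mem_newPart_univ_iff.1 (mem_U2.1 hx).1).2 i)

/-- **h04** : `LocUnip 2`. -/
theorem two_unip (X : LCtx W p T b L₀ eps eP) {M : ℕ} [NeZero M] (hM : L₀ = M * 4) (hodd : Odd M)
    {t a : ℕ} {qv : Fin t → Nat.Primes} (hnotT : ∀ i, ((qv i : Nat.Primes) : ℕ) ∉ T) :
    LocUnip 2 (((U2 p (↑(cutS T qv) : Set ℕ) W.apOfModel M qv a).map (uTwo M qv L₀ hM) :
      AddSubgroup (JZero (lvl L₀ (extP qv) t))) : Set (JZero (lvl L₀ (extP qv) t))) := by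
  have hp : p.Prime := Fact.out
  obtain ⟨h1, h2⟩ := stepMaps_two_exact hodd (stepMaps_qv_ne_two X hnotT) (Finset.univ)
  rw [AddSubgroup.coe_map]
  exact locUnip_uTwo hM (locUnip_of_exact Nat.prime_two hp (Ne.symm X.C.hp2) h1 h2 _
    fun x hx => ⟨a, (mem_U2.1 hx).2⟩)

end Fermat.Agent.ML.At2
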