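import Fermat.Agent.ML.At2.N2.GenInst
import Fermat.Agent.ML.At2.N2.StepMaps

/-!
# ML / AT-2 / N2 / LowAtp : the hypothesis `hatp` of `genHyp_sub` for the stage `q = 2` at the NON-RIGID level `lvl (M * 2)`

`L₀ = M * 2 * 2`, `G ≤ thetaPart (lvl M ..)` Galois stable, killed by `p ^ a`.   Then `α_2^* G ≤ J₀(lvl (M * 2) ..)` is flat at `p`
(`p ∤ L₀`) or strictly ordinary at `p` (`p ∣ L₀` : push once more to `lvl L₀`, (Ma) there, come back by injectivity on torsion).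
-/

set_option autoImplicit false
set_option linter.unusedSectionVars false

noncomputable section

open AlgebraicCurve ModularCurve

namespace Fermat.Agent.ML.At2

open Fermat.Agent.GAL Fermat.Agent.RIB Fermat.Agent.RIB.Rho Fermat.Agent.ML.ESide Fermat.Agent.ML.Rho
  Fermat.Agent.ML.Lift Fermat.Agent.S56 Fermat.Agent.S56.Flat Fermat.Agent.ML.FinGen
  Fermat.Agent.ML.StepGen Fermat.Agent.ML.TWFree

local notation "Qbar" => AlgebraicClosure ℚ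
local notation "GQ" => (AlgebraicClosure ℚ ≃ₐ[ℚ] AlgebraicClosure ℚ)
local notation "M₂" => Matrix (Fin 2) (Fin 2)

namespace LowAtp

/-- descent of `LocPSt` along an equivariant map which is injective on `p^a`-torsion. -/
theorem locPSt_of_image {X Y : Type*} [AddCommGroup X] [AddCommGroup Y] [DistribMulAction GQ X]
    [DistribMulAction GQ Y] {p : ℕ} [Fact p.Prime] {e : GQ → ℤ} {k a : ℕ} {G : Set X} (f : X →+ Y)
    (hf : ∀ (g : GQ) x, f (g • x) = g • f x) (hpa : ∀ x ∈ G, p ^ a • x = 0)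
    (hinj : ∀ x : X, p ^ a • x = 0 → f x = 0 → x = 0) (h : LocPSt p e k (f '' G)) :
    LocPSt p e k G := by
  intro s₁ h₁ s₂ h₂ x hx c hc
  have h0 := h s₁ h₁ s₂ h₂ _ ⟨x, hx, rfl⟩ c hc
  rw [← sub_eq_zero]
  refine hinj _ ?_ ?_
  · have hx0 := hpa x hx
    have e1 : p ^ a • (s₂ • x - e s₂ • x) = 0 := by
      rw [smul_sub, smul_comm (p ^ a) s₂ x, smul_comm (p ^ a) (e s₂) x, hx0, smul_zero, smul_zero,
        sub_zero]
    rw [smul_sub, smul_comm (p ^ a) s₁, smul_comm (p ^ a) ((c : ℤ) * e s₁), e1, smul_zero,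
      smul_zero, sub_zero]
  · rw [map_sub, sub_eq_zero, hf, map_zsmul, map_sub, hf, map_zsmul]
    exact h0

end LowAtp

variable {W : WeierstrassCurve ℤ} {p : ℕ} [Fact p.Prime] {T : Finset ℕ}
  {b : Module.Basis (Fin 2) (ZMod p) (TorsW W p)} {L₀ : ℕ} [NeZero L₀] {eps : ℕ → ℤ} {eP : GQ → ℤ}
  {t F₀ C₀ a m n K : ℕ} {qv : Fin t → Nat.Primes}

/-- **the hypothesis `hatp`** of `genHyp_sub` for `α_2^* G`, `G` at the odd level `lvl M`. -/
theorem two_low_atp (hLow : LowerStmt) (X : LCtx W p T b L₀ eps eP) {M : ℕ} [NeZero M]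
    (hM : L₀ = M * 2 * 2)
    (F : Frm p X.C.hp2 T W.apOfModel (rbarB b) t F₀ C₀ a m n K qv)
    (G : AddSubgroup (JZero (lvl M (extP qv) t)))
    (hle : G ≤ thetaPart (lvl M (extP qv) t) p (↑(cutS T qv) : Set ℕ) W.apOfModel)
    (hgal : ∀ g : GQ, ∀ x ∈ G, g • x ∈ G) (hpa : ∀ x ∈ G, p ^ a • x = 0) :
    StepGen.FlatData p (upE (lvl_mul_q (rfl : M * 2 = M * 2) qv) 0 '' (G : Set _)) ∨
      ((∀ s ∈ (Ap p).inertiaSubgroupIn ℚ, eP s = 1) ∧
        LocPSt p eP (K + 1) (upE (lvl_mul_q (rfl : M * 2 = M * 2) qv) 0 '' (G : Set _))) := by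
  have hp : p.Prime := Fact.out
  have hpa0 : p ^ a ≠ 0 := pow_ne_zero _ hp.ne_zero
  have hP : (∅ : Finset ℕ) ⊆ Pfin W (rbarB b) L₀ := Finset.empty_subset _
  have hLc : L₀ = cellLevel L₀ ∅ := by simp [cellLevel]
  have TC : MTW p T W.apOfModel L₀ t n qv := X.cellMk_mtw F hP hLc
  have h₁ : lvl (M * 2) (extP qv) t = lvl M (extP qv) t * 2 := lvl_mul_q rfl qv
  have h₂ : lvl L₀ (extP qv) t = lvl (M * 2) (extP qv) t * 2 := lvl_mul_q hM qv
  have hS₄ : ∀ r : ℕ, r.Prime → r ∉ (↑(cutS T qv) : Set ℕ) → ¬ r ∣ lvl L₀ (extP qv) t * p :=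
    stepMaps_hS X.BP.levT
  have hS₂ : ∀ r : ℕ, r.Prime → r ∉ (↑(cutS T qv) : Set ℕ) →
      ¬ r ∣ lvl (M * 2) (extP qv) t * p := fun r hr hrS => not_dvd_low h₂ (hS₄ r hr hrS)
  by_cases hpL : p ∣ L₀
  · have hpΔ : (p : ℤ) ∣ W.Δ := by
      by_contra hg
      exact X.BP.goodp hg hpL
    refine Or.inr ⟨(X.sgnP hpΔ).2.1, locPSt_mono (F.hK.trans (Nat.le_succ K)) ?_⟩
    set G₂ : AddSubgroup (JZero (lvl (M * 2) (extP qv) t)) := G.map (upE h₁ 0) with hG₂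
    have hpa₂ : ∀ x ∈ G₂, p ^ a • x = 0 := by
      rintro _ ⟨v, hv, rfl⟩
      rw [← map_nsmul, hpa v hv, map_zero]
    have key : LocPSt p eP a ((G₂.map (upE h₂ 0) : AddSubgroup (JZero (lvl L₀ (extP qv) t))) :
        Set (JZero (lvl L₀ (extP qv) t))) := by
      refine X.cellMk_atp_Ma hLow F hP hpL L₀ hLc ?_ ?_ ?_
      · rintro _ ⟨_, ⟨v, hv, rfl⟩, rfl⟩
        exact upE_mem_thetaPart h₂ hS₄ 0 (upE_mem_thetaPart h₁ hS₂ 0 (hle hv))
      · rintro g _ ⟨_, ⟨v, hv, rfl⟩, rfl⟩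
        exact ⟨upE h₁ 0 (g • v), ⟨g • v, hgal g v hv, rfl⟩, by rw [upE_smul, upE_smul]⟩
      · rintro _ ⟨x, hx, rfl⟩
        rw [← map_nsmul, hpa₂ x hx, map_zero]
    exact LowAtp.locPSt_of_image (upE h₂ 0) (upE_smul h₂ 0) hpa₂
      (fun x hx h0 => upE_eq_zero_of_torsion Nat.prime_two h₂ 0 hpa0 hx h0) key
  · refine Or.inl ⟨lvl M (extP qv) t, inferInstance, G, upE h₁ 0, a, ?_, upE_smul h₁ 0, hgal,
      fun v hv h0 => upE_eq_zero_of_torsion Nat.prime_two h₁ 0 hpa0 (hpa v hv) h0, hpa, ?_⟩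
    · intro hd
      have hd₄ : p ∣ lvl L₀ (extP qv) t := by
        rw [h₂, h₁]
        exact (hd.mul_right 2).mul_right 2
      rcases dvd_lvl_cases t hp hd₄ with h | ⟨j, hj⟩
      · exact hpL h
      · exact TC.notT j (hj ▸ X.C.p_mem)
    · rintro _ ⟨v, hv, rfl⟩
      exact ⟨v, hv, rfl⟩

end Fermat.Agent.ML.At2
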