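import Fermat.Agent.ML.Lift.Base.Pull
import Fermat.Agent.ML.Lift.Inst.New
import Fermat.Agent.ML.Lift.Trace

/-!
# ML / AT-2 / N2 / LowerBox : the LOWER block of `Lift.raise_step_abs` at ANY base level `L'` (rigid or not), at the level of the cells

`UNew p S θ L' qv a ≤ J₀(lvl L' (extP qv) t)` : the classes of the `θ`-part, new at all the Taylor-Wiles primes, killed by `p^a`.

* `card_boxG_UNew` : `#boxG p k τ (UNew .. a)` = the cardinality of the set-builder box of `TWFree` / `Lift.Base` (`k ≤ a`);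
* `card_boxG_one_le` (COGEN), `le_card_boxG` (BOX) for `MTW0`, `IsCube` at `L'`, all `t`.
-/

set_option autoImplicit false
set_option linter.unusedSectionVars false

noncomputable section

open AlgebraicCurve ModularCurve

namespace Fermat.Agent.ML.At2

open Fermat.Agent.RIB Fermat.Agent.GAL Fermat.Agent.GAL.PC Fermat.Agent.ML.TWFree
open Fermat.Agent.ML.Lift (boxG mem_boxG)

local notation "Qbar" => AlgebraicClosure ℚ
local notation "GQ" => (AlgebraicClosure ℚ ≃ₐ[ℚ] AlgebraicClosure ℚ)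
local notation "M₂" => Matrix (Fin 2) (Fin 2)

/-- the `θ`-classes at the top of the tower over `L'`, new at all the TW primes, killed by `p^a`. -/
def UNew (p : ℕ) (S : Set ℕ) (θ : ℕ → ℤ) (L' : ℕ) [NeZero L'] {t : ℕ} (qv : Fin t → Nat.Primes)
    (a : ℕ) : AddSubgroup (JZero (lvl L' (extP qv) t)) where
  carrier := {x | x ∈ thetaPart (lvl L' (extP qv) t) p S θ ∧
    (∀ i, Tower.IsNewAt (lvl L' (extP qv) t) ((qv i : Nat.Primes) : ℕ) x) ∧ p ^ a • x = 0}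
  zero_mem' := ⟨AddSubgroup.zero_mem _, fun _ => Tower.IsNewAt.zero _ _, smul_zero _⟩
  add_mem' := fun {x y} hx hy => ⟨AddSubgroup.add_mem _ hx.1 hy.1,
    fun i => (hx.2.1 i).add (hy.2.1 i), by rw [nsmul_add, hx.2.2, hy.2.2, add_zero]⟩
  neg_mem' := fun {x} hx => ⟨AddSubgroup.neg_mem _ hx.1, fun i => (hx.2.1 i).neg,
    by rw [neg_nsmul, hx.2.2, neg_zero]⟩

variable {p : ℕ} {S : Set ℕ} {θ : ℕ → ℤ} {L' : ℕ} [NeZero L'] {t : ℕ} {qv : Fin t → Nat.Primes}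
  {a : ℕ}

theorem mem_UNew {x : JZero (lvl L' (extP qv) t)} :
    x ∈ UNew p S θ L' qv a ↔ x ∈ thetaPart (lvl L' (extP qv) t) p S θ ∧
      (∀ i, Tower.IsNewAt (lvl L' (extP qv) t) ((qv i : Nat.Primes) : ℕ) x) ∧ p ^ a • x = 0 :=
  Iff.rfl

theorem UNew_le : UNew p S θ L' qv a ≤ thetaPart (lvl L' (extP qv) t) p S θ := fun _ h => h.1

theorem smul_mem_UNew (g : GQ) {x : JZero (lvl L' (extP qv) t)} (hx : x ∈ UNew p S θ L' qv a) :
    g • x ∈ UNew p S θ L' qv a := by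
  refine ⟨smul_mem_thetaPart g hx.1, fun i => (hx.2.1 i).smul g, ?_⟩
  have h3 := map_nsmul (DistribSMul.toAddMonoidHom (JZero (lvl L' (extP qv) t)) g) (p ^ a) x
  rw [hx.2.2, map_zero] at h3
  exact h3.symm

theorem lowerBox_topJ_symm_zOp_iterate (g : GQ) (k : ℕ) (x : JZero (lvl L' (extP qv) t)) :
    (TWLoc.zop g)^[k] ((topJ L' qv).symm x) = (topJ L' qv).symm ((Lift.zOp g)^[k] x) := by
  induction k generalizing x with
  | zero => rfl
  | succ k ih =>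
    rw [Function.iterate_succ_apply, Function.iterate_succ_apply, ← ih]
    congr 1
    rw [TWLoc.zop_apply, Lift.zOp_apply, map_sub, map_add, map_nsmul, topJ_symm_smul,
      topJ_symm_smul]

/-- the box at the top of the tower = the box of `TWFree`. -/
theorem card_boxG_UNew (τ : Fin t → GQ) {k : ℕ} (hk : k ≤ a) :
    Nat.card ↥(boxG p k τ (UNew p S θ L' qv a)) =
      Nat.card {x : JZero (lev L' qv Finset.univ) // x ∈ Xnew p S θ L' qv Finset.univ ∧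
        p ^ k • x = 0 ∧ ∀ i, (TWLoc.zop (τ i))^[k] x = 0} := by
  have hpk : ∀ x : JZero (lvl L' (extP qv) t), p ^ k • (topJ L' qv).symm x = 0 ↔ p ^ k • x = 0 := by
    intro x
    rw [← map_nsmul, AddEquiv.map_eq_zero_iff]
  have hz : ∀ (i : Fin t) (x : JZero (lvl L' (extP qv) t)),
      (TWLoc.zop (τ i))^[k] ((topJ L' qv).symm x) = 0 ↔ (Lift.zOp (τ i))^[k] x = 0 := by
    intro i x
    rw [lowerBox_topJ_symm_zOp_iterate, AddEquiv.map_eq_zero_iff]
  refine Nat.card_congr ((topJ L' qv).symm.toEquiv.subtypeEquiv fun x => ?_)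
  show x ∈ boxG p k τ (UNew p S θ L' qv a) ↔ _
  rw [mem_boxG, mem_UNew]
  have e1 : (topJ L' qv).symm.toEquiv x = (topJ L' qv).symm x := rfl
  rw [e1, hpk, Xnew, Lift.topJ_symm_mem_newPart_iff]
  simp only [hz]
  constructor
  · rintro ⟨⟨h1, h2, -⟩, h3, h4⟩
    exact ⟨⟨h1, h2⟩, h3, h4⟩
  · rintro ⟨⟨h1, h2⟩, h3, h4⟩
    refine ⟨⟨h1, h2, ?_⟩, h3, h4⟩
    obtain ⟨c, rfl⟩ := Nat.exists_eq_add_of_le hk
    rw [pow_add, mul_comm, mul_smul, h3, smul_zero]

variable [Fact p.Prime] {T : Finset ℕ} {rbar0 : GQ →* M₂ (ZMod p)} {n : ℕ} {τ : Fin t → GQ}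

/-- **COGEN** of the lower block. -/
theorem card_boxG_one_le (EC : MCtx p T θ rbar0) (TC : MTW0 p T θ L' t n qv)
    {A : Fin t → ValuationSubring Qbar}
    (hA : ∀ i, (A i).LiesOverPrime ((qv i : Nat.Primes) : ℕ))
    (hτ : ∀ i, τ i ∈ (A i).inertiaSubgroupIn ℚ)
    (hC : IsCube p (↑(cutS T qv) : Set ℕ) θ L' qv τ) (ha : 1 ≤ a) :
    Nat.card ↥(boxG p 1 τ (UNew p (↑(cutS T qv) : Set ℕ) θ L' qv a)) ≤
      p ^ (2 ^ t * Module.finrank (ZMod p) ↥(WS L' p (↑(cutS T qv) : Set ℕ) θ)) := by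
  rw [card_boxG_UNew τ ha]
  have hrb : ∀ i, rbar0 (τ i) = 1 := fun i =>
    EC.unramT _ (qv i).2 (TC.notT i) (A i) (hA i) (τ i) (hτ i)
  refine le_trans (le_of_eq (Nat.card_congr (Equiv.subtypeEquivRight fun x => ?_)))
    (Lift.Base.cogen0 hC EC TC hrb)
  rw [pow_one]
  rfl

/-- **BOX** of the lower block. -/
theorem le_card_boxG (EC : MCtx p T θ rbar0) (TC : MTW0 p T θ L' t n qv)
    {A : Fin t → ValuationSubring Qbar}
    (hA : ∀ i, (A i).LiesOverPrime ((qv i : Nat.Primes) : ℕ))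
    (hτ : ∀ i, τ i ∈ (A i).inertiaSubgroupIn ℚ)
    (hC : IsCube p (↑(cutS T qv) : Set ℕ) θ L' qv τ) (ha : 1 ≤ a) (h2a : 2 * a ≤ n + 1) :
    p ^ (2 ^ t * Module.finrank (ZMod p) ↥(WS L' p (↑(cutS T qv) : Set ℕ) θ) * a ^ (t + 1)) ≤
      Nat.card ↥(boxG p a τ (UNew p (↑(cutS T qv) : Set ℕ) θ L' qv a)) := by
  rw [card_boxG_UNew τ le_rfl]
  exact Lift.Base.box0 EC TC hA hτ hC ha h2a

end Fermat.Agent.ML.At2
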