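import Fermat.Agent.ML.At2.Ctrl.Cube
import Fermat.Agent.ML.TWFree.Top

/-!
# ML / AT-2 / N2 / Num : COGEN and BOX for ANY cube of sub-families of the `θ`-parts, at NON-RIGID base levels

* `twfree_cube` : `Θ Q ≤ thetaPart (lev L qv Q)` a family stable under the natural operators, with `Θ ∅` `p`-divisible, forming a `Cube`;
  `MTW0` (no rigidity), `t = 0` allowed.  Then, with `#Θ ∅[p] = p^e`, `D = 2^t e`, `X = newPart Θ (PiQ L qv) univ univ`:
  COGEN `#X[p, z] ≤ p^D` and BOX `p^(D a^(t+1)) ≤ #X[p^a, z^a]`.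
* `twfree_of0` : `Θ = thetaPart` (`= twfree_of` with `MTW0`);
* `twfreeK_of` : `Θ = kerSub thetaPart (dnQ qv hL)`, the `q`-new parts (`q ∤ L`, `L' = L q`).
-/

set_option autoImplicit false
set_option linter.unusedSectionVars false

noncomputable section

open AlgebraicCurve ModularCurve

namespace Fermat.Agent.ML.At2

open Fermat.Agent.RIB Fermat.Agent.GAL Fermat.Agent.GAL.PC Fermat.Agent.ML.TWFree
open Fermat.Agent.RIB.Grow Fermat.Agent.RIB.Grow.Hyp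

local notation "Qbar" => AlgebraicClosure ℚ
local notation "GQ" => (AlgebraicClosure ℚ ≃ₐ[ℚ] AlgebraicClosure ℚ)
local notation "M₂" => Matrix (Fin 2) (Fin 2)

/-- the cardinality of a finite group killed by `p`. -/
theorem exists_card_eq_pow {X : Type*} [AddCommGroup X] [Finite X] (p : ℕ) [Fact p.Prime]
    (h : ∀ x : X, p • x = 0) : ∃ e : ℕ, Nat.card X = p ^ e := by
  let _ : Module (ZMod p) X := AddCommGroup.zmodModule h
  exact ⟨Module.finrank (ZMod p) X, by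
    rw [Module.natCard_eq_pow_finrank (K := ZMod p), Nat.card_zmod]⟩

variable {p : ℕ} [Fact p.Prime] {T : Finset ℕ} {θ : ℕ → ℤ} {rbar0 : GQ →* M₂ (ZMod p)}
  {L t n : ℕ} [NeZero L] {qv : Fin t → Nat.Primes} {τ : Fin t → GQ}

section General

variable (Θ : ∀ Q : Finset (Fin t), AddSubgroup (JZero (lev L qv Q)))

theorem smul_mem_newPart_of_nat
    (hnat : ∀ a : OpFam, IsNat a → ∀ Q, ∀ x ∈ Θ Q, a (lev L qv Q) x ∈ Θ Q)
    (R Q : Finset (Fin t)) (σ : GQ) {x : JZero (lev L qv Q)}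
    (hx : x ∈ newPart Θ (PiQ L qv) R Q) : σ • x ∈ newPart Θ (PiQ L qv) R Q := by
  rw [mem_newPart] at hx ⊢
  exact ⟨hnat (opG σ) (isNat_opG σ) Q x hx.1, fun l hl hlQ i => by
    rw [PiQ_smul, hx.2 l hl hlQ i]; exact gal_zero _ σ⟩

/-- the multi-new part of a cube with divisible base is divisible. -/
theorem newPart_div_of (hdiv : ∀ x ∈ Θ ∅, ∃ y ∈ Θ ∅, p • y = x)
    (hK : Cube p (Finset.univ : Finset (Fin t)) (fun i => ((qv i : Nat.Primes) : ℕ)) (nuP p qv)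
      (fun Q => JZero (lev L qv Q)) Θ (TQ L qv) (ioQ L qv) (PiQ L qv) (tauQ L qv τ))
    (R : Finset (Fin t)) (x : JZero (lev L qv R)) (hx : x ∈ newPart Θ (PiQ L qv) R R) :
    ∃ y ∈ newPart Θ (PiQ L qv) R R, p • y = x := by
  rcases R.eq_empty_or_nonempty with rfl | hne
  · rw [newPart_empty] at hx ⊢
    exact hdiv x hx
  · exact Cube.new_div hK R (Finset.subset_univ R) hne x hx

/-- **COGEN + BOX** for a cube of sub-families of the `θ`-parts. -/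
theorem twfree_cube (EC : MCtx p T θ rbar0) (TC : MTW0 p T θ L t n qv)
    {A : Fin t → ValuationSubring Qbar} (hA : ∀ i, (A i).LiesOverPrime ((qv i : Nat.Primes) : ℕ))
    (hτ : ∀ i, τ i ∈ (A i).inertiaSubgroupIn ℚ)
    (hle : ∀ Q, Θ Q ≤ thetaPart (lev L qv Q) p (↑(cutS T qv) : Set ℕ) θ)
    (hnat : ∀ a : OpFam, IsNat a → ∀ Q, ∀ x ∈ Θ Q, a (lev L qv Q) x ∈ Θ Q)
    (hdiv : ∀ x ∈ Θ ∅, ∃ y ∈ Θ ∅, p • y = x)
    (hK : Cube p (Finset.univ : Finset (Fin t)) (fun i => ((qv i : Nat.Primes) : ℕ)) (nuP p qv)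
      (fun Q => JZero (lev L qv Q)) Θ (TQ L qv) (ioQ L qv) (PiQ L qv) (tauQ L qv τ)) :
    ∃ e : ℕ, Nat.card ↥(Θ ∅ ⊓ tors (JZero (lev L qv ∅)) p) = p ^ e ∧
      Nat.card {x : JZero (lev L qv Finset.univ) //
        x ∈ newPart Θ (PiQ L qv) Finset.univ Finset.univ ∧ p • x = 0 ∧
          ∀ i, TWLoc.zop (τ i) x = 0} ≤ p ^ (2 ^ t * e) ∧
      ∀ a : ℕ, 1 ≤ a → 2 * a ≤ n + 1 →
        p ^ (2 ^ t * e * a ^ (t + 1)) ≤
          Nat.card {x : JZero (lev L qv Finset.univ) //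
            x ∈ newPart Θ (PiQ L qv) Finset.univ Finset.univ ∧ p ^ a • x = 0 ∧
              ∀ i, (TWLoc.zop (τ i))^[a] x = 0} := by
  have hp : p.Prime := Fact.out
  have hlp : ∀ i, ((qv i : Nat.Primes) : ℕ) ≠ p := fun i h => TC.notT i (h ▸ EC.p_mem)
  have hrb : ∀ i, rbar0 (τ i) = 1 := fun i =>
    EC.unramT _ (qv i).2 (TC.notT i) (A i) (hA i) (τ i) (hτ i)
  have hfin0 : Finite ↥(Θ ∅ ⊓ tors (JZero (lev L qv ∅)) p) :=
    ((finite_torsion_JZero (lev L qv ∅) p hp.ne_zero).subset fun x hx => hx.2).to_subtype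
  obtain ⟨e, he⟩ := exists_card_eq_pow (X := ↥(Θ ∅ ⊓ tors (JZero (lev L qv ∅)) p)) p
    (fun x => Subtype.ext x.2.2)
  have hle0 : Θ ∅ ⊓ kill (ccZ p τ) (lev L qv ∅) ≤ Θ ∅ ⊓ tors (JZero (lev L qv ∅)) p :=
    fun x hx => ⟨hx.1, (mem_kill_ccZ.1 hx.2).1⟩
  have hfin : Finite ↥(Θ ∅ ⊓ kill (ccZ p τ) (lev L qv ∅)) :=
    Finite.of_injective (AddSubgroup.inclusion hle0) (AddSubgroup.inclusion_injective hle0)
  -- COGEN
  have h1 := (Cube.cogen hK (fun Q => kill (ccZ p τ) (lev L qv Q))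
    (fun Q i _ _ x hx => by
      obtain ⟨h1, h2⟩ := mem_kill_ccZ.1 hx.2
      refine mem_kill_ccZ.2 ⟨?_, fun j => ?_⟩
      · have h3 := map_nsmul (DistribSMul.toAddMonoidHom (JZero (lev L qv Q)) (τ i)) p x
        rw [h1, map_zero] at h3
        exact h3.symm
      · have := Low.zop_central EC (cutS T qv) (subset_cutS T qv) (lev L qv Q)
          (fun r hr hd => TC.mem_cutS_lev Q hr hd) (hrb j) (τ i) x ⟨hle Q hx.1, h1⟩
        rw [TWLoc.zop_apply, TWLoc.zop_apply, h2 j] at this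
        show τ j • (τ i • x) + (τ j)⁻¹ • (τ i • x) - 2 • (τ i • x) = 0
        rw [this]
        exact gal_zero _ _)
    (fun Q l _ _ x hx => by
      have h0 := (mem_kill_ccZ.1 hx.2).2 l
      have h2 : τ l • (τ l • x + (τ l)⁻¹ • x - 2 • x) = 0 := by rw [h0]; exact gal_zero _ _
      rw [smul_sub, smul_add, smul_inv_smul] at h2
      show τ l • τ l • x + x = 2 • τ l • x
      have h3 : τ l • (2 • x) = 2 • τ l • x := by rw [two_nsmul, two_nsmul, smul_add]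
      rw [h3] at h2
      exact sub_eq_zero.1 h2)
    (fun Q Q' l hQ' hl e v hv hxv => by
      rw [mem_kill] at hxv ⊢
      intro a ha
      have hF := hK.edge Q Q' l hQ' hl e
      refine hF.xv_inj _ (hnat a (isNat_ccZ a ha) Q v hv) ?_
      rw [(isNat_ccZ a ha) _ _ (xv (TQ L qv Q l) (ioQ L qv Q Q' l)) (xvQ_smul Q Q' l)]
      exact hxv a ha)
    hfin Finset.univ (Finset.subset_univ _)).2
  have hcog : Nat.card {x : JZero (lev L qv Finset.univ) //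
      x ∈ newPart Θ (PiQ L qv) Finset.univ Finset.univ ∧ p • x = 0 ∧
        ∀ i, TWLoc.zop (τ i) x = 0} ≤ p ^ (2 ^ t * e) := by
    have h2 : Nat.card ↥(Θ ∅ ⊓ kill (ccZ p τ) (lev L qv ∅)) ≤ p ^ e :=
      he ▸ Nat.card_le_card_of_injective _ (AddSubgroup.inclusion_injective hle0)
    have h3 := h1.trans (Nat.pow_le_pow_left h2 _)
    rw [← pow_mul, Finset.card_univ, Fintype.card_fin, mul_comm] at h3
    refine le_trans (le_of_eq (Nat.card_congr (Equiv.subtypeEquivRight fun x => ?_))) h3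
    rw [AddSubgroup.mem_inf, mem_kill_ccZ]
    rfl
  refine ⟨e, he, hcog, fun a ha h2a => ?_⟩
  refine box_of_sub EC (cutS T qv) (subset_cutS T qv) (lev L qv Finset.univ)
    (fun r hr hd => TC.mem_cutS_lev Finset.univ hr hd) τ
    (fun i j ζ hζ => inertia_fix_roots (qv i).2 (hlp i) (hA i) (hτ i) j ζ hζ)
    (newPart Θ (PiQ L qv) Finset.univ Finset.univ)
    (fun σ x hx => smul_mem_newPart_of_nat Θ hnat _ _ σ hx) ha
    (nuP p qv) (fun i => h2a.trans (TC.le_nuP i))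
    (fun i x hx => by
      have := Cube.norm_zero hK Finset.univ (Finset.subset_univ _) i (Finset.mem_univ i) x hx
      simpa only [tauQ_iterate] using this) hcog ?_
  -- SIZE
  have hs : Nat.card ↥(Θ ∅ ⊓ tors (JZero (lev L qv ∅)) p) ^
      (a * ∏ i ∈ (Finset.univ : Finset (Fin t)), (p ^ nuP p qv i - 1)) ≤
      Nat.card ↥(newPart Θ (PiQ L qv) Finset.univ Finset.univ ⊓
        tors (JZero (lev L qv Finset.univ)) (p ^ a)) := by
    rw [card_tors_pow _ p (newPart_div_of Θ hdiv hK Finset.univ) a, mul_comm, pow_mul]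
    exact Nat.pow_le_pow_left (Cube.size hK Finset.univ (Finset.subset_univ _)) a
  rw [he, ← pow_mul] at hs
  have hodd : ∀ i : Fin t, 2 * ((p ^ nuP p qv i - 1) / 2) = p ^ nuP p qv i - 1 := by
    intro i
    have h1 : Odd p := hp.odd_of_ne_two EC.hp2
    have h2 : Odd (p ^ nuP p qv i) := h1.pow
    obtain ⟨k, hk⟩ := h2
    rw [hk]
    omega
  have e' : ∏ i : Fin t, (p ^ nuP p qv i - 1) = 2 ^ t * ∏ i : Fin t, (p ^ nuP p qv i - 1) / 2 := by
    rw [← Finset.prod_congr rfl (fun i _ => hodd i), Finset.prod_mul_distrib, Finset.prod_const,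
      Finset.card_univ, Fintype.card_fin]
  rw [e'] at hs
  refine le_trans (le_of_eq ?_) (hs.trans (le_of_eq (Nat.card_congr
    (Equiv.subtypeEquivRight fun x => ?_))))
  · congr 1
    ring
  · rw [AddSubgroup.mem_inf]
    rfl

end General

/-- **TWFREE at a non-rigid base level** (`= twfree_of` with `MTW0`). -/
theorem twfree_of0 (EC : MCtx p T θ rbar0) (TC : MTW0 p T θ L t n qv)
    {A : Fin t → ValuationSubring Qbar} (hA : ∀ i, (A i).LiesOverPrime ((qv i : Nat.Primes) : ℕ))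
    (hτ : ∀ i, τ i ∈ (A i).inertiaSubgroupIn ℚ)
    (hC : IsCube p (↑(cutS T qv) : Set ℕ) θ L qv τ) :
    ∃ e : ℕ, Nat.card ↥(WS L p (↑(cutS T qv) : Set ℕ) θ) = p ^ e ∧
      Nat.card {x : JZero (lev L qv Finset.univ) //
        x ∈ Xnew p (↑(cutS T qv) : Set ℕ) θ L qv Finset.univ ∧ p • x = 0 ∧
          ∀ i, TWLoc.zop (τ i) x = 0} ≤ p ^ (2 ^ t * e) ∧
      ∀ a : ℕ, 1 ≤ a → 2 * a ≤ n + 1 →
        p ^ (2 ^ t * e * a ^ (t + 1)) ≤
          Nat.card {x : JZero (lev L qv Finset.univ) //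
            x ∈ Xnew p (↑(cutS T qv) : Set ℕ) θ L qv Finset.univ ∧ p ^ a • x = 0 ∧
              ∀ i, (TWLoc.zop (τ i))^[a] x = 0} := by
  obtain ⟨e, he, h1, h2⟩ := twfree_cube
    (fun Q => thetaPart (lev L qv Q) p (↑(cutS T qv) : Set ℕ) θ) EC TC hA hτ (fun _ => le_rfl)
    (fun a ha _ _ hx => ha.mem_thetaPart hx)
    (fun x hx => thetaPart_divisible (lev L qv ∅) (Fact.out : p.Prime).pos _ θ x hx) hC
  refine ⟨e, ?_, h1, h2⟩
  rw [← he]
  exact (card_cast (fun N _ => thetaPart N p (↑(cutS T qv) : Set ℕ) θ ⊓ tors (JZero N) p)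
    (lev_empty L qv)).symm

section K

variable {L' q : ℕ} [NeZero L'] [NeZero q]

/-- the `q`-new part of the `θ`-part is `p`-divisible. -/
theorem kerSub_div {N Nq : ℕ} [NeZero N] [NeZero Nq] {S : Set ℕ} (h : Nq = N * q) (hq : q.Prime)
    (hqN : ¬ q ∣ N) (hAP : NonEisAP p S θ) (hqS : q ∈ S)
    (hS : ∀ r : ℕ, r.Prime → r ∉ S → ¬ r ∣ Nq * p) (x : JZero Nq)
    (hx : x ∈ kerSub (thetaPart Nq p S θ) (dnE h)) :
    ∃ y ∈ kerSub (thetaPart Nq p S θ) (dnE h), p • y = x := by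
  have hp : p.Prime := Fact.out
  rw [mem_kerSub] at hx
  obtain ⟨y₀, hy₀, e₀⟩ := thetaPart_divisible Nq hp.pos S θ x hx.1
  obtain ⟨x₁, hx₁, hpx₁, e₁⟩ := KC.dnE_onto h hp hq hqN hAP hqS hS 1 (fun k => dnE h k y₀)
    (fun k => dnE_mem_thetaPart h hS k hy₀)
    (fun k => by rw [pow_one, ← map_nsmul, e₀, hx.2 k])
  refine ⟨y₀ - x₁, mem_kerSub.2 ⟨AddSubgroup.sub_mem _ hy₀ hx₁, fun k => ?_⟩, ?_⟩
  · rw [map_sub, e₁ k, sub_self]
  · rw [pow_one] at hpx₁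
    rw [nsmul_sub, e₀, hpx₁, sub_zero]

/-- **TWFREE for the `q`-new parts** (`q ∤ L`, `L' = L q`; no rigidity; `t = 0` allowed). -/
theorem twfreeK_of (EC : MCtx p T θ rbar0) (TC : MTW0 p T θ L' t n qv) (hq : q.Prime)
    (hL : L' = L * q) (hqL : ¬ q ∣ L)
    {A : Fin t → ValuationSubring Qbar} (hA : ∀ i, (A i).LiesOverPrime ((qv i : Nat.Primes) : ℕ))
    (hτ : ∀ i, τ i ∈ (A i).inertiaSubgroupIn ℚ)
    (C' : IsCube p (↑(cutS T qv) : Set ℕ) θ L' qv τ)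
    (C : IsCube p (↑(cutS T qv) : Set ℕ) θ L qv τ) :
    ∃ e : ℕ,
      Nat.card ↥(kerSub (thetaPart (lev L' qv ∅) p (↑(cutS T qv) : Set ℕ) θ) (dnQ qv hL ∅) ⊓
        tors (JZero (lev L' qv ∅)) p) = p ^ e ∧
      Nat.card {x : JZero (lev L' qv Finset.univ) //
        x ∈ newPart (fun Q => kerSub (thetaPart (lev L' qv Q) p (↑(cutS T qv) : Set ℕ) θ)
          (dnQ qv hL Q)) (PiQ L' qv) Finset.univ Finset.univ ∧ p • x = 0 ∧
          ∀ i, TWLoc.zop (τ i) x = 0} ≤ p ^ (2 ^ t * e) ∧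
      ∀ a : ℕ, 1 ≤ a → 2 * a ≤ n + 1 →
        p ^ (2 ^ t * e * a ^ (t + 1)) ≤
          Nat.card {x : JZero (lev L' qv Finset.univ) //
            x ∈ newPart (fun Q => kerSub (thetaPart (lev L' qv Q) p (↑(cutS T qv) : Set ℕ) θ)
              (dnQ qv hL Q)) (PiQ L' qv) Finset.univ Finset.univ ∧ p ^ a • x = 0 ∧
              ∀ i, (TWLoc.zop (τ i))^[a] x = 0} := by
  have hp : p.Prime := Fact.out
  have hqS : q ∈ (↑(cutS T qv) : Set ℕ) := Finset.mem_coe.2 (subset_cutS T qv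
    (TC.lev q hq ((hL ▸ Dvd.intro_left L rfl : q ∣ L').mul_right p)))
  have hne : ∀ i : Fin t, q ≠ ((qv i : Nat.Primes) : ℕ) := by
    subst hL
    exact ne_qv_of_mtw0 TC hq
  have hqN : ∀ Q : Finset (Fin t), ¬ q ∣ lev L qv Q := by
    subst hL
    exact not_dvd_lev_of TC hq hqL
  refine twfree_cube (fun Q => kerSub (thetaPart (lev L' qv Q) p (↑(cutS T qv) : Set ℕ) θ)
    (dnQ qv hL Q)) EC TC hA hτ (fun Q x hx => (mem_kerSub.1 hx).1)
    (fun a ha Q x hx => ?_) (fun x hx => ?_)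
    (cubeK_of_isCube hp hq hL hqN hne (EC.nonEis (cutS T qv)) hqS (hS_lev_of_mtw0 TC)
      (fun _ _ hl => TC.not_dvd_lev_mul hl) C' C)
  · rw [mem_kerSub] at hx ⊢
    exact ⟨ha.mem_thetaPart hx.1, fun k => by
      rw [ha _ _ (dnQ qv hL Q k) (fun σ y => dnQ_smul hL Q k σ y), hx.2 k, map_zero]⟩
  · exact kerSub_div (lev_mul qv hL ∅) hq (hqN ∅) (EC.nonEis (cutS T qv)) hqS
      (hS_lev_of_mtw0 TC ∅) x hx

end K

end Fermat.Agent.ML.At2
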