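import Fermat.Agent.ML.At2.N2.Num
import Fermat.Agent.ML.Lift.Inst.New
import Fermat.Agent.ML.Lift.Trace
import Fermat.Agent.ML.Low.Blocks

/-!
# ML / AT-2 / N2 / NumLvl : the numerics of `raise_step_abs` (`hcogen`, `hcogen'`, `hsize'`) in `boxG` form, at the levels `lvl`

Definition-agnostic : the subgroups `U`, `U'` are ANY subgroups with the given membership.  No rigidity (`MTW0`), any prime `q ∤ L`, all `t`.

* `numLvl_card_boxG_map` : the box of an injective equivariant image;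
* `num_lvl`  : lower block : `U = {x ∈ thetaPart N | p^a x = 0, new at all qv i}`, `N = lvl L (extP qv) t`, `#W(L) = p^e`, `d = 2^t e`:
  `#boxG p 1 τ U ≤ p^d`, `p^(d a^(t+1)) ≤ #boxG p a τ U`;
* `numK_lvl` : upper block : `U' = {x ∈ thetaPart N' | p^a x = 0, dnE h c x = 0, new at all qv i}`, `N' = lvl L' (extP qv) t = N * q`:
  `∃ D` (independent of `a`), `#boxG p 1 τ U' ≤ p^D`, `p^(D a^(t+1)) ≤ #boxG p a τ U'`.
-/

set_option autoImplicit false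
set_option linter.unusedSectionVars false

noncomputable section

open AlgebraicCurve ModularCurve

namespace Fermat.Agent.ML.At2

open Fermat.Agent.RIB Fermat.Agent.GAL Fermat.Agent.GAL.PC Fermat.Agent.ML.TWFree
open Fermat.Agent.ML.Lift

local notation "Qbar" => AlgebraicClosure ℚ
local notation "GQ" => (AlgebraicClosure ℚ ≃ₐ[ℚ] AlgebraicClosure ℚ)
local notation "M₂" => Matrix (Fin 2) (Fin 2)

section Abs

variable {Γ : Type*} [Group Γ] {M J : Type*} [AddCommGroup M] [DistribMulAction Γ M]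
  [AddCommGroup J] [DistribMulAction Γ J]

/-- the box of an injective equivariant image. -/
theorem numLvl_card_boxG_map (f : M →+ J) (hf : ∀ (g : Γ) v, f (g • v) = g • f v) (U : AddSubgroup M)
    (hU : ∀ (g : Γ), ∀ v ∈ U, g • v ∈ U) (hinj : ∀ v ∈ U, f v = 0 → v = 0) (p a : ℕ) {t : ℕ}
    (τ : Fin t → Γ) : Nat.card ↥(boxG p a τ (U.map f)) = Nat.card ↥(boxG p a τ U) := by
  symm
  refine Nat.card_congr (Equiv.ofBijective
    (fun v : boxG p a τ U => (⟨f v.1, ⟨⟨v.1, v.2.1, rfl⟩, by rw [← map_nsmul, v.2.2.1, map_zero],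
      fun i => by rw [← map_zOp_iterate f hf, v.2.2.2 i, map_zero]⟩⟩ : boxG p a τ (U.map f)))
    ⟨?_, ?_⟩)
  · intro v w hvw
    have h1 : f v.1 = f w.1 := congrArg Subtype.val hvw
    exact Subtype.ext (sub_eq_zero.1 (hinj _ (U.sub_mem v.2.1 w.2.1)
      (by rw [map_sub, h1, sub_self])))
  · rintro ⟨x, ⟨v, hv, rfl⟩, h2, h3⟩
    refine ⟨⟨v, hv, hinj _ (U.nsmul_mem hv _) (by rw [map_nsmul]; exact h2), fun i => ?_⟩, rfl⟩
    exact hinj _ (zOp_iterate_mem U hU _ _ hv) (by rw [map_zOp_iterate f hf]; exact h3 i)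

end Abs

variable {p : ℕ} [Fact p.Prime] {T : Finset ℕ} {θ : ℕ → ℤ} {rbar0 : GQ →* M₂ (ZMod p)}
  {L t n : ℕ} [NeZero L] {qv : Fin t → Nat.Primes} {τ : Fin t → GQ}

theorem topJ_symm_zOp_iterate (g : GQ) (k : ℕ) (x : JZero (lvl L (extP qv) t)) :
    (TWLoc.zop g)^[k] ((topJ L qv).symm x) = (topJ L qv).symm ((Lift.zOp g)^[k] x) :=
  (map_zOp_iterate (topJ L qv).symm.toAddMonoidHom (fun σ y => topJ_symm_smul σ y) g k x).symm

/-- the dictionary for the boxes : `b ≤ a`. -/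
theorem mem_boxG_iff_topJ (X : AddSubgroup (JZero (lev L qv Finset.univ)))
    (U : AddSubgroup (JZero (lvl L (extP qv) t))) {a b : ℕ} (hb : b ≤ a)
    (hU : ∀ x, x ∈ U ↔ (topJ L qv).symm x ∈ X ∧ p ^ a • x = 0) (x : JZero (lvl L (extP qv) t)) :
    x ∈ boxG p b τ U ↔ (topJ L qv).symm x ∈ X ∧ p ^ b • (topJ L qv).symm x = 0 ∧
      ∀ i, (TWLoc.zop (τ i))^[b] ((topJ L qv).symm x) = 0 := by
  have e1 : ∀ m : ℕ, m • (topJ L qv).symm x = 0 ↔ m • x = 0 := fun m => by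
    rw [← map_nsmul]
    exact map_eq_zero_iff _ (topJ L qv).symm.injective
  have e2 : ∀ i, (TWLoc.zop (τ i))^[b] ((topJ L qv).symm x) = 0 ↔ (Lift.zOp (τ i))^[b] x = 0 :=
    fun i => by
      rw [topJ_symm_zOp_iterate]
      exact map_eq_zero_iff _ (topJ L qv).symm.injective
  rw [mem_boxG, hU, e1]
  simp only [e2]
  constructor
  · rintro ⟨⟨h1, -⟩, h2, h3⟩
    exact ⟨h1, h2, h3⟩
  · rintro ⟨h1, h2, h3⟩
    refine ⟨⟨h1, ?_⟩, h2, h3⟩
    obtain ⟨c, rfl⟩ := Nat.exists_eq_add_of_le hb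
    rw [pow_add, mul_comm, mul_smul, h2, smul_zero]

theorem card_boxG_eq_topJ (X : AddSubgroup (JZero (lev L qv Finset.univ)))
    (U : AddSubgroup (JZero (lvl L (extP qv) t))) {a b : ℕ} (hb : b ≤ a)
    (hU : ∀ x, x ∈ U ↔ (topJ L qv).symm x ∈ X ∧ p ^ a • x = 0) :
    Nat.card ↥(boxG p b τ U) = Nat.card {x : JZero (lev L qv Finset.univ) //
      x ∈ X ∧ p ^ b • x = 0 ∧ ∀ i, (TWLoc.zop (τ i))^[b] x = 0} :=
  Nat.card_congr (Equiv.subtypeEquiv (topJ L qv).symm.toEquiv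
    (fun x => mem_boxG_iff_topJ X U hb hU x))

/-- from (COGEN, BOX) at the top vertex of a cube to the `boxG` form at the top of the tower. -/
theorem boxG_of_top (X : AddSubgroup (JZero (lev L qv Finset.univ))) {D a : ℕ} (ha : 1 ≤ a)
    (hcog : Nat.card {x : JZero (lev L qv Finset.univ) //
      x ∈ X ∧ p • x = 0 ∧ ∀ i, TWLoc.zop (τ i) x = 0} ≤ p ^ D)
    (hbox : p ^ (D * a ^ (t + 1)) ≤ Nat.card {x : JZero (lev L qv Finset.univ) //
      x ∈ X ∧ p ^ a • x = 0 ∧ ∀ i, (TWLoc.zop (τ i))^[a] x = 0})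
    (U : AddSubgroup (JZero (lvl L (extP qv) t)))
    (hU : ∀ x, x ∈ U ↔ (topJ L qv).symm x ∈ X ∧ p ^ a • x = 0) :
    Nat.card ↥(boxG p 1 τ U) ≤ p ^ D ∧ p ^ (D * a ^ (t + 1)) ≤ Nat.card ↥(boxG p a τ U) := by
  constructor
  · rw [card_boxG_eq_topJ X U ha hU]
    simpa only [pow_one, Function.iterate_one] using hcog
  · rw [card_boxG_eq_topJ X U le_rfl hU]
    exact hbox

/-- **the lower block** of `raise_step_abs`. -/
theorem num_lvl (EC : MCtx p T θ rbar0) (TC : MTW0 p T θ L t n qv)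
    {A : Fin t → ValuationSubring Qbar} (hA : ∀ i, (A i).LiesOverPrime ((qv i : Nat.Primes) : ℕ))
    (hτ : ∀ i, τ i ∈ (A i).inertiaSubgroupIn ℚ)
    (hC : IsCube p (↑(cutS T qv) : Set ℕ) θ L qv τ)
    {e : ℕ} (he : Nat.card ↥(WS L p (↑T : Set ℕ) θ) = p ^ e)
    {N : ℕ} [NeZero N] (eN : N = lvl L (extP qv) t) {a : ℕ} (ha : 1 ≤ a) (h2a : 2 * a ≤ n + 1)
    (U : AddSubgroup (JZero N))
    (hU : ∀ x, x ∈ U ↔ x ∈ thetaPart N p (↑(cutS T qv) : Set ℕ) θ ∧ p ^ a • x = 0 ∧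
      ∀ i, Tower.IsNewAt N ((qv i : Nat.Primes) : ℕ) x) :
    Nat.card ↥(boxG p 1 τ U) ≤ p ^ (2 ^ t * e) ∧
      p ^ (2 ^ t * e * a ^ (t + 1)) ≤ Nat.card ↥(boxG p a τ U) := by
  subst eN
  obtain ⟨e', he', h1, h2⟩ := twfree_of0 EC TC hA hτ hC
  rw [EC.WS_eq (subset_cutS T qv) TC.lev, he] at he'
  have hee : e = e' := Nat.pow_right_injective (Fact.out : p.Prime).two_le he'
  subst hee
  refine boxG_of_top (Xnew p (↑(cutS T qv) : Set ℕ) θ L qv Finset.univ) ha h1 (h2 a ha h2a) U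
    fun x => ?_
  rw [hU, Xnew, topJ_symm_mem_newPart_iff]
  tauto

section K

variable {L' q : ℕ} [NeZero L'] [NeZero q]

/-- **the upper block** of `raise_step_abs`. -/
theorem numK_lvl (EC : MCtx p T θ rbar0) (TC : MTW0 p T θ L' t n qv) (hq : q.Prime)
    (hL : L' = L * q) (hqL : ¬ q ∣ L)
    {A : Fin t → ValuationSubring Qbar} (hA : ∀ i, (A i).LiesOverPrime ((qv i : Nat.Primes) : ℕ))
    (hτ : ∀ i, τ i ∈ (A i).inertiaSubgroupIn ℚ)
    (C' : IsCube p (↑(cutS T qv) : Set ℕ) θ L' qv τ)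
    (C : IsCube p (↑(cutS T qv) : Set ℕ) θ L qv τ) :
    ∃ D : ℕ, ∀ (N N' : ℕ) [NeZero N] [NeZero N'], N = lvl L (extP qv) t →
      N' = lvl L' (extP qv) t → ∀ (h : N' = N * q) (a : ℕ), 1 ≤ a → 2 * a ≤ n + 1 →
      ∀ U' : AddSubgroup (JZero N'),
        (∀ x, x ∈ U' ↔ x ∈ thetaPart N' p (↑(cutS T qv) : Set ℕ) θ ∧ p ^ a • x = 0 ∧
          (∀ c, dnE h c x = 0) ∧ ∀ i, Tower.IsNewAt N' ((qv i : Nat.Primes) : ℕ) x) →
        Nat.card ↥(boxG p 1 τ U') ≤ p ^ D ∧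
          p ^ (D * a ^ (t + 1)) ≤ Nat.card ↥(boxG p a τ U') := by
  obtain ⟨e, -, h1, h2⟩ := twfreeK_of EC TC hq hL hqL hA hτ C' C
  refine ⟨2 ^ t * e, ?_⟩
  intro N N' _ _ eN eN' h a ha h2a U' hU'
  subst eN eN'
  refine boxG_of_top _ ha h1 (h2 a ha h2a) U' fun x => ?_
  rw [hU', topJ_symm_mem_newPartK_iff hL]
  tauto

end K

end Fermat.Agent.ML.At2
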