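import Fermat.Agent.ML.At2.N2.LowAtp
import Fermat.Agent.ML.Lift.Soft.Defs

/-!
# ML / AT-2 / N2 / Push : the tail of the stage `q = 2` done at the NON-RIGID level `lvl (M * 2)`

`L₀ = M * 2 * 2`.   The output `G'` of `Lift.step_core` at `(N, Nq, q) = (lvl M, lvl (M * 2), 2)` is pushed to `lvl L₀` by `α_2^*` :

* `two_push` : `G' ≤ boxG p a τ (Uup ..)`, Galois stable, `LocSt 2 (eps 2)`, `LocUnip 2`  ⟹  `α_2^* G'` is a cell for `P = {2}` at the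
  level `L₀`, of the same cardinality.
-/

set_option autoImplicit false
set_option linter.unusedSectionVars false

noncomputable section

open AlgebraicCurve ModularCurve

namespace Fermat.Agent.ML.At2

open Fermat.Agent.GAL Fermat.Agent.RIB Fermat.Agent.RIB.Rho Fermat.Agent.ML.ESide Fermat.Agent.ML.Rho
  Fermat.Agent.ML.Lift Fermat.Agent.ML.TWFree

local notation "Qbar" => AlgebraicClosure ℚ
local notation "GQ" => (AlgebraicClosure ℚ ≃ₐ[ℚ] AlgebraicClosure ℚ)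
local notation "M₂" => Matrix (Fin 2) (Fin 2)

variable {W : WeierstrassCurve ℤ} {p : ℕ} [Fact p.Prime] {T : Finset ℕ}
  {b : Module.Basis (Fin 2) (ZMod p) (TorsW W p)} {L₀ : ℕ} [NeZero L₀] {eps : ℕ → ℤ} {eP : GQ → ℤ}
  {t F₀ C₀ a m n K : ℕ} {qv : Fin t → Nat.Primes}

/-- **the tail of the stage `q = 2`** : push to the level of the cells. -/
theorem two_push (hLow : LowerStmt) (X : LCtx W p T b L₀ eps eP) (h2 : 2 ∈ Pfin W (rbarB b) L₀)
    {M : ℕ} [NeZero M] (hM : L₀ = M * 2 * 2)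
    (F : Frm p X.C.hp2 T W.apOfModel (rbarB b) t F₀ C₀ a m n K qv)
    {A : Fin t → ValuationSubring Qbar} {τ : Fin t → GQ} {e : Fin t → ℕ}
    (hA : ∀ i, (A i).LiesOverPrime ((qv i : Nat.Primes) : ℕ))
    (hcyc : ∀ i, CycOn p (↑(cutS T qv) : Set ℕ) W.apOfModel ((A i).inertiaSubgroupIn ℚ) (τ i)
      (p ^ e i) (lvl L₀ (extP qv) t)) (hae : ∀ i, a ≤ e i)
    (G' : AddSubgroup (JZero (lvl (M * 2) (extP qv) t))) (hgal : ∀ g : GQ, ∀ x ∈ G', g • x ∈ G')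
    (hle : G' ≤ boxG p a τ (Uup p (↑(cutS T qv) : Set ℕ) W.apOfModel qv
      (lvl_mul_q (rfl : M * 2 = M * 2) qv) a))
    (hst : LocSt 2 (eps 2) (G' : Set (JZero (lvl (M * 2) (extP qv) t))))
    (hun : LocUnip 2 (G' : Set (JZero (lvl (M * 2) (extP qv) t)))) :
    IsCell p T W.apOfModel (rbarB b) eps eP L₀ qv a {2} (G'.map (upE (lvl_mul_q hM qv) 0)) ∧
      Nat.card ↥(G'.map (upE (lvl_mul_q hM qv) 0)) = Nat.card ↥G' := by
  have hp : p.Prime := Fact.out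
  have hpa0 : p ^ a ≠ 0 := pow_ne_zero _ hp.ne_zero
  have hP : ({2} : Finset ℕ) ⊆ Pfin W (rbarB b) L₀ := Finset.singleton_subset_iff.2 h2
  have hLc : L₀ = cellLevel L₀ {2} := by simp [cellLevel]
  have TC : MTW p T W.apOfModel L₀ t n qv := X.cellMk_mtw F hP hLc
  have h₂ : lvl L₀ (extP qv) t = lvl (M * 2) (extP qv) t * 2 := lvl_mul_q hM qv
  have hS₄ : ∀ r : ℕ, r.Prime → r ∉ (↑(cutS T qv) : Set ℕ) → ¬ r ∣ lvl L₀ (extP qv) t * p :=
    stepMaps_hS X.BP.levT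
  have h2T : 2 ∈ T := X.hbadT 2 Nat.prime_two (X.dvd_of_mem_Pfin h2)
  have hqv2 : ∀ i, ((qv i : Nat.Primes) : ℕ) ≠ 2 := fun i h => TC.notT i (h ▸ h2T)
  have hp2 : p ∉ ({2} : Finset ℕ) := fun h => X.C.hp2 (Finset.mem_singleton.1 h)
  have hcoe : ((G'.map (upE h₂ 0) : AddSubgroup (JZero (lvl L₀ (extP qv) t))) :
      Set (JZero (lvl L₀ (extP qv) t))) = upE h₂ 0 '' (G' : Set _) := rfl
  have hle₄ : G'.map (upE h₂ 0) ≤
      thetaPart (lvl L₀ (extP qv) t) p (↑(cutS T qv) : Set ℕ) W.apOfModel := by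
    rintro _ ⟨x, hx, rfl⟩
    exact upE_mem_thetaPart h₂ hS₄ 0 (hle hx).1.1
  have hgal₄ : ∀ g : GQ, ∀ x ∈ G'.map (upE h₂ 0), g • x ∈ G'.map (upE h₂ 0) := by
    rintro g _ ⟨x, hx, rfl⟩
    exact ⟨g • x, hgal g x hx, upE_smul h₂ 0 g x⟩
  refine ⟨X.isCell_of' hLow F hP hp2 L₀ hLc _ hle₄ hgal₄ ?_ ?_ ?_ ?_ ?_, ?_⟩
  · refine inBox_of_cyc hA hcyc hae _ hle₄ hgal₄ ?_ ?_
    · rintro _ ⟨x, hx, rfl⟩
      rw [← map_nsmul, (hle hx).2.1, map_zero]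
    · rintro i _ ⟨x, hx, rfl⟩
      have h3 := (hle hx).2.2 i
      have h4 := Lift.map_zOp_iterate (upE h₂ 0) (upE_smul h₂ 0) (τ i) a x
      rw [h3, map_zero] at h4
      exact h4.symm
  · rintro _ ⟨x, hx, rfl⟩ i
    exact isNewAt_upE Nat.prime_two (qv i).2 (hqv2 i) h₂ 0 ((hle hx).1.2.2.2 i)
  · intro q hq
    rw [Finset.mem_singleton.1 hq, hcoe]
    exact hst.image _ (upE_smul h₂ 0)
  · exact fun _ h => absurd (Finset.mem_singleton_self 2) h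
  · intro _
    rw [hcoe]
    exact hun.image _ (upE_smul h₂ 0)
  · symm
    refine Nat.card_congr (Equiv.ofBijective
      (fun x : ↥G' => (⟨upE h₂ 0 x.1, ⟨x.1, x.2, rfl⟩⟩ : ↥(G'.map (upE h₂ 0)))) ⟨?_, ?_⟩)
    · intro x y hxy
      have h1 : upE h₂ 0 x.1 = upE h₂ 0 y.1 := congrArg Subtype.val hxy
      have h3 : x.1 - y.1 = 0 := by
        refine upE_eq_zero_of_torsion Nat.prime_two h₂ 0 hpa0 ?_ (by rw [map_sub, h1, sub_self])
        rw [nsmul_sub, (hle x.2).2.1, (hle y.2).2.1, sub_zero]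
      exact Subtype.ext (sub_eq_zero.1 h3)
    · rintro ⟨_, x, hx, rfl⟩
      exact ⟨⟨x, hx⟩, rfl⟩

end Fermat.Agent.ML.At2
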