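import Fermat.Agent.ML.Lift.Base.Pull
import Fermat.Agent.ML.Lift.Base.Maps
import Fermat.Agent.ML.Lift.Base.Loc
import Fermat.Agent.ML.Lift.StepAbs
import Fermat.Agent.ML.Lift.OfRhoK
import Fermat.Agent.ML.Rho.CellTop
import Fermat.Agent.ML.At2.N2.Defs
import Fermat.Agent.ML.At2.N2.Gen
import Fermat.Agent.ML.At2.N2.NumLvl
import Fermat.Agent.ML.At2.N2.LocStInst
import Fermat.Agent.ML.At2.Ctrl.CubeInv
import Fermat.Agent.ML.AtP.MaAtp
import Fermat.Agent.ML.AtP.LocTheta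

/-!
# ML / At2 / N2 / Raise2 : **(C-STEP-2)** `LowerStmt → StepTwoStmt`, the whole assembly in `lvl`-form

`L₀ = 4M`, `N₁ = lvl M`, `N₂ = lvl (2M)`, `N₄ = lvl L₀`.   `raise_step_abs` with

* `U = UL .. N₁ a`, `G = boxG p a τ U` (the WHOLE box at the odd level: the input cell is not used),
* `U' = (UK .. h₁ a).map (upE h₂ 0)`, `uA = upE h₂ 0 ∘ upE h₁ 0`, `uE = upE h₂ 0 ∘ embE h₁ ε`,
* `V = thTors N₄ (p^(K+1))`, `β' = 3 (tr ρ(σ₀) + 3 ε)`, `N = 18 ε`, `f = 2`.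
-/

set_option autoImplicit false
set_option linter.unusedSectionVars false
set_option linter.style.haveILetI false

noncomputable section

open AlgebraicCurve ModularCurve

namespace Fermat.Agent.ML.At2

open Fermat.Agent.RIB Fermat.Agent.RIB.Rho Fermat.Agent.GAL Fermat.Agent.GAL.PC
  Fermat.Agent.ML.TWFree Fermat.Agent.ML.ESide Fermat.Agent.ML.Lift Fermat.Agent.ML.StepGen
  Fermat.Agent.S56 Fermat.Agent.S56.Flat

local notation "Qbar" => AlgebraicClosure ℚ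
local notation "GQ" => (AlgebraicClosure ℚ ≃ₐ[ℚ] AlgebraicClosure ℚ)
local notation "M₂" => Matrix (Fin 2) (Fin 2)

/-! ### generalities -/

/-- the box of a Galois stable subgroup of `p^a`-torsion classes is Galois stable. -/
theorem raise2_smul_mem_boxG {p : ℕ} [Fact p.Prime] {T : Finset ℕ} {θ : ℕ → ℤ}
    {rbar0 : GQ →* M₂ (ZMod p)} (EC : MCtx p T θ rbar0) {t : ℕ} {qv : Fin t → Nat.Primes}
    (hqvp : ∀ i, ((qv i : Nat.Primes) : ℕ) ≠ p) {N : ℕ} [NeZero N]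
    (hN : ∀ r : ℕ, r.Prime → r ∣ N * p → r ∈ cutS T qv)
    {A : Fin t → ValuationSubring Qbar} {τ : Fin t → GQ}
    (hA : ∀ i, (A i).LiesOverPrime ((qv i : Nat.Primes) : ℕ))
    (hτ : ∀ i, τ i ∈ (A i).inertiaSubgroupIn ℚ) {a : ℕ} (U : AddSubgroup (JZero N))
    (hU : ∀ g : GQ, ∀ v ∈ U, g • v ∈ U) (g : GQ) (v : JZero N) (hv : v ∈ boxG p a τ U) :
    g • v ∈ boxG p a τ U := by
  refine ⟨hU g v hv.1, by rw [← gal_nsmul, hv.2.1, gal_zero'], fun i => ?_⟩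
  have h1 := Lift.Base.zop_iterate_smul EC (cutS T qv) (subset_cutS T qv) N hN a
    (fun ζ hζ => inertia_fix_roots (qv i).2 (hqvp i) (hA i) (hτ i) a ζ hζ) g a v hv.2.1
  have h2 : (TWLoc.zop (τ i))^[a] v = 0 := hv.2.2 i
  rw [h2, gal_zero'] at h1
  exact h1

theorem raise2_big {p d f e t a m c : ℕ} (hp : 1 < p)
    (hC : d * f * (e * (t + 1)) ^ t * (a + 1) ^ t < m ^ (t + 1)) (hc : p ^ (m ^ (t + 1)) ≤ c) :
    p ^ (d * f * (e * ((t + 1) * a + 1)) ^ t) < c := by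
  refine lt_of_lt_of_le (Nat.pow_lt_pow_right hp (lt_of_le_of_lt ?_ hC)) hc
  rw [mul_assoc (d * f), ← mul_pow]
  refine Nat.mul_le_mul_left _ (Nat.pow_le_pow_left ?_ t)
  rw [mul_assoc]
  refine Nat.mul_le_mul_left _ ?_
  nlinarith

/-- `χ(τ) = 1` modulo `p^(k+1)` for `τ` in an inertia group at `l ≠ p`. -/
theorem raise2_chiM_inertia {p : ℕ} [Fact p.Prime] (k : ℕ) {l : ℕ} (hl : l.Prime) (hlp : l ≠ p)
    {A : ValuationSubring Qbar} (hA : A.LiesOverPrime l) {σ : GQ}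
    (hσ : σ ∈ A.inertiaSubgroupIn ℚ) : chiM (p ^ (k + 1)) σ = 1 := by
  have hc : Nat.Coprime (p ^ (k + 1)) l :=
    Nat.Coprime.pow_left _ ((Nat.coprime_primes Fact.out hl).2 (Ne.symm hlp))
  rw [chiM_apply, cycloChar_of_mem_inertia' _ hl hc.symm hA hσ, Units.val_one]

/-- `χ(σ₀) = 2` modulo `p^(k+1)` for a Frobenius element at `2`. -/
theorem raise2_chiM_frob {p : ℕ} [Fact p.Prime] (hp2 : p ≠ 2) (k : ℕ)
    {A : ValuationSubring Qbar} (hA : A.LiesOverPrime 2) {σ : GQ}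
    (hσ : A.IsFrobeniusAt σ 2) : ((chiM (p ^ (k + 1)) σ).val : ℤ) = 2 := by
  have hp : p.Prime := Fact.out
  have hc : Nat.Coprime 2 (p ^ (k + 1)) :=
    Nat.Coprime.pow_right _ ((Nat.coprime_primes Nat.prime_two hp).2 (Ne.symm hp2))
  have h1 : chiM (p ^ (k + 1)) σ = ((2 : ℕ) : ZMod (p ^ (k + 1))) :=
    PC.cycloChar_of_isFrobeniusAt' (p ^ (k + 1)) Nat.prime_two hc hA hσ
  have h3 : 2 < p ^ (k + 1) := by
    have h4 : 3 ≤ p := by
      have := hp.two_le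
      omega
    calc 2 < p := h4
      _ = p ^ 1 := (pow_one p).symm
      _ ≤ p ^ (k + 1) := Nat.pow_le_pow_right hp.pos (Nat.succ_le_succ (Nat.zero_le k))
  rw [h1, ZMod.val_natCast_of_lt h3]
  rfl

variable {W : WeierstrassCurve ℤ} {p : ℕ} [Fact p.Prime] {T : Finset ℕ}
  {b : Module.Basis (Fin 2) (ZMod p) (TorsW W p)} {L₀ : ℕ} [NeZero L₀] {eps : ℕ → ℤ} {eP : GQ → ℤ}

set_option maxHeartbeats 4000000 in
/-- **the cell in the state `{2}`.** -/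
theorem two_cell_lvl (hLow : LowerStmt) (X : LCtx W p T b L₀ eps eP)
    (h2 : 2 ∈ Pfin W (rbarB b) L₀) {M : ℕ} [NeZero M] (hL : L₀ = M * 4) (hodd : Odd M)
    {t e e' : ℕ} (he : Nat.card ↥(WS M p (↑T : Set ℕ) W.apOfModel) = p ^ e)
    (he' : p ^ (2 ^ t * e) < 2 ^ e') {a m n K : ℕ} {qv : Fin t → Nat.Primes}
    (hF : Frm p X.C.hp2 T W.apOfModel (rbarB b) t 2 (2 ^ t * e * 2 * (e' * (t + 1)) ^ t)
      a m n K qv)
    (Lc : ℕ) [NeZero Lc] (hLc : Lc = cellLevel L₀ {2}) :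
    ∃ G : AddSubgroup (JZero (lvl Lc (extP qv) t)),
      IsCell p T W.apOfModel (rbarB b) eps eP Lc qv a {2} G ∧ p ^ (m ^ (t + 1)) ≤ Nat.card G := by
  classical
  have hp : p.Prime := Fact.out
  have hP : ({2} : Finset ℕ) ⊆ Pfin W (rbarB b) L₀ := Finset.singleton_subset_iff.2 h2
  have hLcL : Lc = L₀ := by rw [hLc, cellLevel]; simp
  have hLc22 : Lc = M * 2 * 2 := by rw [hLcL, hL]; ring
  have hM2 : ¬ 2 ∣ M := fun h => (Nat.not_even_iff_odd.2 hodd) (even_iff_two_dvd.2 h)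
  have h22 : M * 2 * 2 = L₀ := by rw [hL]; ring
  have hlevLc : ∀ r : ℕ, r.Prime → r ∣ Lc * p → r ∈ T := fun r hr hd =>
    X.BP.levT r hr (hLcL ▸ hd)
  have TC : MTW p T W.apOfModel (M * 2 * 2) t n qv :=
    hF.tw _ (fun r hr hd => X.BP.levT r hr (h22 ▸ hd)) ⟨M, by ring⟩
  have TC2 : MTW0 p T W.apOfModel (M * 2) t n qv := TC.toMTW0.of_dvd (Dvd.intro _ rfl)
  have TC1 : MTW0 p T W.apOfModel M t n qv := TC.toMTW0.of_dvd ⟨2 * 2, by ring⟩
  -- numerics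
  have ha1 : 1 ≤ a := by have := hF.ha; omega
  have hma : m ≤ a := by
    have h1 := hF.ha
    have h2 : m ≤ (t + 1) * m := Nat.le_mul_of_pos_left m (Nat.succ_pos t)
    omega
  have h2a : 2 * a ≤ n + 1 := by have := hF.hn; omega
  have han : a ≤ n := by have := hF.hn; omega
  have haK : a ≤ K + 1 := hF.hK.trans (Nat.le_succ K)
  -- the generators, the cubes
  obtain ⟨A, τ, hA, hτ, hcyc⟩ := exists_tau_gen X.C TC
  have hgen : GenAt p T W.apOfModel (M * 2 * 2) qv A τ := fun i Q => (hcyc i Q).fixed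
  have C2 := isCube_two X.C TC hA hτ hgen
  have C1 := isCube_one' X.C TC hM2 hA hτ hgen
  have e4 : lev (M * 2 * 2) qv Finset.univ = lvl Lc (extP qv) t := by
    rw [hLc22, lvl_eq_lev]
  have hcycT : ∀ i, CycOn p (↑(cutS T qv) : Set ℕ) W.apOfModel ((A i).inertiaSubgroupIn ℚ) (τ i)
      (p ^ (nuP p qv i + 1)) (lvl Lc (extP qv) t) := fun i => (hcyc i Finset.univ).cast e4
  -- levels
  have h₁ : lvl (M * 2) (extP qv) t = lvl M (extP qv) t * 2 := lvl_mul_q rfl qv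
  have h₂ : lvl Lc (extP qv) t = lvl (M * 2) (extP qv) t * 2 := lvl_mul_q hLc22 qv
  have hmem4 : ∀ r : ℕ, r.Prime → r ∣ lvl Lc (extP qv) t * p → r ∈ cutS T qv := by
    intro r hr hd
    rw [← e4] at hd
    exact TC.mem_cutS_lev Finset.univ hr hd
  have hmem2 : ∀ r : ℕ, r.Prime → r ∣ lvl (M * 2) (extP qv) t * p → r ∈ cutS T qv := by
    intro r hr hd
    rw [lvl_eq_lev] at hd
    exact TC2.mem_cutS_lev Finset.univ hr hd
  have hmem1 : ∀ r : ℕ, r.Prime → r ∣ lvl M (extP qv) t * p → r ∈ cutS T qv := by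
    intro r hr hd
    rw [lvl_eq_lev] at hd
    exact TC1.mem_cutS_lev Finset.univ hr hd
  have hS4 : ∀ r : ℕ, r.Prime → r ∉ (↑(cutS T qv) : Set ℕ) → ¬ r ∣ lvl Lc (extP qv) t * p :=
    fun r hr hrS hd => hrS (Finset.mem_coe.2 (hmem4 r hr hd))
  have hS2 : ∀ r : ℕ, r.Prime → r ∉ (↑(cutS T qv) : Set ℕ) →
      ¬ r ∣ lvl (M * 2) (extP qv) t * p :=
    fun r hr hrS hd => hrS (Finset.mem_coe.2 (hmem2 r hr hd))
  have h2T : (2 : ℕ) ∈ T := X.hbadT 2 Nat.prime_two (X.dvd_of_mem_Pfin h2)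
  have hne2 : ∀ i, ((qv i : Nat.Primes) : ℕ) ≠ 2 := fun i h => TC.notT i (h ▸ h2T)
  have hqvp : ∀ i, ((qv i : Nat.Primes) : ℕ) ≠ p := fun i h => TC.notT i (h ▸ X.C.p_mem)
  have h2p : (2 : ℕ) ≠ p := fun h => X.C.hp2 h.symm
  have h2S : (2 : ℕ) ∈ (↑(cutS T qv) : Set ℕ) := Finset.mem_coe.2 (subset_cutS T qv h2T)
  have hAP := X.C.nonEis (cutS T qv)
  have h2N1 : ¬ 2 ∣ lvl M (extP qv) t := by
    intro h
    rcases dvd_lvl_cases t Nat.prime_two h with h | ⟨j, hj⟩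
    · exact hM2 h
    · exact hne2 j hj.symm
  obtain ⟨hε, -⟩ := X.sgn 2 Nat.prime_two h2p (X.dvd_of_mem_Pfin h2)
  have hεε : eps 2 * eps 2 = 1 := by rcases hε with h | h <;> rw [h] <;> norm_num
  have hA2 : (ExtCitation.primeLocalPlace twoPr).LiesOverPrime 2 :=
    liesOverPrime_primeLocalPlace twoPr
  obtain ⟨σ₀, hσ₀⟩ : ∃ σ₀ : GQ, (ExtCitation.primeLocalPlace twoPr).IsFrobeniusAt σ₀ 2 :=
    S54.exists_isFrobeniusAt_of_liesOverPrime Nat.prime_two _ hA2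
  -- the ring
  obtain ⟨B, C, -, R, _, _, _, _, _, πE, ρ, Φ, H⟩ := X.exists_ring_thTors (Lc := Lc) hlevLc qv K
  have hm1 : 1 < p ^ (K + 1) := Nat.one_lt_pow K.succ_ne_zero hp.one_lt
  haveI : Finite ↥(thTors (lvl Lc (extP qv) t) p (p ^ (K + 1)) (↑(cutS T qv) : Set ℕ)
      W.apOfModel) := finite_of_pow_nsmul _ fun x hx => hx.2
  have HT := IsRhoK.traceRing H
  -- torsion
  have hpow : ∀ {N : ℕ} [NeZero N] (x : JZero N), p ^ a • x = 0 → p ^ (K + 1) • x = 0 := by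
    intro N _ x hx
    obtain ⟨c, hc⟩ := Nat.exists_eq_add_of_le haK
    rw [hc, pow_add, mul_comm, mul_smul, hx, smul_zero]
  -- the lower block
  have hUgal : ∀ g : GQ, ∀ v ∈ UL p (↑(cutS T qv) : Set ℕ) W.apOfModel qv (lvl M (extP qv) t) a,
      g • v ∈ UL p (↑(cutS T qv) : Set ℕ) W.apOfModel qv (lvl M (extP qv) t) a :=
    fun g v hv => smul_mem_UL g hv
  have hGgal := raise2_smul_mem_boxG X.C hqvp hmem1 hA hτ (a := a) _ hUgal
  obtain ⟨hcog, hsize⟩ := num_lvl X.C TC1 hA hτ C1 he rfl ha1 h2a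
    (UL p (↑(cutS T qv) : Set ℕ) W.apOfModel qv (lvl M (extP qv) t) a)
    (fun x => by rw [mem_UL]; tauto)
  -- the upper block
  obtain ⟨D, hD⟩ := numK_lvl X.C TC2 Nat.prime_two (rfl : M * 2 = M * 2) hM2 hA hτ C2 C1
  obtain ⟨hcogK, hsizeK⟩ := hD _ _ rfl rfl h₁ a ha1 h2a
    (UK p (↑(cutS T qv) : Set ℕ) W.apOfModel qv h₁ a)
    (fun x => by rw [mem_UK, mem_UL]; tauto)
  have hKgal : ∀ g : GQ, ∀ v ∈ UK p (↑(cutS T qv) : Set ℕ) W.apOfModel qv h₁ a,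
      g • v ∈ UK p (↑(cutS T qv) : Set ℕ) W.apOfModel qv h₁ a := fun g v hv => smul_mem_UK g hv
  have hKinj : ∀ v ∈ UK p (↑(cutS T qv) : Set ℕ) W.apOfModel qv h₁ a, upE h₂ 0 v = 0 → v = 0 :=
    fun v hv h0 => upE_eq_zero_of_torsion Nat.prime_two h₂ 0 (pow_ne_zero a hp.ne_zero)
      (mem_UK.1 hv).1.2.2 h0
  have hcog' := hcogK
  have hsize' := hsizeK
  rw [← card_boxG_map τ _ hKgal (upE h₂ 0) (fun g v => upE_smul h₂ 0 g v) hKinj] at hcog' hsize'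
  -- the maps
  obtain ⟨uA, huA⟩ : ∃ uA : JZero (lvl M (extP qv) t) →+ JZero (lvl Lc (extP qv) t),
      ∀ v, uA v = upE h₂ 0 (upE h₁ 0 v) := ⟨(upE h₂ 0).comp (upE h₁ 0), fun _ => rfl⟩
  obtain ⟨uE, huE⟩ : ∃ uE : JZero (lvl M (extP qv) t) →+ JZero (lvl Lc (extP qv) t),
      ∀ v, uE v = upE h₂ 0 (embE h₁ (eps 2) v) := ⟨(upE h₂ 0).comp (embE h₁ (eps 2)), fun _ => rfl⟩
  have hAeq : ∀ (g : GQ) v, uA (g • v) = g • uA v := fun g v => by
    rw [huA, huA, upE_smul, upE_smul]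
  have hEeq : ∀ (g : GQ) v, uE (g • v) = g • uE v := fun g v => by
    rw [huE, huE, embE_smul, upE_smul]
  have hAV : ∀ v ∈ UL p (↑(cutS T qv) : Set ℕ) W.apOfModel qv (lvl M (extP qv) t) a,
      uA v ∈ thTors (lvl Lc (extP qv) t) p (p ^ (K + 1)) (↑(cutS T qv) : Set ℕ) W.apOfModel := by
    intro v hv
    refine ⟨?_, hpow _ (by rw [← map_nsmul, hv.2.2, map_zero])⟩
    rw [huA]
    exact upE_mem_thetaPart h₂ hS4 0 (upE_mem_thetaPart h₁ hS2 0 hv.1)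
  have hEV : ∀ v ∈ UL p (↑(cutS T qv) : Set ℕ) W.apOfModel qv (lvl M (extP qv) t) a,
      uE v ∈ thTors (lvl Lc (extP qv) t) p (p ^ (K + 1)) (↑(cutS T qv) : Set ℕ) W.apOfModel := by
    intro v hv
    refine ⟨?_, hpow _ (by rw [← map_nsmul, hv.2.2, map_zero])⟩
    rw [huE]
    exact upE_mem_thetaPart h₂ hS4 0 (embE_mem_thetaPart h₁ hS2 (eps 2) hv.1)
  have hAi : ∀ v ∈ UL p (↑(cutS T qv) : Set ℕ) W.apOfModel qv (lvl M (extP qv) t) a,
      uA v = 0 → v = 0 := by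
    intro v hv h0
    rw [huA] at h0
    have h1 := upE_eq_zero_of_torsion Nat.prime_two h₂ 0 (pow_ne_zero a hp.ne_zero)
      (by rw [← map_nsmul, hv.2.2, map_zero]) h0
    exact upE_eq_zero_of_torsion Nat.prime_two h₁ 0 (pow_ne_zero a hp.ne_zero) hv.2.2 h1
  have hEi : ∀ v ∈ UL p (↑(cutS T qv) : Set ℕ) W.apOfModel qv (lvl M (extP qv) t) a,
      uE v = 0 → v = 0 := by
    intro v hv h0
    rw [huE] at h0
    have h1 := upE_eq_zero_of_torsion Nat.prime_two h₂ 0 (pow_ne_zero a hp.ne_zero)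
      (by rw [← map_nsmul, hv.2.2, map_zero]) h0
    exact embE_injOn hp Nat.prime_two h2N1 hAP h2S h₁ (eps 2) hv.1 h1
  -- `G` is big
  have he1 : 1 ≤ 2 ^ t * e := by
    have h1 : e ≠ 0 := by
      rintro rfl
      rw [pow_zero] at he
      have h3 := (X.BP.occ2 M hL).1 (X.not_ram_of_mem_Pfin h2 h2p) (mixed2_of_mem_Pfin X h2)
      exact h3 ((AddSubgroup.eq_bot_iff_card _).2 he)
    exact Nat.one_le_iff_ne_zero.2 (Nat.mul_ne_zero (pow_ne_zero _ two_ne_zero) h1)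
  have hGbig : p ^ (m ^ (t + 1)) ≤ Nat.card ↥(boxG p a τ
      (UL p (↑(cutS T qv) : Set ℕ) W.apOfModel qv (lvl M (extP qv) t) a)) := by
    refine le_trans (Nat.pow_le_pow_right hp.pos ?_) hsize
    calc m ^ (t + 1) ≤ a ^ (t + 1) := Nat.pow_le_pow_left hma _
      _ ≤ 2 ^ t * e * a ^ (t + 1) := Nat.le_mul_of_pos_left _ he1
  set U := UL p (↑(cutS T qv) : Set ℕ) W.apOfModel qv (lvl M (extP qv) t) a with hUdef
  set G := boxG p a τ U with hGdef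
  have hGU : G ≤ boxG p a τ U := le_rfl
  have hGtors : ∀ v ∈ G, ∃ k : ℕ, p ^ k • v = 0 := fun v hv => ⟨a, hv.2.1⟩
  -- the stage module
  set Y : Submodule R ↥(thTors (lvl Lc (extP qv) t) p (p ^ (K + 1)) (↑(cutS T qv) : Set ℕ)
      W.apOfModel) := HT.mapSub G hGgal uA hAeq (fun v hv => hAV v (hGU hv).1) with hY
  have hYG : ∀ (g : GQ), ∀ y ∈ Y, ∀ y' : ↥(thTors (lvl Lc (extP qv) t) p (p ^ (K + 1))
      (↑(cutS T qv) : Set ℕ) W.apOfModel),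
      (y' : JZero (lvl Lc (extP qv) t)) = g • (y : JZero (lvl Lc (extP qv) t)) → y' ∈ Y := by
    rintro g y ⟨v, hv, hx⟩ y' hy'
    exact ⟨g • v, hGgal g v hv, by rw [hAeq, hx, hy']⟩
  have hm0 : 0 < m ^ (t + 1) := lt_of_le_of_lt (Nat.zero_le _) hF.hC
  have hY0 : Y ≠ ⊥ := by
    intro h0
    have h1 : G = ⊥ := by
      rw [eq_bot_iff]
      intro v hv
      have h3 : (⟨uA v, hAV v (hGU hv).1⟩ : ↥(thTors (lvl Lc (extP qv) t) p (p ^ (K + 1))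
          (↑(cutS T qv) : Set ℕ) W.apOfModel)) ∈ Y := ⟨v, hv, rfl⟩
      rw [h0, Submodule.mem_bot] at h3
      exact hAi v (hGU hv).1 (congrArg Subtype.val h3)
    have h3 : Nat.card ↥G = 1 := by
      rw [h1]
      exact Nat.card_eq_one_iff_unique.2 ⟨inferInstance, inferInstance⟩
    rw [h3] at hGbig
    exact absurd hGbig (not_le.2 (Nat.one_lt_pow hm0.ne' hp.one_lt))
  have hYS : ∀ y ∈ Y, ((y : ↥(thTors (lvl Lc (extP qv) t) p (p ^ (K + 1))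
      (↑(cutS T qv) : Set ℕ) W.apOfModel)) : JZero (lvl Lc (extP qv) t)) ∈
      uA '' (G : Set (JZero (lvl M (extP qv) t))) := by
    rintro y ⟨v, hv, hx⟩
    exact ⟨v, hv, hx⟩
  have hYStors : ∀ x ∈ uA '' (G : Set (JZero (lvl M (extP qv) t))), ∃ k : ℕ, p ^ k • x = 0 := by
    rintro _ ⟨v, hv, rfl⟩
    exact ⟨a, by rw [← map_nsmul, hv.2.1, map_zero]⟩
  have hur2 : LocUr 2 (uA '' (G : Set (JZero (lvl M (extP qv) t)))) := by
    refine LocUr.image (locUr_of_not_dvd Nat.prime_two (fun h => ?_) _ hGtors) uA hAeq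
    rcases (Nat.Prime.dvd_mul Nat.prime_two).1 h with h | h
    · exact h2N1 h
    · exact h2p ((Nat.prime_dvd_prime_iff_eq Nat.prime_two hp).1 h)
  have hmin : ∀ v ∈ toP T, v ≠ twoPr → v ≠ ExtCitation.pPrime p →
      LocUr (v : ℕ) (uA '' (G : Set (JZero (lvl M (extP qv) t)))) ∨
        (Ram (rbarB b) (v : ℕ) ∧ LocUnip (v : ℕ) (uA '' (G : Set (JZero (lvl M (extP qv) t))))) := by
    intro v hvT hv2 hvp
    have hvT' : (v : ℕ) ∈ T := mem_toP'.1 hvT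
    have hv2' : (v : ℕ) ≠ 2 := fun h => hv2 (Subtype.ext h)
    have hvp' : (v : ℕ) ≠ p := fun h => hvp (Subtype.ext h)
    by_cases hd : (v : ℕ) ∣ L₀
    · exact Or.inr ⟨X.BP.ram v v.2 hd hv2' hvp',
        X.cell_unip_of_mem hP hLc TC.notT _ hYStors v.2 hvT' hvp' hv2'⟩
    · refine Or.inl (locUr_of_not_dvd v.2 (fun h => ?_) _ hYStors)
      rcases (Nat.Prime.dvd_mul v.2).1 h with h | h
      · rcases dvd_lvl_cases t v.2 h with h | ⟨j, hj⟩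
        · exact hd (hLcL ▸ h)
        · exact TC.notT j (hj ▸ hvT')
      · exact hvp' ((Nat.prime_dvd_prime_iff_eq v.2 hp).1 h)
  have hatp : FlatData p (uA '' (G : Set (JZero (lvl M (extP qv) t)))) ∨
      ((∀ s ∈ (Ap p).inertiaSubgroupIn ℚ, eP s = 1) ∧
        LocPSt p eP (K + 1) (uA '' (G : Set (JZero (lvl M (extP qv) t))))) := by
    by_cases hpL : p ∣ L₀
    · refine Or.inr ⟨(X.sgnP (X.dvd_disc_of_dvd hpL)).2.1, ?_⟩
      have h1 := X.atp_of_Ma hLow hpL hP Lc hLc hF.tw (G := G.map uA) (a := K + 1)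
        (by
          rintro _ ⟨v, hv, rfl⟩
          exact (hAV v (hGU hv).1).1)
        (by
          rintro g _ ⟨v, hv, rfl⟩
          exact ⟨g • v, hGgal g v hv, hAeq g v⟩)
        (by
          rintro _ ⟨v, hv, rfl⟩
          exact (hAV v (hGU hv).1).2)
      rwa [AddSubgroup.coe_map] at h1
    · refine Or.inl ⟨lvl M (extP qv) t, inferInstance, G, uA, a, fun h => ?_, hAeq, hGgal,
        fun v hv => hAi v (hGU hv).1, fun v hv => hv.2.1, ?_⟩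
      · rcases dvd_lvl_cases t hp h with h | ⟨j, hj⟩
        · exact hpL (hL ▸ h.mul_right 4)
        · exact hqvp j hj.symm
      · rintro _ ⟨v, hv, rfl⟩
        exact ⟨v, hv, rfl⟩
  have hlev : ∀ q : Nat.Primes, q ∉ toP T ∪ Finset.univ.image qv →
      ¬ (q : ℕ) ∣ lvl Lc (extP qv) t * p := by
    intro q hq hd
    have h1 := hmem4 q q.2 hd
    rw [cutS, Finset.mem_union, Finset.mem_image] at h1
    rcases h1 with h | ⟨i, -, hi⟩
    · exact hq (Finset.mem_union_left _ (mem_toP'.2 h))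
    · exact hq (Finset.mem_union_right _ (Finset.mem_image.2 ⟨i, Finset.mem_univ i,
        Subtype.ext hi⟩))
  -- (GEN)
  obtain ⟨u, hu0, ⟨k₀, hk₀⟩, hle⟩ := two_mid X C H h2 hF.gen hlev Y hYG hY0 _ hYS hur2 hmin hatp hσ₀
  have hχτ : ∀ i, ∀ x ∈ thTors (lvl Lc (extP qv) t) p (p ^ (K + 1)) (↑(cutS T qv) : Set ℕ)
      W.apOfModel, ((chiM (p ^ (K + 1)) (τ i)).val : ℤ) • x = x := fun i =>
    IsRhoK.hchi H hm1 (raise2_chiM_inertia K (qv i).2 (hqvp i) (hA i) (hτ i))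
  have hχσ : ((chiM (p ^ (K + 1)) σ₀).val : ℤ) = 2 := raise2_chiM_frob X.C.hp2 K hA2 hσ₀
  have hU'V : (UK p (↑(cutS T qv) : Set ℕ) W.apOfModel qv h₁ a).map (upE h₂ 0) ≤
      thTors (lvl Lc (extP qv) t) p (p ^ (K + 1)) (↑(cutS T qv) : Set ℕ) W.apOfModel := by
    rintro _ ⟨v, hv, rfl⟩
    exact ⟨upE_mem_thetaPart h₂ hS4 0 (mem_UK.1 hv).1.1,
      hpow _ (by rw [← map_nsmul, (mem_UK.1 hv).1.2.2, map_zero])⟩
  have hN18 : ¬ (p : ℤ) ^ (2 + 1) ∣ 18 * eps 2 := by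
    intro hd
    have h3 : (3 : ℤ) ≤ p := by
      have h4 := hp.two_le
      have h5 := X.C.hp2
      exact_mod_cast (by omega : 3 ≤ p)
    have h4 : (p : ℤ) ^ (2 + 1) ∣ 18 := by
      rcases hε with h | h
      · rwa [h, mul_one] at hd
      · rw [h, mul_neg, mul_one] at hd
        exact (dvd_neg.1 hd)
    have h5 := Int.le_of_dvd (by norm_num) h4
    have h6 : (3 : ℤ) ^ (2 + 1) ≤ (p : ℤ) ^ (2 + 1) := pow_le_pow_left₀ (by norm_num) h3 _
    have h7 : (27 : ℤ) ≤ (p : ℤ) ^ (2 + 1) := le_trans (by norm_num) h6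
    omega
  obtain ⟨G', hG'gal, hG'le, hG'c, hG'r⟩ := raise_step_abs (Γ := GQ)
    (J := JZero (lvl Lc (extP qv) t)) (M := JZero (lvl M (extP qv) t)) (p := p) (a := a) (t := t)
    HT ha1 (IsRhoK.hcomm H) τ hχτ U G hUgal hGgal (fun v hv => hv.2.2) hGU uA uE hAeq hEeq hAV hEV
    hAi hEi hcog he'
    ((UK p (↑(cutS T qv) : Set ℕ) W.apOfModel qv h₁ a).map (upE h₂ 0))
    (by
      rintro g _ ⟨v, hv, rfl⟩
      exact ⟨g • v, hKgal g v hv, upE_smul h₂ 0 g v⟩)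
    hU'V
    (by
      rintro _ ⟨v, hv, rfl⟩
      rw [← map_nsmul, (mem_UK.1 hv).1.2.2, map_zero])
    hcog' hsize' u (fun _ => 0) (fun k => two_hynil H (hu0 k))
    (fun i => two_hgen C H hle (X.C.unramT _ (qv i).2 (TC.notT i) (A i) (hA i) (τ i) (hτ i)))
    (f := 2) (m := m)
    (by
      rw [Fintype.card_fin]
      exact raise2_big hp.one_lt hF.hC hGbig)
    (3 * ((ρ σ₀).trace + ((3 * eps 2 : ℤ) : R))) (18 * eps 2) hN18
    (by
      intro v hv hk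
      have h1 := hk k₀
      rw [mul_zero, sub_zero, hk₀] at h1
      rw [mul_comm 3 (eps 2)]
      exact two_hbeta h1)
    (by
      intro v hv hk
      have h1 := hk k₀
      rw [mul_zero, sub_zero, hk₀] at h1
      have h3 := HT.tr_sub_smul σ₀ (eps 2 * 3) ⟨uA v, hAV v (hGU hv).1⟩
      rw [h1, hχσ] at h3
      have hvU := (hGU hv).1
      have h4 : uA (σ₀ • v + (2 : ℕ) • σ₀⁻¹ • v - (eps 2 * (((2 : ℕ) : ℤ) + 1)) • v) = 0 := by
        rw [map_sub, map_add, map_nsmul, map_zsmul, hAeq, hAeq]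
        have h5 : (eps 2 * (((2 : ℕ) : ℤ) + 1)) = eps 2 * 3 := by norm_num
        rw [h5, ← natCast_zsmul]
        exact h3.symm
      have h5 := hAi _ (U.sub_mem (U.add_mem (hUgal σ₀ v hvU)
        (U.nsmul_mem (hUgal σ₀⁻¹ v hvU) 2)) (U.zsmul_mem hvU _)) h4
      exact ⟨embE h₁ (eps 2) v, embE_mem_UK Nat.prime_two h2N1 hp h2p hne2 h₁ hS2 hεε hA2 hσ₀ hvU
        (sub_eq_zero.1 h5), (huE v).symm⟩)
    (by have := hF.ha; omega)
  -- the output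
  obtain ⟨hst, hunip⟩ := locSt_two_step h₁ h₂ h2N1 hp X.C.hp2 hA2 hσ₀ (eps 2) hε a
    (↑(cutS T qv) : Set ℕ) W.apOfModel qv τ HT (IsRhoK.hcomm H)
    (fun x _ => by rw [hχσ]; exact natCast_zsmul x 2) hU'V rfl G' hG'gal hG'r
  have hle' : G' ≤ thetaPart (lvl Lc (extP qv) t) p (↑(cutS T qv) : Set ℕ) W.apOfModel :=
    fun x hx => (hU'V (hG'le hx).1).1
  have hbox := inBox_of_cyc hA hcycT (le_nuP_succ_of_le TC han) G' hle' hG'gal
    (fun x hx => (hG'le hx).2.1) (fun i x hx => (hG'le hx).2.2 i)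
  refine ⟨G', X.isCell_mk hP hLc TC.notT G' hle' hG'gal hbox ?_ ?_ ?_ (fun _ => hunip) ?_, hG'c⟩
  · intro x hx i
    obtain ⟨v, hv, rfl⟩ := (hG'le hx).1
    exact isNewAt_upE Nat.prime_two (qv i).2 (hne2 i) h₂ 0 ((mem_UK.1 hv).1.2.1 i)
  · intro q hq _
    rw [Finset.mem_singleton.1 hq]
    exact hst
  · exact fun h => absurd (Finset.mem_singleton_self 2) h
  · exact fun hpLc => X.atp_of_Ma_frm hLow (hLcL ▸ hpLc) hP Lc hLc hF hle' hG'gal hbox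

/-- **(C-STEP-2)**, `lvl`-form. -/
theorem stepTwoStmt_lvl (hLow : LowerStmt) : StepTwoStmt := by
  intro W p _ T b L₀ _ eps eP X t h2
  have hp : p.Prime := Fact.out
  obtain ⟨M, hL, hodd, -⟩ := X.BP.shape
  haveI : NeZero M := ⟨by
    rintro rfl
    exact NeZero.ne L₀ (by rw [hL, zero_mul])⟩
  obtain ⟨e, he⟩ : ∃ e : ℕ, Nat.card ↥(WS M p (↑T : Set ℕ) W.apOfModel) = p ^ e :=
    ⟨_, natCard_WS M⟩
  refine ⟨2, 2 ^ t * e * 2 * (p ^ (2 ^ t * e) * (t + 1)) ^ t, fun a m n K qv hF _ Lc _ hLc => ?_⟩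
  rw [show insert 2 (∅ : Finset ℕ) = {2} from rfl] at hLc ⊢
  exact two_cell_lvl hLow X h2 hL hodd he Nat.lt_two_pow_self hF Lc hLc

end Fermat.Agent.ML.At2
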