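import Fermat.Agent.ML.At2.N2.StepMaps
import Fermat.Agent.ML.At2.N2.Common
import Fermat.Agent.ML.At2.N2.GenInst
import Fermat.Agent.ML.At2.N2.LocStU2
import Fermat.Agent.ML.Lift.Soft.Defs
import Fermat.Agent.ML.Lift.NumS

/-!
# ML / At2 / N2 / Raise3 : the hole `h01` (`two_raise`) of `ML/At2/N2/Step.lean`, in the LEV-frame

`raise_step_abs` with `M := J₀(lev M qv univ)` (odd level), `J := J₀(lvl L₀ (extP qv) t)`, `L₀ = 4 M`,
`uA = δ_0^* α^*`, `uE = δ_0^* (α^* - ε β^*)`, `U = U1`, `G` = the whole box of `U1`, `U' = δ_0^* U2`,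
`β' = 3 (tr ρ(σ₀) + 3 ε)`, `N = 18 ε`.
-/

set_option autoImplicit false
set_option linter.unusedSectionVars false
set_option linter.unusedVariables false

noncomputable section

open AlgebraicCurve ModularCurve

namespace Fermat.Agent.ML.At2

open Fermat.Agent.RIB Fermat.Agent.GAL Fermat.Agent.GAL.PC Fermat.Agent.ML.TWFree
  Fermat.Agent.ML.ESide Fermat.Agent.ML.Lift Fermat.Agent.RIB.Rho

local notation "Qbar" => AlgebraicClosure ℚ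
local notation "GQ" => (AlgebraicClosure ℚ ≃ₐ[ℚ] AlgebraicClosure ℚ)
local notation "M₂" => Matrix (Fin 2) (Fin 2)

/-- the primes of `lev L qv Q * p`, `L ∣ L₀`. -/
theorem raise3_hS {p L L₀ t : ℕ} {T : Finset ℕ} {qv : Fin t → Nat.Primes} (hL : L ∣ L₀)
    (hlev : ∀ r : ℕ, r.Prime → r ∣ L₀ * p → r ∈ T) (Q : Finset (Fin t)) :
    ∀ r : ℕ, r.Prime → r ∉ (↑(cutS T qv) : Set ℕ) → ¬ r ∣ lev L qv Q * p := by
  intro r hr hrS hd
  apply hrS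
  rw [Finset.mem_coe]
  rcases (Nat.Prime.dvd_mul hr).1 hd with h | h
  · rcases stepMaps_dvd_lev hr h with h | ⟨i, rfl⟩
    · exact subset_cutS T qv (hlev r hr (Dvd.dvd.mul_right (h.trans hL) p))
    · exact mem_cutS_qv T qv i
  · exact subset_cutS T qv (hlev r hr (Dvd.dvd.mul_left h L₀))

theorem raise3_U1_le_UL {p : ℕ} {S : Set ℕ} {θ : ℕ → ℤ} {M : ℕ} [NeZero M] {t : ℕ}
    {qv : Fin t → Nat.Primes} {a : ℕ} {v : JZero (lev M qv Finset.univ)}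
    (hv : v ∈ U1 p S θ M qv a) : v ∈ UL p S θ qv (lev M qv Finset.univ) a := by
  have h1 := mem_newPart_univ_iff.1 (mem_U1.1 hv).1
  exact ⟨h1.1, h1.2, (mem_U1.1 hv).2⟩

variable {W : WeierstrassCurve ℤ} {p : ℕ} [Fact p.Prime] {T : Finset ℕ}
  {b : Module.Basis (Fin 2) (ZMod p) (TorsW W p)} {L₀ : ℕ} [NeZero L₀] {eps : ℕ → ℤ} {eP : GQ → ℤ}

/-- **h01 (RAISE at 2)**. -/
theorem two_raise3 (hLow : LowerStmt) (X : LCtx W p T b L₀ eps eP)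
    (h2 : 2 ∈ Pfin W (rbarB b) L₀) {M : ℕ} [NeZero M]
    (hM : L₀ = M * 4) (hodd : Odd M) {t a m n K : ℕ} {qv : Fin t → Nat.Primes}
    (F : Frm p X.C.hp2 T W.apOfModel (rbarB b) t 18
      (dTwo p M t * 18 * numS (p ^ dTwo p M t) t) a m n K qv)
    {A : Fin t → ValuationSubring Qbar} {τ : Fin t → GQ}
    (hA : ∀ i, (A i).LiesOverPrime ((qv i : Nat.Primes) : ℕ))
    (hτ : ∀ i, τ i ∈ (A i).inertiaSubgroupIn ℚ)
    (C2 : IsCube p (↑(cutS T qv) : Set ℕ) W.apOfModel (M * 2) qv τ)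
    (C1 : IsCube p (↑(cutS T qv) : Set ℕ) W.apOfModel M qv τ) :
    ∃ G : AddSubgroup (JZero (lvl L₀ (extP qv) t)), (∀ g : GQ, ∀ x ∈ G, g • x ∈ G) ∧
      G ≤ boxG p a τ ((U2 p (↑(cutS T qv) : Set ℕ) W.apOfModel M qv a).map (uTwo M qv L₀ hM)) ∧
      p ^ (m ^ (t + 1)) ≤ Nat.card G ∧
      LocSt 2 (eps 2) (G : Set (JZero (lvl L₀ (extP qv) t))) := by
  have hp : p.Prime := Fact.out
  have hp2 : p ≠ 2 := X.C.hp2
  have h4 : 4 ∣ L₀ := hM ▸ Dvd.intro_left M rfl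
  have TC : MTW p T W.apOfModel L₀ t n qv := F.tw L₀ X.BP.levT h4
  have TC2 : MTW0 p T W.apOfModel (M * 2) t n qv :=
    TC.toMTW0.of_dvd ⟨2, by rw [hM]; ring⟩
  have TC1 : MTW0 p T W.apOfModel M t n qv := TC.toMTW0.of_dvd ⟨4, hM⟩
  have hqv2 := stepMaps_qv_ne_two X TC.notT
  have h2M : ¬ 2 ∣ M := fun h => (Nat.not_even_iff_odd.2 hodd) (even_iff_two_dvd.2 h)
  have ha1 : 1 ≤ a := frm_one_le_a F
  have haK : a ≤ K + 1 := F.hK.trans (Nat.le_succ K)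
  have h2a : 2 * a ≤ n + 1 := F.hn.trans (Nat.le_succ n)
  have hε : eps 2 = 1 ∨ eps 2 = -1 :=
    (X.sgn 2 Nat.prime_two (Ne.symm hp2) (X.dvd_of_mem_Pfin h2)).1
  have hεε : eps 2 * eps 2 = 1 := by rcases hε with h | h <;> rw [h] <;> norm_num
  have h2T : 2 ∈ T := X.BP.levT 2 Nat.prime_two (Dvd.dvd.mul_right X.two_dvd p)
  -- levels
  have h₁ : lev (M * 2) qv Finset.univ = lev M qv Finset.univ * 2 :=
    lev_mul qv (rfl : M * 2 = M * 2) Finset.univ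
  have h2N : ¬ 2 ∣ lev M qv Finset.univ := by
    intro h
    rcases stepMaps_dvd_lev Nat.prime_two h with h | ⟨i, hi⟩
    · exact h2M h
    · exact hqv2 i hi.symm
  have hS4 := stepMaps_hS (p := p) (t := t) (qv := qv) X.BP.levT
  have hS2 := raise3_hS (p := p) (qv := qv) (L := M * 2) (L₀ := L₀) ⟨2, by rw [hM]; ring⟩
    X.BP.levT Finset.univ
  have hS : ∀ r : ℕ, r.Prime → r ∣ lvl L₀ (extP qv) t * p → r ∈ cutS T qv := by
    intro r hr hd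
    by_contra hn
    exact hS4 r hr (fun h => hn (Finset.mem_coe.1 h)) hd
  -- the ring
  obtain ⟨B, hTop, hEK, R, _, _, _, _, _, πE, ρ, Φ, HR⟩ :=
    exists_topRho (b := b) (N := lvl L₀ (extP qv) t) X.H.hΔ X.H.hss X.C.hp2 X.H.hirr X.C.nf K
      (cutS T qv) hS
      (fun r hr hrS hd => hrS (subset_cutS T qv (X.hbadT r hr hd)))
      (thTors p (↑(cutS T qv) : Set ℕ) W.apOfModel (lvl L₀ (extP qv) t) (K + 1))
      (thTors_gal (K + 1)) (fun x hx => hx.2) (fun x hx => hx.1)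
  have hm1 : 1 < p ^ (K + 1) := Nat.one_lt_pow K.succ_ne_zero hp.one_lt
  have : Finite ↥(thTors p (↑(cutS T qv) : Set ℕ) W.apOfModel (lvl L₀ (extP qv) t) (K + 1)) :=
    Set.Finite.to_subtype ((finite_torsion_JZero _ (p ^ (K + 1)) (NeZero.ne _)).subset
      fun x hx => hx.2)
  have hpa0 : p ^ a ≠ 0 := pow_ne_zero a hp.ne_zero
  -- a Frobenius at `2`
  have hA₀ : (ExtCitation.primeLocalPlace twoPr).LiesOverPrime 2 :=
    Fermat.Agent.S56.liesOverPrime_primeLocalPlace twoPr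
  obtain ⟨σ₀, hσ₀⟩ := Fermat.Agent.S54.exists_isFrobeniusAt_of_liesOverPrime Nat.prime_two _ hA₀
  -- the maps
  obtain ⟨uA, huA⟩ : ∃ uA : JZero (lev M qv Finset.univ) →+ JZero (lvl L₀ (extP qv) t),
      ∀ v, uA v = uTwo M qv L₀ hM (upE h₁ 0 v) := ⟨(uTwo M qv L₀ hM).comp (upE h₁ 0), fun _ => rfl⟩
  obtain ⟨uE, huE⟩ : ∃ uE : JZero (lev M qv Finset.univ) →+ JZero (lvl L₀ (extP qv) t),
      ∀ v, uE v = uTwo M qv L₀ hM (embE h₁ (eps 2) v) :=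
    ⟨(uTwo M qv L₀ hM).comp (embE h₁ (eps 2)), fun _ => rfl⟩
  have hAeq : ∀ (g : GQ) v, uA (g • v) = g • uA v := fun g v => by
    rw [huA, huA, upE_smul, uTwo_smul]
  have hEeq : ∀ (g : GQ) v, uE (g • v) = g • uE v := fun g v => by
    rw [huE, huE, embE_smul, uTwo_smul]
  have hAV : ∀ v ∈ U1 p (↑(cutS T qv) : Set ℕ) W.apOfModel M qv a, uA v ∈
      thTors p (↑(cutS T qv) : Set ℕ) W.apOfModel (lvl L₀ (extP qv) t) (K + 1) := fun v hv =>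
    ⟨by rw [huA]; exact uTwo_mem_thetaPart hM hS4 (upE_mem_thetaPart h₁ hS2 0 (TwoC.U1_le hv)), by
      rw [← map_nsmul, pow_smul_of_le_soft haK (mem_U1.1 hv).2, map_zero]⟩
  have hEV : ∀ v ∈ U1 p (↑(cutS T qv) : Set ℕ) W.apOfModel M qv a, uE v ∈
      thTors p (↑(cutS T qv) : Set ℕ) W.apOfModel (lvl L₀ (extP qv) t) (K + 1) := fun v hv =>
    ⟨by rw [huE]; exact uTwo_mem_thetaPart hM hS4 (embE_mem_thetaPart h₁ hS2 _ (TwoC.U1_le hv)), by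
      rw [← map_nsmul, pow_smul_of_le_soft haK (mem_U1.1 hv).2, map_zero]⟩
  have hAi : ∀ v ∈ U1 p (↑(cutS T qv) : Set ℕ) W.apOfModel M qv a, uA v = 0 → v = 0 :=
    fun v hv h0 => upE_eq_zero_of_torsion Nat.prime_two h₁ 0 hpa0 (mem_U1.1 hv).2
      (uTwo_eq_zero hM hpa0 (by rw [← map_nsmul, (mem_U1.1 hv).2, map_zero]) (by rw [← huA]; exact h0))
  have hEi : ∀ v ∈ U1 p (↑(cutS T qv) : Set ℕ) W.apOfModel M qv a, uE v = 0 → v = 0 := by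
    intro v hv h0
    have h3 : embE h₁ (eps 2) v = 0 :=
      uTwo_eq_zero hM hpa0 (by rw [← map_nsmul, (mem_U1.1 hv).2, map_zero])
        (by rw [← huE]; exact h0)
    exact embE_injOn hp Nat.prime_two h2N (X.C.nonEis (cutS T qv))
      (Finset.mem_coe.2 (subset_cutS T qv h2T)) h₁ (eps 2) (TwoC.U1_le hv) h3
  have hGgal : ∀ (g : GQ), ∀ v ∈ boxG p a τ (U1 p (↑(cutS T qv) : Set ℕ) W.apOfModel M qv a),
      g • v ∈ boxG p a τ (U1 p (↑(cutS T qv) : Set ℕ) W.apOfModel M qv a) :=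
    fun g v hv => TwoC.smul_mem_boxG_U1 X.C TC1 hA hτ g hv
  -- the upper block
  have hU' : ∀ (g : GQ), ∀ x ∈ (U2 p (↑(cutS T qv) : Set ℕ) W.apOfModel M qv a).map
      (uTwo M qv L₀ hM), g • x ∈ (U2 p (↑(cutS T qv) : Set ℕ) W.apOfModel M qv a).map
      (uTwo M qv L₀ hM) := by
    rintro g _ ⟨x, hx, rfl⟩
    exact ⟨g • x, TwoC.smul_mem_U2 g hx, uTwo_smul hM g x⟩
  have hU'a : ∀ x ∈ (U2 p (↑(cutS T qv) : Set ℕ) W.apOfModel M qv a).map (uTwo M qv L₀ hM),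
      p ^ a • x = 0 := by
    rintro _ ⟨x, hx, rfl⟩
    rw [← map_nsmul, (mem_U2.1 hx).2, map_zero]
  have hU'V : (U2 p (↑(cutS T qv) : Set ℕ) W.apOfModel M qv a).map (uTwo M qv L₀ hM) ≤
      thTors p (↑(cutS T qv) : Set ℕ) W.apOfModel (lvl L₀ (extP qv) t) (K + 1) := fun x hx =>
    ⟨two_le X hM TC.notT hx, pow_smul_of_le_soft haK (hU'a x hx)⟩
  obtain ⟨D, hD⟩ := TwoC.num_U2 (L₀ := L₀) X.C TC2 h2M hM hA hτ C2 C1
  obtain ⟨hcogen', hsize'⟩ := hD a ha1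
  -- numerics
  have hsize : p ^ (a ^ (t + 1)) ≤
      Nat.card ↥(boxG p a τ (U1 p (↑(cutS T qv) : Set ℕ) W.apOfModel M qv a)) :=
    TwoC.size_U1 X.C TC1 hA hτ C1 (ws_odd_ne_bot X h2 hM qv) ha1 h2a
  have hNc : p ^ (m ^ (t + 1)) ≤
      Nat.card ↥(boxG p a τ (U1 p (↑(cutS T qv) : Set ℕ) W.apOfModel M qv a)) :=
    (Nat.pow_le_pow_right hp.pos (Nat.pow_le_pow_left (frm_m_le_a F) _)).trans hsize
  obtain ⟨-, hm, hbig⟩ := num_soft F (k := Fintype.card (Fin t)) (by rw [Fintype.card_fin])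
    (d := dTwo p M t) (e := p ^ dTwo p M t) (f := 18) le_rfl le_rfl hNc
  have hG0 : ∃ v ∈ boxG p a τ (U1 p (↑(cutS T qv) : Set ℕ) W.apOfModel M qv a), v ≠ 0 := by
    by_contra hcon
    have hcon' : ∀ v ∈ boxG p a τ (U1 p (↑(cutS T qv) : Set ℕ) W.apOfModel M qv a), v = 0 :=
      fun v hv => by_contra fun h => hcon ⟨v, hv, h⟩
    have : Subsingleton ↥(boxG p a τ (U1 p (↑(cutS T qv) : Set ℕ) W.apOfModel M qv a)) :=
      ⟨fun x y => Subtype.ext ((hcon' x.1 x.2).trans (hcon' y.1 y.2).symm)⟩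
    have h1 : Nat.card ↥(boxG p a τ (U1 p (↑(cutS T qv) : Set ℕ) W.apOfModel M qv a)) ≤ 1 :=
      Finite.card_le_one_iff_subsingleton.2 this
    have h3 : 1 < p ^ (a ^ (t + 1)) := Nat.one_lt_pow (pow_ne_zero _ (by omega)) hp.one_lt
    omega
  -- (GEN)
  have hur2 : LocUr 2 (uA '' (boxG p a τ (U1 p (↑(cutS T qv) : Set ℕ) W.apOfModel M qv a) :
      Set (JZero (lev M qv Finset.univ)))) := by
    refine LocUr.image (locUr_of_not_dvd (p := p) Nat.prime_two (fun h => ?_) _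
      fun x hx => ⟨a, hx.2.1⟩) uA hAeq
    rcases (Nat.Prime.dvd_mul Nat.prime_two).1 h with h | h
    · exact h2N h
    · exact hp2 ((Nat.prime_dvd_prime_iff_eq Nat.prime_two hp).1 h).symm
  obtain ⟨u, hu, ⟨k₀, hk₀⟩, hgen⟩ := two_gen_map hLow X h2 F hTop HR
    (boxG p a τ (U1 p (↑(cutS T qv) : Set ℕ) W.apOfModel M qv a)) hGgal uA hAeq
    (fun v hv => hAV v hv.1) (fun v hv => hAi v hv.1) hG0 (fun v hv => (hAV v hv.1).1) hur2 hσ₀
  -- characters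
  have hqvp : ∀ i, ((qv i : Nat.Primes) : ℕ) ≠ p := fun i h => TC.notT i (h ▸ X.C.p_mem)
  have hchi : ∀ i, chiM (p ^ (K + 1)) (τ i) = 1 := fun i => by
    have hc : Nat.Coprime (p ^ (K + 1)) ((qv i : Nat.Primes) : ℕ) :=
      Nat.Coprime.pow_left _ ((Nat.coprime_primes hp (qv i).2).2 (Ne.symm (hqvp i)))
    rw [chiM_apply, cycloChar_of_mem_inertia' _ (qv i).2 hc.symm (hA i) (hτ i), Units.val_one]
  have hchi2 : chiM (p ^ (K + 1)) σ₀ = ((2 : ℕ) : ZMod (p ^ (K + 1))) := by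
    have hc : Nat.Coprime 2 (p ^ (K + 1)) :=
      Nat.Coprime.pow_right _ ((Nat.coprime_primes Nat.prime_two hp).2 (Ne.symm hp2))
    rw [chiM_apply, cycloChar_of_isFrobeniusAt' _ Nat.prime_two hc hA₀ hσ₀]
  have hχ : ∀ x ∈ thTors p (↑(cutS T qv) : Set ℕ) W.apOfModel (lvl L₀ (extP qv) t) (K + 1),
      (((chiM (p ^ (K + 1)) σ₀).val : ℕ) : ℤ) • x = (2 : ℕ) • x := by
    intro x hx
    rw [natCast_zsmul, ← Fermat.Agent.ML.Rho.zsmul_eq_val_nsmul hx.2 2 _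
      (by rw [hchi2]; norm_num), ← natCast_zsmul]
    rfl
  have hN18 : ¬ (p : ℤ) ^ (18 + 1) ∣ 18 * eps 2 := by
    have h0 : (18 * eps 2 : ℤ) ≠ 0 := by rcases hε with h | h <;> rw [h] <;> norm_num
    have h1 := not_pow_dvd_of_ne_zero hp.one_lt h0
    have h3 : (18 * eps 2 : ℤ).natAbs = 18 := by rcases hε with h | h <;> rw [h] <;> rfl
    rwa [h3] at h1
  have hrel : ∀ v (hv : v ∈ U1 p (↑(cutS T qv) : Set ℕ) W.apOfModel M qv a),
      (∀ k, (u k - (p : R) * (fun _ : Fin t => (0 : R)) k) •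
        (⟨uA v, hAV v hv⟩ : ↥(thTors p (↑(cutS T qv) : Set ℕ) W.apOfModel
          (lvl L₀ (extP qv) t) (K + 1))) = 0) →
      ((ρ σ₀).trace - ((eps 2 * 3 : ℤ) : R)) •
        (⟨uA v, hAV v hv⟩ : ↥(thTors p (↑(cutS T qv) : Set ℕ) W.apOfModel
          (lvl L₀ (extP qv) t) (K + 1))) = 0 := by
    intro v hv h
    have := h k₀
    rwa [mul_zero, sub_zero, hk₀] at this
  have hβ' : ∀ v (hv : v ∈ boxG p a τ (U1 p (↑(cutS T qv) : Set ℕ) W.apOfModel M qv a)),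
      (∀ k, (u k - (p : R) * (fun _ : Fin t => (0 : R)) k) •
        (⟨uA v, hAV v hv.1⟩ : ↥(thTors p (↑(cutS T qv) : Set ℕ) W.apOfModel
          (lvl L₀ (extP qv) t) (K + 1))) = 0) →
      (3 * ((ρ σ₀).trace + ((3 * eps 2 : ℤ) : R))) •
        (⟨uA v, hAV v hv.1⟩ : ↥(thTors p (↑(cutS T qv) : Set ℕ) W.apOfModel
          (lvl L₀ (extP qv) t) (K + 1))) = (18 * eps 2) •
        (⟨uA v, hAV v hv.1⟩ : ↥(thTors p (↑(cutS T qv) : Set ℕ) W.apOfModel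
          (lvl L₀ (extP qv) t) (K + 1))) := by
    intro v hv h
    have h1 := two_hbeta (ε := eps 2) (hrel v hv.1 h)
    rw [mul_comm (eps 2) 3] at h1
    exact h1
  have hemb : ∀ v (hv : v ∈ boxG p a τ (U1 p (↑(cutS T qv) : Set ℕ) W.apOfModel M qv a)),
      (∀ k, (u k - (p : R) * (fun _ : Fin t => (0 : R)) k) •
        (⟨uA v, hAV v hv.1⟩ : ↥(thTors p (↑(cutS T qv) : Set ℕ) W.apOfModel
          (lvl L₀ (extP qv) t) (K + 1))) = 0) →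
      uE v ∈ (U2 p (↑(cutS T qv) : Set ℕ) W.apOfModel M qv a).map (uTwo M qv L₀ hM) := by
    intro v hv h
    have h1 := hrel v hv.1 h
    rw [sub_smul, sub_eq_zero] at h1
    have h3 := congrArg (Subtype.val) h1
    rw [HR.isTraceRing.spec σ₀ ⟨uA v, hAV v hv.1⟩, Int.cast_smul_eq_zsmul, AddSubgroup.coe_zsmul,
      hχ _ (thTors_gal (K + 1) σ₀⁻¹ _ (hAV v hv.1))] at h3
    have hmem : σ₀ • v + (2 : ℕ) • σ₀⁻¹ • v - (eps 2 * 3) • v ∈
        U1 p (↑(cutS T qv) : Set ℕ) W.apOfModel M qv a :=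
      AddSubgroup.sub_mem _ (AddSubgroup.add_mem _ (TwoC.smul_mem_U1 σ₀ hv.1)
        (AddSubgroup.nsmul_mem _ (TwoC.smul_mem_U1 σ₀⁻¹ hv.1) 2))
        (AddSubgroup.zsmul_mem _ hv.1 _)
    have h4 : uA (σ₀ • v + (2 : ℕ) • σ₀⁻¹ • v - (eps 2 * 3) • v) = 0 := by
      rw [map_sub, map_add, map_nsmul, map_zsmul, hAeq, hAeq, sub_eq_zero]
      exact h3
    have hc : σ₀ • v + 2 • σ₀⁻¹ • v = (eps 2 * (((2 : ℕ) : ℤ) + 1)) • v := by
      have h5 := sub_eq_zero.1 (hAi _ hmem h4)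
      rw [h5]
      norm_num
    have h6 := embE_mem_UK Nat.prime_two h2N hp (Ne.symm hp2) hqv2 h₁ hS2 hεε hA₀ hσ₀
      (raise3_U1_le_UL hv.1) hc
    exact ⟨embE h₁ (eps 2) v, by rw [U2_eq_UK]; exact h6, (huE v).symm⟩
  obtain ⟨G', hG'gal, hG'le, hG'c, hG'r⟩ := raise_step_abs (Γ := GQ)
    (J := JZero (lvl L₀ (extP qv) t)) (M := JZero (lev M qv Finset.univ)) (m := m)
    HR.isTraceRing ha1 HR.hcomm τ (fun i => HR.chi_smul (hchi i))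
    (U1 p (↑(cutS T qv) : Set ℕ) W.apOfModel M qv a)
    (boxG p a τ (U1 p (↑(cutS T qv) : Set ℕ) W.apOfModel M qv a))
    (fun g v hv => TwoC.smul_mem_U1 g hv) hGgal (fun v hv => (mem_U1.1 hv).2) le_rfl
    uA uE hAeq hEeq hAV hEV hAi hEi
    (TwoC.cogen_U1 X.C TC1 hA hτ C1 ha1) (Nat.lt_two_pow_self (n := p ^ dTwo p M t))
    ((U2 p (↑(cutS T qv) : Set ℕ) W.apOfModel M qv a).map (uTwo M qv L₀ hM)) hU' hU'V hU'a
    hcogen' (hsize' h2a) u (fun _ => 0) (fun k => two_hynil HR (hu k))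
    (fun i => two_hgen hTop HR hgen
      (X.C.unramT _ (qv i).2 (TC.notT i) (A i) (hA i) (τ i) (hτ i)))
    hbig (3 * ((ρ σ₀).trace + ((3 * eps 2 : ℤ) : R))) (18 * eps 2) hN18 hβ' hemb hm
  refine ⟨G', hG'gal, hG'le, hG'c, ?_⟩
  exact (locSt_two_U2 hM h2M hqv2 hp hp2 hA₀ hσ₀ (eps 2) hε τ HR.isTraceRing HR.hcomm hχ hU'V
    rfl G' hG'gal hG'r).1

end Fermat.Agent.ML.At2
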