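import Fermat.Agent.ML.Main.StepSplit
import Fermat.Agent.ML.Main.CellMk2
import Fermat.Agent.ML.Lift.StepAbs
import Fermat.Agent.ML.Lift.NumS
import Fermat.Agent.ML.Lift.OfRhoK
import Fermat.Agent.ML.Rho.CellTop
import Fermat.Agent.ML.AtP.StepP.Emb
import Fermat.Agent.ML.At2.N2.Common
import Fermat.Agent.ML.At2.N2.GenInst
import Fermat.Agent.ML.At2.N2.LocStU2

/-!
# ML / At2 / N2 / RaiseLev : the heart `two_raise` of **StepTwoStmt**   (LEV-form)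
-/

set_option autoImplicit false
set_option linter.unusedSectionVars false

noncomputable section

open AlgebraicCurve ModularCurve

namespace Fermat.Agent.ML.At2.TwoC

open Fermat.Agent.RIB Fermat.Agent.GAL Fermat.Agent.GAL.PC Fermat.Agent.ML.TWFree
  Fermat.Agent.ML.ESide Fermat.Agent.ML.Lift Fermat.Agent.RIB.Rho Fermat.Agent.ML.At2
  Fermat.Agent.S56 Fermat.Agent.S56.Flat Fermat.Agent.ML.FinGen Fermat.Agent.ML.StepGen

local notation "Qbar" => AlgebraicClosure ℚ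
local notation "GQ" => (AlgebraicClosure ℚ ≃ₐ[ℚ] AlgebraicClosure ℚ)
local notation "M₂" => Matrix (Fin 2) (Fin 2)

variable {W : WeierstrassCurve ℤ} {p : ℕ} [Fact p.Prime] {T : Finset ℕ}
  {b : Module.Basis (Fin 2) (ZMod p) (TorsW W p)} {L₀ : ℕ} [NeZero L₀] {eps : ℕ → ℤ} {eP : GQ → ℤ}

/-- **h01 (RAISE at 2)**. -/
theorem two_raise (hLow : LowerStmt) (X : LCtx W p T b L₀ eps eP)
    (h2 : 2 ∈ Pfin W (rbarB b) L₀) {M : ℕ} [NeZero M]
    (hM : L₀ = M * 4) (hodd : Odd M) {t a m n K : ℕ} {qv : Fin t → Nat.Primes}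
    (F : Frm p X.C.hp2 T W.apOfModel (rbarB b) t 18
      (dTwo p M t * 18 * numS (p ^ dTwo p M t) t) a m n K qv)
    {A : Fin t → ValuationSubring Qbar} {τ : Fin t → GQ}
    (hA : ∀ i, (A i).LiesOverPrime ((qv i : Nat.Primes) : ℕ))
    (hτ : ∀ i, τ i ∈ (A i).inertiaSubgroupIn ℚ)
    (C2 : IsCube p (↑(cutS T qv) : Set ℕ) W.apOfModel (M * 2) qv τ)
    (C1 : IsCube p (↑(cutS T qv) : Set ℕ) W.apOfModel M qv τ) :
    ∃ G : AddSubgroup (JZero (lvl L₀ (extP qv) t)), (∀ g : GQ, ∀ x ∈ G, g • x ∈ G) ∧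
      G ≤ boxG p a τ ((U2 p (↑(cutS T qv) : Set ℕ) W.apOfModel M qv a).map (uTwo M qv L₀ hM)) ∧
      p ^ (m ^ (t + 1)) ≤ Nat.card G ∧
      LocSt 2 (eps 2) (G : Set (JZero (lvl L₀ (extP qv) t))) := by
  classical
  have hp : p.Prime := Fact.out
  have hp2 : p ≠ 2 := X.C.hp2
  have hP : ({2} : Finset ℕ) ⊆ Pfin W (rbarB b) L₀ := Finset.singleton_subset_iff.2 h2
  have hLc : L₀ = cellLevel L₀ {2} := by simp [cellLevel]
  have TC0 : MTW p T W.apOfModel L₀ t n qv := X.cellMk_mtw F hP hLc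
  have TC2 : MTW0 p T W.apOfModel (M * 2) t n qv := TC0.toMTW0.of_dvd ⟨2, by rw [hM]; ring⟩
  have TC1 : MTW0 p T W.apOfModel M t n qv := TC0.toMTW0.of_dvd ⟨4, hM⟩
  have h2M : ¬ 2 ∣ M := fun h => (Nat.not_even_iff_odd.2 hodd) (even_iff_two_dvd.2 h)
  have ha1 : 1 ≤ a := frm_one_le_a F
  have haK : a ≤ K + 1 := F.hK.trans (Nat.le_succ K)
  have h2a : 2 * a ≤ n + 1 := F.hn.trans (Nat.le_succ n)
  have h2T : 2 ∈ T := X.hbadT 2 Nat.prime_two (X.dvd_of_mem_Pfin h2)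
  have hqv2 : ∀ i, ((qv i : Nat.Primes) : ℕ) ≠ 2 := fun i h => TC0.notT i (h ▸ h2T)
  have hqvp : ∀ i, ((qv i : Nat.Primes) : ℕ) ≠ p := fun i h => TC0.notT i (h ▸ X.C.p_mem)
  obtain ⟨hε, -⟩ := X.sgn 2 Nat.prime_two (Ne.symm hp2) (X.dvd_of_mem_Pfin h2)
  have hεε : eps 2 * eps 2 = 1 := by rcases hε with h | h <;> rw [h] <;> norm_num
  have hlev : ∀ r : ℕ, r.Prime → r ∣ L₀ * p → r ∈ T := TC0.lev
  have hS : ∀ r : ℕ, r.Prime → r ∉ (↑(cutS T qv) : Set ℕ) → ¬ r ∣ lvl L₀ (extP qv) t * p :=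
    fun r hr hrS hd => hrS (Finset.mem_coe.2 (Fermat.Agent.ML.Rho.mem_cutS_of_dvd_lvl hlev t hr hd))
  have h2S : 2 ∈ (↑(cutS T qv) : Set ℕ) := Finset.mem_coe.2 (subset_cutS T qv h2T)
  have h2lev : ¬ 2 ∣ lev M qv Finset.univ := not_two_dvd_lev h2M hqv2 Finset.univ
  have hpa0 : p ^ a ≠ 0 := pow_ne_zero a hp.ne_zero
  have hm1 : 1 < p ^ (K + 1) := Nat.one_lt_pow K.succ_ne_zero hp.one_lt
  have hle1 := lev_mul qv (rfl : M * 2 = M * 2) Finset.univ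
  have hS2 : ∀ r : ℕ, r.Prime → r ∉ (↑(cutS T qv) : Set ℕ) →
      ¬ r ∣ lev (M * 2) qv Finset.univ * p := hS_lev_of_mtw0 TC2 Finset.univ
  -- the Frobenius element at `2`
  have hA2 : (ExtCitation.primeLocalPlace twoPr).LiesOverPrime 2 :=
    liesOverPrime_primeLocalPlace twoPr
  obtain ⟨σ₀, hσ₀⟩ := S54.exists_isFrobeniusAt_of_liesOverPrime Nat.prime_two _ hA2
  -- the ring
  obtain ⟨V, hV⟩ : ∃ V : AddSubgroup (JZero (lvl L₀ (extP qv) t)), V =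
    thTors (lvl L₀ (extP qv) t) p (p ^ (K + 1)) (↑(cutS T qv) : Set ℕ) W.apOfModel := ⟨_, rfl⟩
  have hmemV : ∀ x, x ∈ V ↔ x ∈ thetaPart (lvl L₀ (extP qv) t) p (↑(cutS T qv) : Set ℕ)
      W.apOfModel ∧ p ^ (K + 1) • x = 0 := fun x => by rw [hV]; exact Iff.rfl
  have hring := X.exists_ring_thTors hlev qv K
  rw [← hV] at hring
  obtain ⟨B, hTop, -, R, _, _, _, _, _, πE, ρ, Φ, HR⟩ := hring
  have hfinV : Finite ↥V := finite_of_pow_nsmul V (fun x hx => ((hmemV x).1 hx).2)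
  have hpK : ∀ {N : ℕ} [NeZero N] (x : JZero N), p ^ a • x = 0 → p ^ (K + 1) • x = 0 := by
    intro N _ x hx
    obtain ⟨c, hc⟩ := Nat.exists_eq_add_of_le haK
    rw [hc, pow_add, mul_comm, mul_smul, hx, smul_zero]
  -- the blocks
  set U := U1 p (↑(cutS T qv) : Set ℕ) W.apOfModel M qv a with hU
  set G := boxG p a τ U with hG
  set uA := uOdd M qv L₀ hM with huA
  set uE : JZero (lev M qv Finset.univ) →+ JZero (lvl L₀ (extP qv) t) :=
    (uTwo M qv L₀ hM).comp (embE hle1 (eps 2)) with huE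
  set U' := (U2 p (↑(cutS T qv) : Set ℕ) W.apOfModel M qv a).map (uTwo M qv L₀ hM) with hU'
  have hUgal : ∀ (g : GQ), ∀ v ∈ U, g • v ∈ U := fun g v hv => smul_mem_U1 g hv
  have hGgal : ∀ (g : GQ), ∀ v ∈ G, g • v ∈ G := fun g v hv =>
    smul_mem_boxG_U1 X.C TC1 hA hτ g hv
  have hAeq : ∀ (g : GQ) v, uA (g • v) = g • uA v := fun g v => uOdd_smul hM g v
  have hEeq : ∀ (g : GQ) v, uE (g • v) = g • uE v := fun g v => by
    show uTwo M qv L₀ hM (embE hle1 (eps 2) (g • v)) = g • uTwo M qv L₀ hM (embE hle1 (eps 2) v)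
    rw [embE_smul, uTwo_smul]
  have hAV : ∀ v ∈ U, uA v ∈ V := fun v hv =>
    (hmemV _).2 ⟨uOdd_mem_thetaPart hM hS (U1_le hv),
      hpK _ (by rw [← map_nsmul, (mem_U1.1 hv).2, map_zero])⟩
  have hEV : ∀ v ∈ U, uE v ∈ V := fun v hv =>
    (hmemV _).2 ⟨uTwo_mem_thetaPart hM hS (embE_mem_thetaPart hle1 hS2 (eps 2) (U1_le hv)),
      hpK _ (by rw [← map_nsmul, (mem_U1.1 hv).2, map_zero])⟩
  have hAi : ∀ v ∈ U, uA v = 0 → v = 0 := fun v hv h0 => uOdd_eq_zero hM hpa0 (mem_U1.1 hv).2 h0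
  have hEi : ∀ v ∈ U, uE v = 0 → v = 0 := fun v hv h0 => by
    have h1 : embE hle1 (eps 2) v = 0 :=
      uTwo_eq_zero hM hpa0 (by rw [← map_nsmul, (mem_U1.1 hv).2, map_zero]) h0
    exact embE_injOn hp Nat.prime_two h2lev (X.C.nonEis (cutS T qv)) h2S hle1 (eps 2) (U1_le hv) h1
  -- the upper block
  have hU'gal : ∀ (g : GQ), ∀ x ∈ U', g • x ∈ U' := by
    rintro g _ ⟨x, hx, rfl⟩
    exact ⟨g • x, smul_mem_U2 g hx, uTwo_smul hM g x⟩
  have hU'a : ∀ x ∈ U', p ^ a • x = 0 := by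
    rintro _ ⟨x, hx, rfl⟩
    rw [← map_nsmul, (mem_U2.1 hx).2, map_zero]
  have hU'V : U' ≤ V := by
    intro y hy
    refine (hmemV _).2 ⟨?_, hpK _ (hU'a y hy)⟩
    obtain ⟨x, hx, rfl⟩ := hy
    exact uTwo_mem_thetaPart hM hS (U2_le hx)
  -- numerics
  have hcogen := cogen_U1 X.C TC1 hA hτ C1 ha1
  obtain ⟨D, hD⟩ := num_U2 X.C TC2 h2M hM hA hτ C2 C1
  obtain ⟨hcogen', hsize'⟩ := hD a ha1
  have hsize := size_U1 X.C TC1 hA hτ C1 (ws_odd_ne_bot X h2 hM qv) ha1 h2a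
  have hGm : p ^ (m ^ (t + 1)) ≤ Nat.card G :=
    (Nat.pow_le_pow_right hp.pos (Nat.pow_le_pow_left (frm_m_le_a F) _)).trans hsize
  obtain ⟨-, hm, hbig⟩ := num_soft F (k := t) le_rfl (d := dTwo p M t) (e := p ^ dTwo p M t)
    (f := 18) le_rfl le_rfl hGm
  have hN : ¬ (p : ℤ) ^ (18 + 1) ∣ 18 * eps 2 := by
    have h0 : (18 * eps 2 : ℤ) ≠ 0 := by rcases hε with h | h <;> rw [h] <;> norm_num
    have h1 := not_pow_dvd_of_ne_zero hp.one_lt h0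
    have h3 : (18 * eps 2 : ℤ).natAbs = 18 := by rcases hε with h | h <;> rw [h] <;> rfl
    rwa [h3] at h1
  -- `G ≠ 0`
  have hG0 : ∃ v ∈ G, v ≠ 0 := by
    by_contra hcon
    replace hcon : ∀ v ∈ G, v = 0 := fun v hv => by
      by_contra h0
      exact hcon ⟨v, hv, h0⟩
    have h1 : Nat.card G ≤ 1 := by
      have : Subsingleton G := ⟨fun x y => Subtype.ext ((hcon x x.2).trans (hcon y y.2).symm)⟩
      exact Finite.card_le_one_iff_subsingleton.2 this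
    have h3 : 1 < p ^ (m ^ (t + 1)) :=
      Nat.one_lt_pow (pow_ne_zero _ (by have := frm_one_le_m F; omega)) hp.one_lt
    omega
  -- (GEN)
  have hur2 : LocUr 2 (uA '' (G : Set (JZero (lev M qv Finset.univ)))) :=
    locUr_two_uOdd hM (fun h => by
      rcases (Nat.Prime.dvd_mul Nat.prime_two).1 h with h | h
      · exact h2lev h
      · exact hp2 ((Nat.prime_dvd_prime_iff_eq Nat.prime_two hp).1 h).symm) _
      (fun x hx => ⟨a, hx.2.1⟩)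
  obtain ⟨u, hu0, ⟨k₀, hk₀⟩, hgen⟩ := two_gen_map hLow X h2 F hTop HR G hGgal uA hAeq
    (fun v hv => hAV v hv.1) (fun v hv => hAi v hv.1) hG0
    (fun v hv => ((hmemV _).1 (hAV v hv.1)).1) hur2 hσ₀
  -- the characters
  have hχτ : ∀ i, ∀ x ∈ V, (((chiM (p ^ (K + 1)) (τ i)).val : ℕ) : ℤ) • x = x := by
    intro i
    refine IsRhoK.hchi HR hm1 ?_
    have hc : Nat.Coprime (p ^ (K + 1)) ((qv i : Nat.Primes) : ℕ) :=
      Nat.Coprime.pow_left _ ((Nat.coprime_primes hp (qv i).2).2 (Ne.symm (hqvp i)))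
    rw [chiM_apply, cycloChar_of_mem_inertia' _ (qv i).2 hc.symm (hA i) (hτ i), Units.val_one]
  have hχσ : ∀ x ∈ V, (((chiM (p ^ (K + 1)) σ₀).val : ℕ) : ℤ) • x = (2 : ℕ) • x := by
    intro x _
    have hc : Nat.Coprime 2 (p ^ (K + 1)) :=
      Nat.Coprime.pow_right _ ((Nat.coprime_primes Nat.prime_two hp).2 (Ne.symm hp2))
    have h2lt : 2 < p ^ (K + 1) := by
      have h3 : 3 ≤ p := by
        have := hp.two_le
        omega
      calc 2 < p := by omega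
        _ = p ^ 1 := (pow_one p).symm
        _ ≤ p ^ (K + 1) := Nat.pow_le_pow_right hp.pos (by omega)
    rw [chiM_apply, cycloChar_of_isFrobeniusAt' _ Nat.prime_two hc hA2 hσ₀,
      ZMod.val_natCast_of_lt h2lt, natCast_zsmul]
  -- the step
  have hc₂ : ∀ v (hv : v ∈ G),
      (∀ k, (u k - (p : R) * (fun _ : Fin t => (0 : R)) k) • (⟨uA v, hAV v hv.1⟩ : V) = 0) →
      ((ρ σ₀).trace - ((eps 2 * 3 : ℤ) : R)) • (⟨uA v, hAV v hv.1⟩ : V) = 0 := by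
    intro v hv h
    have := h k₀
    rwa [mul_zero, sub_zero, hk₀] at this
  obtain ⟨G', hG'gal, hG'le, hG'c, hG'r⟩ := raise_step_abs (Γ := GQ)
    (J := JZero (lvl L₀ (extP qv) t)) (M := JZero (lev M qv Finset.univ)) (m := m)
    HR.isTraceRing ha1 HR.hcomm τ hχτ U G hUgal hGgal (fun v hv => (mem_U1.1 hv).2) le_rfl
    uA uE hAeq hEeq hAV hEV hAi hEi hcogen (Nat.lt_two_pow_self) U' hU'gal hU'V hU'a hcogen'
    (hsize' h2a) u (fun _ => 0) (fun k => two_hynil HR (hu0 k))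
    (fun i => two_hgen hTop HR hgen
      (X.C.unramT _ (qv i).2 (TC0.notT i) (A i) (hA i) (τ i) (hτ i)))
    (by rw [Fintype.card_fin]; exact hbig)
    (3 * ((ρ σ₀).trace + ((eps 2 * 3 : ℤ) : R))) (18 * eps 2) hN
    (fun v hv h => two_hbeta (hc₂ v hv h))
    (fun v hv h => by
      have h1 := Lift.IsTraceRing.rel_of_smul_eq_zero HR.isTraceRing HR.hcomm U hUgal uA hAeq hAV
        hAi σ₀ 2 hχσ (eps 2 * 3) hv.1 (hc₂ v hv h) 1
      rw [one_smul] at h1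
      have hvU : v ∈ UL p (↑(cutS T qv) : Set ℕ) W.apOfModel qv (lev M qv Finset.univ) a := by
        have h3 := mem_U1.1 hv.1
        rw [Xnew, mem_newPart_univ_iff] at h3
        exact ⟨h3.1.1, h3.1.2, h3.2⟩
      have h4 := embE_mem_UK Nat.prime_two h2lev hp (Ne.symm hp2) hqv2 hle1 hS2 hεε hA2 hσ₀ hvU
        (by rw [h1]; norm_num)
      rw [← U2_eq_UK] at h4
      exact ⟨_, h4, rfl⟩) hm
  refine ⟨G', hG'gal, hG'le, hG'c, ?_⟩
  exact (locSt_two_U2 hM h2M hqv2 hp hp2 hA2 hσ₀ (eps 2) hε τ HR.isTraceRing HR.hcomm hχσ hU'V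
    (by rw [mul_comm (eps 2) 3]) G' hG'gal hG'r).1

end Fermat.Agent.ML.At2.TwoC
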