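import Fermat.Agent.ML.Main.Cell
import Fermat.Agent.ML.Lift.OfRhoK
import Fermat.Agent.ML.TWFree.Inst.InBox
import Fermat.Agent.ML.At2.Ctrl.CubeInv

/-!
# ML / At2 / N2 / StepBox : `two_box` (h05 of the skeleton of `StepTwoStmt`)

`GenAt` (`τ i`-fixed ⟹ `I_(A i)`-fixed on the `p^(ν_i + 1)`-torsion of the `θ`-part) implies `CycOn` (every `σ ∈ I_(A i)` acts as a
power of `τ i`) : the image of the inertia group is a cyclic `p`-group `⟨τ₀⟩`, and `τ i = τ₀^k`; if `p ∤ k` then `τ i` is a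
generator, and if `p ∣ k` then `ker (τ₀^p - 1) ⊆ ker (τ₀ - 1)`, which forces `τ₀ = 1`.

* `StepBox.trivial_of_fixed` : the abstract lemma;
* `StepBox.cycOn_of_fixed` : `GenAt ⟹ CycOn`, one level;
* `two_box` : the intrinsic box `InBox` from the box of the generators `τ i`.
-/

set_option autoImplicit false
set_option linter.unusedSectionVars false

noncomputable section

open AlgebraicCurve ModularCurve

namespace Fermat.Agent.ML.At2

open Fermat.Agent.RIB Fermat.Agent.GAL Fermat.Agent.GAL.PC Fermat.Agent.ML.TWFree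
  Fermat.Agent.ML.ESide Fermat.Agent.ML.Lift Fermat.Agent.RIB.Rho

local notation "Qbar" => AlgebraicClosure ℚ
local notation "GQ" => (AlgebraicClosure ℚ ≃ₐ[ℚ] AlgebraicClosure ℚ)
local notation "M₂" => Matrix (Fin 2) (Fin 2)

namespace StepBox

section Abs

variable {J : Type*} [AddCommGroup J] [DistribMulAction GQ J]

theorem smul_nsmul' (g : GQ) (k : ℕ) (x : J) : g • (k • x) = k • (g • x) :=
  (DistribSMul.toAddMonoidHom J g).map_nsmul k x

/-- `τ x = x + y`, `τ y = y` ⟹ `τ^k x = x + k y`. -/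
theorem pow_smul_of_unip (τ : GQ) (x y : J) (h1 : τ • x = x + y) (h2 : τ • y = y) (k : ℕ) :
    τ ^ k • x = x + k • y := by
  induction k with
  | zero => simp
  | succ k ih =>
    rw [pow_succ', mul_smul, ih, smul_add, h1, smul_nsmul', h2, succ_nsmul]
    abel

/-- powers of a fixing element fix. -/
theorem pow_smul_fixed (τ : GQ) (x : J) (h : τ • x = x) (k : ℕ) : τ ^ k • x = x := by
  induction k with
  | zero => simp
  | succ k ih => rw [pow_succ, mul_smul, h, ih]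

/-- `g = g'` on the `g'`-stable `X` ⟹ `g^m = g'^m` on `X`. -/
theorem pow_smul_congr (X : AddSubgroup J) (g g' : GQ) (hst : ∀ x ∈ X, g' • x ∈ X)
    (h : ∀ x ∈ X, g • x = g' • x) (m : ℕ) : ∀ x ∈ X, g ^ m • x = g' ^ m • x := by
  induction m with
  | zero => intro x _; simp
  | succ m ih =>
    intro x hx
    rw [pow_succ, mul_smul, h x hx, ih _ (hst x hx), pow_succ, mul_smul]

/-- `(τ - 1)^(p^ν) = 0` on the `p`-torsion, when `τ^(p^ν) = 1`. -/
theorem nilp_of_ord {p : ℕ} (hp : p.Prime) (hp2 : p ≠ 2) (τ : GQ) (ν : ℕ) (y : J)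
    (hy : p • y = 0) (hord : τ ^ (p ^ ν) • y = y) :
    ((Box.uE τ - 1 : Module.End ℤ J) ^ (p ^ ν)) y = 0 := by
  have hc : Commute (Box.uE τ : Module.End ℤ J) (-1) := (Commute.one_right _).neg_right
  obtain ⟨r, hr⟩ := hc.exists_add_pow_prime_pow_eq hp ν
  have hodd : Odd (p ^ ν) := (hp.odd_of_ne_two hp2).pow
  rw [sub_eq_add_neg, hr, hodd.neg_one_pow, ← Box.uE_pow]
  have h1 : ∀ r' : Module.End ℤ J, ((p : Module.End ℤ J) * r') y = 0 := by
    intro r'
    have h2 : ((p : Module.End ℤ J) * r') = r' * (p : Module.End ℤ J) :=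
      (Nat.cast_commute p r').eq
    rw [h2, Module.End.mul_apply]
    have h3 : (p : Module.End ℤ J) y = p • y := by
      simp [Module.End.natCast_apply]
    rw [h3, hy, map_zero]
  rw [mul_assoc, mul_assoc]
  rw [LinearMap.add_apply, h1, add_zero, LinearMap.add_apply, Box.uE_apply, hord]
  simp

/-- **the abstract lemma** : `τ` of `p`-power order on the `p`-group `X`, with `ker (τ^p - 1) ⊆ ker (τ - 1)`, is trivial. -/
theorem trivial_of_fixed {p : ℕ} (hp : p.Prime) (hp2 : p ≠ 2) (X : AddSubgroup J) (τ : GQ)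
    (hst : ∀ x ∈ X, τ • x ∈ X) (e ν : ℕ) (hXe : ∀ x ∈ X, p ^ e • x = 0)
    (hord : ∀ x ∈ X, τ ^ (p ^ ν) • x = x) (H : ∀ x ∈ X, τ ^ p • x = x → τ • x = x) :
    ∀ x ∈ X, τ • x = x := by
  have hn : ∀ x ∈ X, τ • x - x ∈ X := fun x hx => X.sub_mem (hst x hx) hx
  have hnE : ∀ x : J, (Box.uE τ - 1 : Module.End ℤ J) x = τ • x - x := fun x => by
    rw [LinearMap.sub_apply, Box.uE_apply, Module.End.one_apply]
  have key : ∀ j : ℕ, ∀ x ∈ X, p ^ j • x = 0 → τ • x = x := by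
    intro j
    induction j with
    | zero =>
      intro x _ h0
      rw [pow_zero, one_smul] at h0
      rw [h0, smul_zero]
    | succ j ih =>
      have hpn : ∀ x ∈ X, p ^ (j + 1) • x = 0 → p • (τ • x - x) = 0 := by
        intro x hx h0
        have h1 := ih (p • x) (X.nsmul_mem hx p) (by rw [← mul_smul, ← pow_succ, h0])
        rw [smul_sub, ← smul_nsmul', h1, sub_self]
      have sub : ∀ k : ℕ, ∀ x ∈ X, p ^ (j + 1) • x = 0 →
          ((Box.uE τ - 1 : Module.End ℤ J) ^ k) (τ • x - x) = 0 → τ • x = x := by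
        intro k
        induction k with
        | zero =>
          intro x _ _ h
          rw [pow_zero, Module.End.one_apply] at h
          exact sub_eq_zero.1 h
        | succ k ihk =>
          intro x hx h0 h
          have h0' : p ^ (j + 1) • (τ • x - x) = 0 := by
            rw [smul_sub, ← smul_nsmul', h0, smul_zero, sub_self]
          rw [pow_succ, Module.End.mul_apply, hnE] at h
          have h2 : τ • (τ • x - x) = τ • x - x := ihk _ (hn x hx) h0' h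
          refine H x hx ?_
          rw [pow_smul_of_unip τ x (τ • x - x) (by abel) h2 p, hpn x hx h0, add_zero]
      intro x hx h0
      exact sub (p ^ ν) x hx h0
        (nilp_of_ord hp hp2 τ ν _ (hpn x hx h0) (hord _ (hn x hx)))
  exact fun x hx => key e x hx (hXe x hx)

end Abs

/-- **`GenAt ⟹ CycOn`**, one level. -/
theorem cycOn_of_fixed {p : ℕ} (hp : p.Prime) (hp2 : p ≠ 2) {S : Set ℕ} {θ : ℕ → ℤ} {N l : ℕ}
    [NeZero N] (hl : l.Prime) (hpl : p ≠ l) {A : ValuationSubring Qbar} (hA : A.LiesOverPrime l)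
    (e ν : ℕ)
    (hord : ∀ τ ∈ A.inertiaSubgroupIn ℚ, ∀ x ∈ thetaPart N p S θ, τ ^ (p ^ ν) • x = x)
    (τ : GQ) (hτ : τ ∈ A.inertiaSubgroupIn ℚ)
    (hfix : ∀ x ∈ thetaPart N p S θ, p ^ e • x = 0 → τ • x = x →
      ∀ σ ∈ A.inertiaSubgroupIn ℚ, σ • x = x) :
    CycOn p S θ (A.inertiaSubgroupIn ℚ) τ (p ^ e) N := by
  set X : AddSubgroup (JZero N) := thetaPart N p S θ ⊓ (nsmulAddMonoidHom (p ^ e)).ker with hX
  have hstX : ∀ g : GQ, ∀ x ∈ X, g • x ∈ X := fun g x hx => ⟨smul_mem_thetaPart g hx.1, by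
    have h2 : p ^ e • x = 0 := hx.2
    show p ^ e • (g • x) = 0
    rw [← smul_nsmul' g (p ^ e) x, h2, smul_zero]⟩
  obtain ⟨τ₀, hτ₀, hgen⟩ := exists_tau0_gen hl hA X (fun g _ x hx => hstX g x hx)
    (p ^ e) (pow_ne_zero _ hp.ne_zero) (fun x hx => hx.2) (p ^ ν)
    (Nat.Coprime.pow_left _ ((Nat.coprime_primes hp hl).2 hpl))
    (fun g hg x hx => hord g hg x hx.1)
  obtain ⟨k, hk⟩ := hgen τ hτ
  by_cases hpk : p ∣ k
  · -- `τ₀` is trivial
    obtain ⟨c, rfl⟩ := hpk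
    have htriv : ∀ x ∈ X, τ₀ • x = x := by
      refine trivial_of_fixed hp hp2 X τ₀ (hstX τ₀) e ν (fun x hx => hx.2)
        (fun x hx => hord τ₀ hτ₀ x hx.1) (fun x hx h => ?_)
      refine hfix x hx.1 hx.2 ?_ τ₀ hτ₀
      rw [hk x hx, pow_mul, pow_smul_fixed _ x h]
    intro σ hσ
    obtain ⟨j, hj⟩ := hgen σ hσ
    refine ⟨0, fun x hx hx0 => ?_⟩
    rw [hj x ⟨hx, hx0⟩, pow_smul_fixed _ x (htriv x ⟨hx, hx0⟩), pow_zero, one_smul]
  · -- `τ` is a generator
    have hcop : Nat.Coprime k (p ^ (ν + 1)) :=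
      Nat.Coprime.pow_right _ (((Nat.Prime.coprime_iff_not_dvd hp).2 hpk).symm)
    obtain ⟨k', -, hk'⟩ := Nat.exists_mul_mod_eq_one_of_coprime hcop
      (Nat.one_lt_pow (Nat.succ_ne_zero ν) hp.one_lt)
    have hone : ∀ x ∈ X, τ ^ k' • x = τ₀ • x := by
      intro x hx
      rw [pow_smul_congr X τ (τ₀ ^ k) (hstX _) hk k' x hx, ← pow_mul,
        ← Nat.div_add_mod (k * k') (p ^ (ν + 1)), hk', pow_add, pow_one, mul_smul, pow_mul,
        pow_succ, pow_mul]
      exact pow_smul_fixed _ _ (pow_smul_fixed _ _ (hord τ₀ hτ₀ _ (hstX τ₀ x hx).1) _) _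
    intro σ hσ
    obtain ⟨j, hj⟩ := hgen σ hσ
    refine ⟨k' * j, fun x hx hx0 => ?_⟩
    rw [hj x ⟨hx, hx0⟩, pow_mul,
      pow_smul_congr X (τ ^ k') τ₀ (hstX _) hone j x ⟨hx, hx0⟩]

end StepBox

variable {W : WeierstrassCurve ℤ} {p : ℕ} [Fact p.Prime] {T : Finset ℕ}
  {b : Module.Basis (Fin 2) (ZMod p) (TorsW W p)} {L₀ : ℕ} [NeZero L₀] {eps : ℕ → ℤ} {eP : GQ → ℤ}

/-- **h05** : `InBox` (all the inertia elements) from the box of the generators `τ i`. -/
theorem two_box (X : LCtx W p T b L₀ eps eP) {M : ℕ} [NeZero M] (hM : L₀ = M * 4)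
    {t a n : ℕ} {qv : Fin t → Nat.Primes} (TC : MTW p T W.apOfModel (M * 2 * 2) t n qv)
    (han : a ≤ n)
    {A : Fin t → ValuationSubring Qbar} {τ : Fin t → GQ}
    (hA : ∀ i, (A i).LiesOverPrime ((qv i : Nat.Primes) : ℕ))
    (hτ : ∀ i, τ i ∈ (A i).inertiaSubgroupIn ℚ)
    (hgen : GenAt p T W.apOfModel (M * 2 * 2) qv A τ)
    (G : AddSubgroup (JZero (lvl L₀ (extP qv) t)))
    (hle : G ≤ thetaPart (lvl L₀ (extP qv) t) p (↑(cutS T qv) : Set ℕ) W.apOfModel)
    (hgal : ∀ g : GQ, ∀ x ∈ G, g • x ∈ G) (hGa : ∀ x ∈ G, p ^ a • x = 0)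
    (hz : ∀ i, ∀ x ∈ G, (Lift.zOp (τ i))^[a] x = 0) : ∀ x ∈ G, InBox p qv a x := by
  have hp : p.Prime := Fact.out
  have elev : lev (M * 2 * 2) qv Finset.univ = lvl L₀ (extP qv) t := by
    rw [lvl_eq_lev, hM, mul_assoc]
    norm_num
  have hcyc : ∀ i, CycOn p (↑(cutS T qv) : Set ℕ) W.apOfModel ((A i).inertiaSubgroupIn ℚ) (τ i)
      (p ^ (nuP p qv i + 1)) (lvl L₀ (extP qv) t) := by
    intro i
    have hpl : p ≠ ((qv i : Nat.Primes) : ℕ) := fun h => TC.notT i (h ▸ X.C.p_mem)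
    have hrho := Low.rhoOrd X.C (cutS T qv) (subset_cutS T qv) (lev (M * 2 * 2) qv Finset.univ)
      (fun r hr hd => Tau.mem_cutS_lev TC _ hr hd) (qv i).2 (TC.notT i)
      (le_trans (Nat.le_add_left 1 n) (TC.le_nuP i)) (Tau.pow_nuP_dvd qv i)
      (Tau.not_pow_nuP_succ_dvd qv i) (TC.disc i) (hA i)
    exact (StepBox.cycOn_of_fixed hp X.C.hp2 (qv i).2 hpl (hA i) (nuP p qv i + 1) (nuP p qv i)
      hrho (τ i) (hτ i) (hgen i Finset.univ)).cast elev
  exact inBox_of_cyc hA hcyc (le_nuP_succ_of_le TC han) G hle hgal hGa hz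

end Fermat.Agent.ML.At2
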