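import Fermat.Agent.ML.At2.N2.RaiseLev
import Fermat.Agent.ML.At2.N2.StepMaps
import Fermat.Agent.ML.At2.N2.Cyc421

/-!
# ML / At2 / N2 / StepLev : **StepTwoStmt**   (LEV-form : `U1`, `U2`, `uOdd`, `uTwo`)

`stepTwoStmt_lev : LowerStmt → StepTwoStmt`  (`F₀ = 18`, `C₀ = dTwo * 18 * numS (p ^ dTwo) t`).
-/

set_option autoImplicit false
set_option linter.unusedSectionVars false

noncomputable section

open AlgebraicCurve ModularCurve

namespace Fermat.Agent.ML.At2.TwoC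

open Fermat.Agent.RIB Fermat.Agent.GAL Fermat.Agent.GAL.PC Fermat.Agent.ML.TWFree
  Fermat.Agent.ML.ESide Fermat.Agent.ML.Lift Fermat.Agent.RIB.Rho Fermat.Agent.ML.At2

local notation "Qbar" => AlgebraicClosure ℚ
local notation "GQ" => (AlgebraicClosure ℚ ≃ₐ[ℚ] AlgebraicClosure ℚ)
local notation "M₂" => Matrix (Fin 2) (Fin 2)

variable {W : WeierstrassCurve ℤ} {p : ℕ} [Fact p.Prime] {T : Finset ℕ}
  {b : Module.Basis (Fin 2) (ZMod p) (TorsW W p)} {L₀ : ℕ} [NeZero L₀] {eps : ℕ → ℤ} {eP : GQ → ℤ}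

/-- the cell. -/
theorem two_cell (hLow : LowerStmt) (X : LCtx W p T b L₀ eps eP) (h2 : 2 ∈ Pfin W (rbarB b) L₀)
    {M : ℕ} [NeZero M] (hM : L₀ = M * 4) (hodd : Odd M) {t a m n K : ℕ} {qv : Fin t → Nat.Primes}
    (F : Frm p X.C.hp2 T W.apOfModel (rbarB b) t 18
      (dTwo p M t * 18 * numS (p ^ dTwo p M t) t) a m n K qv) :
    ∃ G : AddSubgroup (JZero (lvl L₀ (extP qv) t)),
      IsCell p T W.apOfModel (rbarB b) eps eP L₀ qv a {2} G ∧ p ^ (m ^ (t + 1)) ≤ Nat.card G := by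
  have hP : ({2} : Finset ℕ) ⊆ Pfin W (rbarB b) L₀ := Finset.singleton_subset_iff.2 h2
  have hLc : L₀ = cellLevel L₀ {2} := by simp [cellLevel]
  have TC0 : MTW p T W.apOfModel L₀ t n qv := X.cellMk_mtw F hP hLc
  have TC : MTW p T W.apOfModel (M * 2 * 2) t n qv := by
    have : L₀ = M * 2 * 2 := by rw [hM]; ring
    rw [← this]; exact TC0
  have h2M : ¬ 2 ∣ M := fun h => (Nat.not_even_iff_odd.2 hodd) (even_iff_two_dvd.2 h)
  obtain ⟨A, τ, hA, hτ, -, -, -, -, C2, C1, hcyc⟩ := exists_isCube_421_cyc X.C TC h2M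
  obtain ⟨G, hgal, hGU, hbig, hst⟩ := two_raise hLow X h2 hM hodd F hA hτ C2 C1
  have hGU' := hGU.trans (boxG_le τ _)
  have hle := hGU'.trans (two_le X hM TC.notT)
  have hp2 : p ∉ ({2} : Finset ℕ) := fun h => X.C.hp2 (Finset.mem_singleton.1 h)
  refine ⟨G, X.isCell_of' hLow F hP hp2 L₀ hLc G hle hgal ?_ ?_ ?_ ?_ ?_, hbig⟩
  · exact two_box_cyc hM TC (frm_a_le_n F) hA hcyc G hle hgal (fun x hx => (hGU hx).2.1)
      (fun i x hx => (hGU hx).2.2 i)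
  · exact fun x hx => two_new X hM TC.notT TC.inj x (hGU' hx)
  · intro q hq
    rw [Finset.mem_singleton.1 hq]
    exact hst
  · exact fun _ h => absurd (Finset.mem_singleton_self 2) h
  · intro _ A' hA' τ₁ h1 τ₂ h2' x hx
    exact two_unip X hM hodd TC.notT A' hA' τ₁ h1 τ₂ h2' x (hGU' hx)

/-- **(C-STEP-2)**. -/
theorem stepTwoStmt_lev (hLow : LowerStmt) : StepTwoStmt := by
  intro W p _ T b L₀ _ eps eP X t h2
  obtain ⟨M, hM, hodd, -⟩ := X.BP.shape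
  have : NeZero M := ⟨by rintro rfl; exact (NeZero.ne L₀) (by rw [hM, Nat.zero_mul])⟩
  refine ⟨18, dTwo p M t * 18 * numS (p ^ dTwo p M t) t, fun a m n K qv F _ Lc _ hLc => ?_⟩
  have hLc' : Lc = L₀ := by rw [hLc]; simp [cellLevel]
  subst hLc'
  exact two_cell hLow X h2 hM hodd F

end Fermat.Agent.ML.At2.TwoC
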