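import Fermat.Agent.ML.Lift.Soft.Asm
import Fermat.Agent.ML.Lift.Soft.MidLoc
import Fermat.Agent.ML.Raise.SoftTop
import Fermat.Agent.ML.At2.N2.Gen
import Fermat.Agent.ML.At2.N2.Cyc421
import Fermat.Agent.ML.At2.N2.NumLvl
import Fermat.Agent.ML.At2.N2.Lower
import Fermat.Agent.ML.Main.CellMk2
import Fermat.Agent.ML.Lift.Base.Loc
import Fermat.Agent.ML.Lift.Base.Maps

/-!
# ML / At2 / N2 / StepSoft2 : `StepTwoStmt`, SECOND SOURCE   (the first one is `At2.stepTwoStmt_lvl`, `ML/At2/N2/Raise2.lean`)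

The stage `q = 2` is a SOFT step at the non-rigid levels `N₁ = lvl M` (odd), `N₂ = lvl (M * 2)` (`Lift.step_core`, `exists_softAt_top`,
`two_mid`, `num_lvl`, `numK_lvl`); the output is pushed to `lvl (M * 2 * 2)` by `upE`.   All the names are in `At2.R2`.
-/

set_option autoImplicit false
set_option linter.unusedSectionVars false

noncomputable section

open AlgebraicCurve ModularCurve

namespace Fermat.Agent.ML.At2.R2

open Fermat.Agent.RIB Fermat.Agent.RIB.Rho Fermat.Agent.GAL Fermat.Agent.GAL.PC Fermat.Agent.ML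
  Fermat.Agent.ML.TWFree Fermat.Agent.ML.ESide Fermat.Agent.ML.Lift Fermat.Agent.ML.Raise
  Fermat.Agent.ML.StepGen Fermat.Agent.ML.At2

local notation "Qbar" => AlgebraicClosure ℚ
local notation "GQ" => (AlgebraicClosure ℚ ≃ₐ[ℚ] AlgebraicClosure ℚ)
local notation "M₂" => Matrix (Fin 2) (Fin 2)


/-! ### the box is Galois stable -/

theorem boxG_gal {p : ℕ} [Fact p.Prime] {T : Finset ℕ} {θ : ℕ → ℤ} {rbar0 : GQ →* M₂ (ZMod p)}
    (EC : MCtx p T θ rbar0) (S : Finset ℕ) (hTS : T ⊆ S) {N : ℕ} [NeZero N]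
    (hN : ∀ r : ℕ, r.Prime → r ∣ N * p → r ∈ S) {t : ℕ} {qv : Fin t → Nat.Primes}
    {A : Fin t → ValuationSubring Qbar} {τ : Fin t → GQ}
    (hA : ∀ i, (A i).LiesOverPrime ((qv i : Nat.Primes) : ℕ))
    (hτ : ∀ i, τ i ∈ (A i).inertiaSubgroupIn ℚ) (hlp : ∀ i, ((qv i : Nat.Primes) : ℕ) ≠ p)
    (a : ℕ) (U : AddSubgroup (JZero N)) (hU : ∀ g : GQ, ∀ x ∈ U, g • x ∈ U) :
    ∀ g : GQ, ∀ x ∈ boxG p a τ U, g • x ∈ boxG p a τ U := by
  intro g x hx
  obtain ⟨h1, h2, h3⟩ := mem_boxG.1 hx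
  have hsm : ∀ y : JZero N, p ^ a • y = 0 → p ^ a • (g • y) = 0 := by
    intro y hy
    rw [smul_comm, hy]
    exact smul_zero (A := JZero N) g
  refine mem_boxG.2 ⟨hU g x h1, hsm x h2, fun i => ?_⟩
  have hcen : ∀ y : JZero N, p ^ a • y = 0 →
      Lift.zOp (τ i) (g • y) = g • Lift.zOp (τ i) y := fun y hy =>
    zop_comm_tors EC S hTS N hN a
      (fun ζ hζ => inertia_fix_roots (qv i).2 (hlp i) (hA i) (hτ i) a ζ hζ) g y hy
  have key : ∀ (k : ℕ) (y : JZero N), p ^ a • y = 0 →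
      (Lift.zOp (τ i))^[k] (g • y) = g • (Lift.zOp (τ i))^[k] y := by
    intro k
    induction k with
    | zero => intro y _; rfl
    | succ k ih =>
      intro y hy
      rw [Function.iterate_succ_apply, Function.iterate_succ_apply, hcen y hy]
      exact ih _ (by rw [← map_nsmul, hy, map_zero])
  rw [key a x h2, h3 i]
  exact smul_zero (A := JZero N) g

variable {W : WeierstrassCurve ℤ} {p : ℕ} [Fact p.Prime] {T : Finset ℕ}
  {b : Module.Basis (Fin 2) (ZMod p) (TorsW W p)} {L₀ : ℕ} [NeZero L₀] {eps : ℕ → ℤ} {eP : GQ → ℤ}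

/-- the alternative at `p` for the stage module. -/
theorem two_low_atp (hLow : LowerStmt) (X : LCtx W p T b L₀ eps eP) {M : ℕ} [NeZero M]
    (hM : L₀ = M * 2 * 2) {t F₀ C₀ a m n K : ℕ} {qv : Fin t → Nat.Primes}
    (F : Frm p X.C.hp2 T W.apOfModel (rbarB b) t F₀ C₀ a m n K qv)
    (G : AddSubgroup (JZero (lvl M (extP qv) t)))
    (hle : G ≤ thetaPart (lvl M (extP qv) t) p (↑(cutS T qv) : Set ℕ) W.apOfModel)
    (hgal : ∀ g : GQ, ∀ x ∈ G, g • x ∈ G) (hpa : ∀ x ∈ G, p ^ a • x = 0) :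
    FlatData p (upE (lvl_mul_q (rfl : M * 2 = M * 2) qv) 0 '' (G : Set (JZero (lvl M (extP qv) t)))) ∨
      ((∀ s ∈ (S56.Flat.Ap p).inertiaSubgroupIn ℚ, eP s = 1) ∧ LocPSt p eP (K + 1)
        (upE (lvl_mul_q (rfl : M * 2 = M * 2) qv) 0 '' (G : Set (JZero (lvl M (extP qv) t))))) := by
  have hp : p.Prime := Fact.out
  have h12 : lvl (M * 2) (extP qv) t = lvl M (extP qv) t * 2 :=
    lvl_mul_q (rfl : M * 2 = M * 2) qv
  have h24 : lvl L₀ (extP qv) t = lvl (M * 2) (extP qv) t * 2 := lvl_mul_q hM qv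
  have hP : (∅ : Finset ℕ) ⊆ Pfin W (rbarB b) L₀ := Finset.empty_subset _
  have hLc : L₀ = cellLevel L₀ ∅ := by simp [cellLevel]
  have TC : MTW p T W.apOfModel L₀ t n qv := X.cellMk_mtw F hP hLc
  have haK : a ≤ K + 1 := F.hK.trans (Nat.le_succ K)
  have hS4 : ∀ r : ℕ, r.Prime → r ∉ (↑(cutS T qv) : Set ℕ) → ¬ r ∣ lvl L₀ (extP qv) t * p :=
    fun r hr hrS hd => hrS (by
      rw [lvl_eq_lev] at hd
      exact Finset.mem_coe.2 (TC.toMTW0.mem_cutS_lev Finset.univ hr hd))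
  have hS2 : ∀ r : ℕ, r.Prime → r ∉ (↑(cutS T qv) : Set ℕ) →
      ¬ r ∣ lvl (M * 2) (extP qv) t * p := fun r hr hrS hd =>
    hS4 r hr hrS (hd.trans (Nat.mul_dvd_mul_right (h24 ▸ Dvd.intro _ rfl) p))
  by_cases hpL : p ∣ L₀
  · right
    have hpΔ : (p : ℤ) ∣ W.Δ := by
      by_contra hg
      exact X.BP.goodp hg hpL
    refine ⟨(X.sgnP hpΔ).2.1, ?_⟩
    have h4 : LocPSt p eP a ((G.map ((upE h24 0).comp (upE h12 0)) :
        AddSubgroup (JZero (lvl L₀ (extP qv) t))) : Set (JZero (lvl L₀ (extP qv) t))) := by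
      refine X.cellMk_atp_Ma hLow F hP hpL L₀ hLc ?_ ?_ ?_
      · rintro _ ⟨v, hv, rfl⟩
        exact upE_mem_thetaPart h24 hS4 0 (upE_mem_thetaPart h12 hS2 0 (hle hv))
      · rintro g _ ⟨v, hv, rfl⟩
        refine ⟨g • v, hgal g v hv, ?_⟩
        show upE h24 0 (upE h12 0 (g • v)) = g • upE h24 0 (upE h12 0 v)
        rw [upE_smul, upE_smul]
      · rintro _ ⟨v, hv, rfl⟩
        rw [← map_nsmul, hpa v hv, map_zero]
    have hHgal : ∀ g : GQ, ∀ y ∈ G.map (upE h12 0), g • y ∈ G.map (upE h12 0) := by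
      rintro g _ ⟨v, hv, rfl⟩
      exact ⟨g • v, hgal g v hv, upE_smul h12 0 g v⟩
    have hHa : ∀ y ∈ G.map (upE h12 0), p ^ a • y = 0 := by
      rintro _ ⟨v, hv, rfl⟩
      rw [← map_nsmul, hpa v hv, map_zero]
    intro s₁ h₁ s₂ h₂ x hx c hc
    obtain ⟨v, hv, rfl⟩ := hx
    have key := (FinGen.locPSt_mono haK h4) s₁ h₁ s₂ h₂ _ ⟨v, hv, rfl⟩ c hc
    have hy : upE h12 0 v ∈ G.map (upE h12 0) := ⟨v, hv, rfl⟩
    have hw : s₂ • upE h12 0 v - eP s₂ • upE h12 0 v ∈ G.map (upE h12 0) :=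
      AddSubgroup.sub_mem _ (hHgal s₂ _ hy) (AddSubgroup.zsmul_mem _ hy _)
    have hz : s₁ • (s₂ • upE h12 0 v - eP s₂ • upE h12 0 v) -
        ((c : ℤ) * eP s₁) • (s₂ • upE h12 0 v - eP s₂ • upE h12 0 v) ∈ G.map (upE h12 0) :=
      AddSubgroup.sub_mem _ (hHgal s₁ _ hw) (AddSubgroup.zsmul_mem _ hw _)
    refine sub_eq_zero.1 (upE_eq_zero_of_torsion Nat.prime_two h24 0 (pow_ne_zero a hp.ne_zero)
      (hHa _ hz) ?_)
    rw [map_sub, map_zsmul, upE_smul, map_sub, map_zsmul, upE_smul, sub_eq_zero]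
    exact key
  · left
    refine ⟨lvl M (extP qv) t, inferInstance, G, upE h12 0, a, ?_,
      fun g v => upE_smul h12 0 g v, hgal,
      fun v hv h0 => upE_eq_zero_of_torsion Nat.prime_two h12 0 (pow_ne_zero a hp.ne_zero)
        (hpa v hv) h0, hpa, ?_⟩
    · intro hd
      rcases dvd_lvl_cases t hp hd with h | ⟨j, hj⟩
      · exact hpL (hM ▸ (h.mul_right 2).mul_right 2)
      · exact TC.notT j (hj ▸ X.C.p_mem)
    · rintro _ ⟨v, hv, rfl⟩
      exact ⟨v, hv, rfl⟩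


/-- an odd prime square does not divide `M * 2`, `M` squarefree. -/
theorem not_sq_dvd_two_mul {M v : ℕ} (hsq : Squarefree M) (hv : v.Prime) (hv2 : v ≠ 2) :
    ¬ v ^ 2 ∣ M * 2 := by
  intro h
  have hc : Nat.Coprime (v ^ 2) 2 :=
    Nat.Coprime.pow_left _ ((Nat.coprime_primes hv Nat.prime_two).2 hv2)
  have h1 : v ^ 2 ∣ M := hc.dvd_of_dvd_mul_right h
  rw [pow_two] at h1
  exact hv.one_lt.ne' (Nat.isUnit_iff.1 (hsq v h1))

/-- `p² ∤ 6 ε`. -/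
theorem two_hN {p : ℕ} (hp : p.Prime) (hp2 : p ≠ 2) {ε : ℤ} (hε : ε = 1 ∨ ε = -1) :
    ¬ (p : ℤ) ^ (1 + 1) ∣ 2 * ε * ((((twoPr : Nat.Primes) : ℕ) : ℤ) + 1) := by
  have h3 : ((((twoPr : Nat.Primes) : ℕ) : ℤ) + 1) = 3 := by
    show (((2 : ℕ) : ℤ) + 1) = 3
    norm_num
  rw [h3]
  intro hd
  have h6 : (p : ℤ) ^ (1 + 1) ∣ 6 := by
    rcases hε with h | h
    · rw [h] at hd
      simpa using hd
    · rw [h] at hd
      have := (dvd_neg (a := (p : ℤ) ^ (1 + 1))).2 hd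
      simpa using this
  have hp3 : (3 : ℤ) ≤ p := by
    have h1 := hp.two_le
    have : 3 ≤ p := by omega
    exact_mod_cast this
  have h7 := Int.le_of_dvd (by norm_num) h6
  have h8 : (p : ℤ) ^ (1 + 1) = p * p := by ring
  nlinarith

/-- `c x = 0 ⟹ c' x = 2 ε (q+1) x`. -/
theorem two_val {R V : Type*} [CommRing R] [AddCommGroup V] [Module R V] (s : R) (ε : ℤ) (q : ℕ)
    {x : V} (hx : (s - (ε : R) * ((q : R) + 1)) • x = 0) :
    (s + (ε : R) * ((q : R) + 1)) • x = (2 * ε * ((q : ℤ) + 1)) • x := by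
  have e : s + (ε : R) * ((q : R) + 1) =
      (s - (ε : R) * ((q : R) + 1)) + ((2 * ε * ((q : ℤ) + 1) : ℤ) : R) := by
    push_cast
    ring
  rw [e, add_smul, hx, zero_add, Int.cast_smul_eq_zsmul]

set_option maxHeartbeats 1600000 in
/-- the cell. -/
theorem two_cell (hLow : LowerStmt) (X : LCtx W p T b L₀ eps eP) (h2 : 2 ∈ Pfin W (rbarB b) L₀)
    {M : ℕ} [NeZero M] (hM : L₀ = M * 2 * 2) (h2M : ¬ 2 ∣ M) (hsq : Squarefree M) {e : ℕ}
    (he : Nat.card ↥(WS M p (↑T : Set ℕ) W.apOfModel) = p ^ e)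
    {t a m n K : ℕ} {qv : Fin t → Nat.Primes}
    (F : Frm p X.C.hp2 T W.apOfModel (rbarB b) t 2
      (2 ^ t * e * 1 * (p ^ (2 ^ t * e) * (t + 1)) ^ t) a m n K qv) :
    ∃ G : AddSubgroup (JZero (lvl L₀ (extP qv) t)),
      IsCell p T W.apOfModel (rbarB b) eps eP L₀ qv a {2} G ∧ p ^ (m ^ (t + 1)) ≤ Nat.card G := by
  have hp : p.Prime := Fact.out
  have h2p : (2 : ℕ) ≠ p := Ne.symm X.C.hp2
  have hM4 : L₀ = M * 4 := by rw [hM]; ring
  have hP : ({2} : Finset ℕ) ⊆ Pfin W (rbarB b) L₀ := Finset.singleton_subset_iff.2 h2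
  have hLc : L₀ = cellLevel L₀ {2} := by simp [cellLevel]
  have TC4 : MTW p T W.apOfModel L₀ t n qv := X.cellMk_mtw F hP hLc
  have TC4' : MTW p T W.apOfModel (M * 2 * 2) t n qv := hM ▸ TC4
  have TC2 : MTW0 p T W.apOfModel (M * 2) t n qv :=
    ⟨TC4.inj, TC4.notT, TC4.pow, TC4.disc, fun r hr hd => TC4'.lev r hr
      (hd.trans (Nat.mul_dvd_mul_right (Dvd.intro _ rfl) p))⟩
  have TC1 : MTW0 p T W.apOfModel M t n qv :=
    ⟨TC4.inj, TC4.notT, TC4.pow, TC4.disc, fun r hr hd => TC2.lev r hr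
      (hd.trans (Nat.mul_dvd_mul_right (Dvd.intro _ rfl) p))⟩
  have ha1 : 1 ≤ a := by have := F.ha; omega
  have h2a : 2 * a ≤ n + 1 := by have := F.hn; omega
  have han : a ≤ n := by have := F.hn; omega
  have haK : a ≤ K + 1 := F.hK.trans (Nat.le_succ K)
  have hma : m ≤ a := by
    have := F.ha
    nlinarith [Nat.zero_le (t * m)]
  have h2Δ := X.dvd_of_mem_Pfin h2
  have h2T : 2 ∈ T := X.hbadT 2 Nat.prime_two h2Δ
  have hqv : ∀ i, ((qv i : Nat.Primes) : ℕ) ≠ 2 := fun i h => TC4.notT i (h ▸ h2T)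
  have hqvp : ∀ i, ((qv i : Nat.Primes) : ℕ) ≠ p := fun i h => TC4.notT i (h ▸ X.C.p_mem)
  have hεc := (X.sgn 2 Nat.prime_two h2p h2Δ).1
  have hε : eps 2 * eps 2 = 1 := by rcases hεc with h | h <;> rw [h] <;> norm_num
  obtain ⟨A, τ, hA, hτ, -, -, -, -, C2, C1, hcyc⟩ := exists_isCube_421_cyc X.C TC4' h2M
  -- the levels
  have h12 : lvl (M * 2) (extP qv) t = lvl M (extP qv) t * 2 :=
    lvl_mul_q (rfl : M * 2 = M * 2) qv
  have h24 : lvl L₀ (extP qv) t = lvl (M * 2) (extP qv) t * 2 := lvl_mul_q hM qv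
  have hS1 : ∀ r : ℕ, r.Prime → r ∣ lvl M (extP qv) t * p → r ∈ cutS T qv := fun r hr hd => by
    rw [lvl_eq_lev] at hd
    exact TC1.mem_cutS_lev Finset.univ hr hd
  have hS2 : ∀ r : ℕ, r.Prime → r ∣ lvl (M * 2) (extP qv) t * p → r ∈ cutS T qv :=
    fun r hr hd => by
      rw [lvl_eq_lev] at hd
      exact TC2.mem_cutS_lev Finset.univ hr hd
  have hS4 : ∀ r : ℕ, r.Prime → r ∉ (↑(cutS T qv) : Set ℕ) → ¬ r ∣ lvl L₀ (extP qv) t * p :=
    fun r hr hrS hd => hrS (by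
      rw [lvl_eq_lev] at hd
      exact Finset.mem_coe.2 (TC4.toMTW0.mem_cutS_lev Finset.univ hr hd))
  have h2N1 : ¬ 2 ∣ lvl M (extP qv) t := by
    intro hd
    rcases dvd_lvl_cases t Nat.prime_two hd with h | ⟨j, hj⟩
    · exact h2M h
    · exact hqv j hj.symm
  have h2N1p : ¬ 2 ∣ lvl M (extP qv) t * p := by
    intro hd
    rcases (Nat.Prime.dvd_mul Nat.prime_two).1 hd with h | h
    · exact h2N1 h
    · exact h2p ((Nat.prime_dvd_prime_iff_eq Nat.prime_two hp).1 h)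
  -- (NUM)
  obtain ⟨D, hD⟩ := numK_lvl X.C TC2 Nat.prime_two (rfl : M * 2 = M * 2) h2M hA hτ C2 C1
  have hn1 := num_lvl X.C TC1 hA hτ C1 he rfl ha1 h2a
    (Ulow p (↑(cutS T qv) : Set ℕ) W.apOfModel qv (lvl M (extP qv) t) a) (fun _ => Iff.rfl)
  have hn2 := hD _ _ rfl rfl h12 a ha1 h2a
    (Uup p (↑(cutS T qv) : Set ℕ) W.apOfModel qv h12 a) (fun _ => Iff.rfl)
  -- the input state
  have hGgal := boxG_gal X.C (cutS T qv) (subset_cutS T qv) hS1 hA hτ hqvp a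
    (Ulow p (↑(cutS T qv) : Set ℕ) W.apOfModel qv (lvl M (extP qv) t) a) (Ulow_gal a)
  have he1 : 1 ≤ e := by
    have hne := ws_odd_ne_bot X h2 hM4 qv
    rw [X.C.WS_eq (subset_cutS T qv) TC1.lev] at hne
    rcases Nat.eq_zero_or_pos e with h0 | h0
    · rw [h0, pow_zero] at he
      exact absurd ((AddSubgroup.eq_bot_iff_card _).2 he) hne
    · exact h0
  have hGc : p ^ (m ^ (t + 1)) ≤ Nat.card ↥(boxG p a τ
      (Ulow p (↑(cutS T qv) : Set ℕ) W.apOfModel qv (lvl M (extP qv) t) a)) := by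
    refine le_trans (Nat.pow_le_pow_right hp.pos ?_) hn1.2
    calc m ^ (t + 1) ≤ a ^ (t + 1) := Nat.pow_le_pow_left hma _
      _ = 1 * a ^ (t + 1) := (one_mul _).symm
      _ ≤ 2 ^ t * e * a ^ (t + 1) :=
        Nat.mul_le_mul_right _ (Nat.mul_pos (pow_pos (by norm_num) t) he1)
  have hm0 : 0 < m ^ (t + 1) := lt_of_le_of_lt (Nat.zero_le _) F.hC
  obtain ⟨v₀, hv₀, hv₀0⟩ : ∃ v ∈ boxG p a τ
      (Ulow p (↑(cutS T qv) : Set ℕ) W.apOfModel qv (lvl M (extP qv) t) a), v ≠ 0 := by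
    by_contra hcon
    push Not at hcon
    have hbot : boxG p a τ
        (Ulow p (↑(cutS T qv) : Set ℕ) W.apOfModel qv (lvl M (extP qv) t) a) = ⊥ :=
      (AddSubgroup.eq_bot_iff_forall _).2 hcon
    rw [hbot] at hGc
    have h1 : Nat.card ↥(⊥ : AddSubgroup (JZero (lvl M (extP qv) t))) = 1 :=
      Nat.card_eq_one_iff_unique.2 ⟨inferInstance, inferInstance⟩
    rw [h1] at hGc
    exact absurd hGc (not_le.2 (Nat.one_lt_pow hm0.ne' hp.one_lt))
  -- the ring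
  obtain ⟨B, hTop, hEK, R, _, _, _, _, _, πE, ρ, Φ, HR⟩ :=
    exists_topRho (b := b) (N := lvl (M * 2) (extP qv) t) X.H.hΔ X.H.hss X.C.hp2 X.H.hirr X.C.nf K
      (cutS T qv) hS2
      (fun r hr hrS hd => hrS (subset_cutS T qv (X.hbadT r hr hd)))
      (thTors p (↑(cutS T qv) : Set ℕ) W.apOfModel (lvl (M * 2) (extP qv) t) (K + 1))
      (thTors_gal (K + 1)) (fun x hx => hx.2) (fun x hx => hx.1)
  -- the Frobenius at `2`
  have hA2 : (ExtCitation.primeLocalPlace twoPr).LiesOverPrime 2 :=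
    CFT.LS.liesOverPrime_primeLocalPlace twoPr
  obtain ⟨σ₀, hσ₀⟩ := S56.exists_isFrobeniusAt Nat.prime_two hA2
  have hv2 : ¬ ((twoPr : Nat.Primes) : ℕ) ^ 2 ∣ lvl (M * 2) (extP qv) t := by
    refine not_sq_dvd_lvl_of Nat.prime_two (fun j => (hqv j).symm) ?_ t
    intro hd
    apply h2M
    have h4 : 2 * 2 ∣ M * 2 := by simpa [pow_two] using hd
    exact Nat.dvd_of_mul_dvd_mul_right (by norm_num) h4
  obtain ⟨bv, hSoft⟩ := exists_softAt_top X.C hTop HR twoPr h2p hv2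
    (X.not_ram_of_mem_Pfin h2 h2p) hε (FinGen.locSt_EM B X.sgn Nat.prime_two h2p h2Δ) hσ₀
    (not_scalar_two X h2 _ hA2 σ₀ hσ₀)
  -- the stage module
  have hS2' : ∀ r : ℕ, r.Prime → r ∉ (↑(cutS T qv) : Set ℕ) → ¬ r ∣ lvl (M * 2) (extP qv) t * p :=
    fun r hr hrS hd => hrS (hS2 r hr hd)
  have hG₁gal : ∀ s : GQ, ∀ x ∈ (boxG p a τ
      (Ulow p (↑(cutS T qv) : Set ℕ) W.apOfModel qv (lvl M (extP qv) t) a)).map (upE h12 0),
      s • x ∈ (boxG p a τ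
      (Ulow p (↑(cutS T qv) : Set ℕ) W.apOfModel qv (lvl M (extP qv) t) a)).map (upE h12 0) := by
    rintro s _ ⟨v, hv, rfl⟩
    exact ⟨s • v, hGgal s v hv, upE_smul h12 0 s v⟩
  have hG₁le : (boxG p a τ
      (Ulow p (↑(cutS T qv) : Set ℕ) W.apOfModel qv (lvl M (extP qv) t) a)).map (upE h12 0) ≤
      thTors p (↑(cutS T qv) : Set ℕ) W.apOfModel (lvl (M * 2) (extP qv) t) (K + 1) := by
    rintro _ ⟨v, hv, rfl⟩
    exact upE_mem_thTors h12 hS2' haK 0 v hv.1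
  have hG₁0 : (boxG p a τ
      (Ulow p (↑(cutS T qv) : Set ℕ) W.apOfModel qv (lvl M (extP qv) t) a)).map (upE h12 0) ≠ ⊥ := by
    intro hbot
    have h1 : upE h12 0 v₀ ∈ (boxG p a τ
      (Ulow p (↑(cutS T qv) : Set ℕ) W.apOfModel qv (lvl M (extP qv) t) a)).map (upE h12 0) :=
      ⟨v₀, hv₀, rfl⟩
    rw [hbot, AddSubgroup.mem_bot] at h1
    exact hv₀0 (upE_eq_zero_of_torsion Nat.prime_two h12 0 (pow_ne_zero a hp.ne_zero) hv₀.2.1 h1)
  have htG : ∀ x ∈ ((boxG p a τ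
      (Ulow p (↑(cutS T qv) : Set ℕ) W.apOfModel qv (lvl M (extP qv) t) a) :
      AddSubgroup (JZero (lvl M (extP qv) t))) : Set (JZero (lvl M (extP qv) t))),
      ∃ k : ℕ, p ^ k • x = 0 := fun x hx => ⟨a, hx.2.1⟩
  have htY : ∀ x ∈ upE h12 0 '' ((boxG p a τ
      (Ulow p (↑(cutS T qv) : Set ℕ) W.apOfModel qv (lvl M (extP qv) t) a) :
      AddSubgroup (JZero (lvl M (extP qv) t))) : Set (JZero (lvl M (extP qv) t))),
      ∃ k : ℕ, p ^ k • x = 0 := by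
    rintro _ ⟨v, hv, rfl⟩
    exact ⟨a, by rw [← map_nsmul, hv.2.1, map_zero]⟩
  obtain ⟨u, hu, ⟨k₀, hk₀⟩, hgen⟩ := two_mid X hTop HR h2 F.gen
    (by
      intro q hq hd
      rw [Finset.mem_union, not_or, mem_toP'] at hq
      rcases (Nat.Prime.dvd_mul q.2).1 hd with h | h
      · rcases dvd_lvl_cases t q.2 h with h | ⟨j, hj⟩
        · exact hq.1 (TC2.lev q q.2 (h.mul_right p))
        · exact hq.2 (Finset.mem_image.2 ⟨j, Finset.mem_univ j, (Subtype.ext hj).symm⟩)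
      · exact hq.1 (TC2.lev q q.2 (h.mul_left _)))
    (midSub HR _ hG₁gal) (fun g => midSub_gal HR g) (midSub_ne_bot HR hG₁le hG₁0)
    (upE h12 0 '' ((boxG p a τ
      (Ulow p (↑(cutS T qv) : Set ℕ) W.apOfModel qv (lvl M (extP qv) t) a) :
      AddSubgroup (JZero (lvl M (extP qv) t))) : Set (JZero (lvl M (extP qv) t))))
    (fun y hy => hy)
    ((locUr_of_not_dvd Nat.prime_two h2N1p _ htG).image (upE h12 0)
      (fun g v => upE_smul h12 0 g v))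
    (by
      intro v hv hv2' hvp
      have hvp' : (v : ℕ) ≠ p := fun e => hvp (Subtype.ext e)
      have hv2'' : (v : ℕ) ≠ 2 := fun e => hv2' (Subtype.ext e)
      have hvT := mem_toP'.1 hv
      have hvq : ∀ j, (v : ℕ) ≠ ((qv j : Nat.Primes) : ℕ) := fun j h => TC4.notT j (h ▸ hvT)
      by_cases hram : Ram (rbarB b) (v : ℕ)
      · exact Or.inr ⟨hram, locUnip_of_not_sq v.2 hp hvp'
          (not_sq_dvd_lvl_of v.2 hvq (not_sq_dvd_two_mul hsq v.2 hv2'') t) _ htY⟩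
      · refine Or.inl (locUr_of_not_dvd v.2 ?_ _ htY)
        intro hd
        rcases (Nat.Prime.dvd_mul v.2).1 hd with h | h
        · rcases dvd_lvl_cases t v.2 h with h | ⟨j, hj⟩
          · exact hram (X.BP.ram v v.2 (hM ▸ h.mul_right 2) hv2'' hvp')
          · exact hvq j hj
        · exact hvp' ((Nat.prime_dvd_prime_iff_eq v.2 hp).1 h))
    (two_low_atp hLow X hM F _ (fun x hx => hx.1.1) hGgal (fun x hx => hx.2.1)) hσ₀
  -- the auxiliary point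
  have e3 : ((eps 2 * 3 : ℤ) : R) = ((eps 2 : ℤ) : R) * ((((twoPr : Nat.Primes) : ℕ) : R) + 1) := by
    have h : (((twoPr : Nat.Primes) : ℕ) : R) = 2 := by
      show ((2 : ℕ) : R) = 2
      norm_num
    rw [h]
    push_cast
    ring
  have hc : ∀ x : ↥(thTors p (↑(cutS T qv) : Set ℕ) W.apOfModel (lvl (M * 2) (extP qv) t) (K + 1)),
      (∀ k, (u k - (p : R) * (fun _ : Fin t => (0 : R)) k) • x = 0) →
      ((ρ σ₀).trace - ((eps 2 : ℤ) : R) * ((((twoPr : Nat.Primes) : ℕ) : R) + 1)) • x = 0 := by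
    intro x hk
    have h := hk k₀
    rw [mul_zero, sub_zero, hk₀, e3] at h
    exact h
  have hN := two_hN hp X.C.hp2 hεc
  -- the step
  obtain ⟨G', hG'gal, hG'le, hG'c, hG'r⟩ := step_core (m := m) (f := 1) h12 Nat.prime_two h2N1 h2p
    hS2 (X.C.nonEis (cutS T qv)) (subset_cutS T qv h2T) hqv hqvp hε ha1 haK hA hτ
    (boxG p a τ (Ulow p (↑(cutS T qv) : Set ℕ) W.apOfModel qv (lvl M (extP qv) t) a)) hGgal le_rfl
    hn1.1 Nat.lt_two_pow_self hn2.1 hn2.2 HR (pi0 πE)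
    (fun s hs => TopCtx.isNilpotent_of_pi0 HR hs)
    (fun i => by
      have h1 : (ρ (τ i)).map (pi0 πE) = 1 := by
        rw [hTop.lift HR, X.C.unramT _ (qv i).2 (TC4.notT i) (A i) (hA i) (τ i) (hτ i)]
      have h2 : pi0 πE (ρ (τ i)).trace = ((ρ (τ i)).map (pi0 πE)).trace := by
        rw [Matrix.trace_fin_two, Matrix.trace_fin_two, map_add]
        rfl
      rw [map_sub, h2, h1, Matrix.trace_one, Fintype.card_fin, map_ofNat]
      norm_num)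
    u (fun _ => 0) ((ρ σ₀).trace + ((eps 2 : ℤ) : R) * ((((twoPr : Nat.Primes) : ℕ) : R) + 1))
    (2 * eps 2 * ((((twoPr : Nat.Primes) : ℕ) : ℤ) + 1)) hu
    (by rw [annG_eq HR _ hG₁gal]; exact hgen) hN
    (fun x _ hk => two_val _ (eps 2) _ (hc x hk))
    (fun x _ hk => ⟨ExtCitation.primeLocalPlace twoPr, σ₀, hA2, hσ₀,
      mid_frob HR (hTop.det_frob HR Nat.prime_two h2p hA2 hσ₀) x (hc x hk)⟩)
    (big_of_frm hp.one_lt F.hC hGc) (by have := F.ha; omega)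
  have hout := mid_out_new HR hSoft (dvd_refl _)
    (U := (Uup p (↑(cutS T qv) : Set ℕ) W.apOfModel qv h12 a :
      Set (JZero (lvl (M * 2) (extP qv) t))))
    (fun s x hx => Uup_gal h12 a s x hx)
    (mid_rel_Uup Nat.prime_two hp h2p h2N1 h12 a hA2 hσ₀)
    (G' := (G' : Set (JZero (lvl (M * 2) (extP qv) t))))
    (fun x hx => by
      obtain ⟨x₁, h1, h2⟩ := hG'r x hx
      exact ⟨x₁, h1.1, h2⟩)
  -- push to the level `L₀`
  have hf4 : ∀ (g : GQ) (v : JZero (lvl (M * 2) (extP qv) t)),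
      upE h24 0 (g • v) = g • upE h24 0 v := fun g v => upE_smul h24 0 g v
  have hle4 : G'.map (upE h24 0) ≤
      thetaPart (lvl L₀ (extP qv) t) p (↑(cutS T qv) : Set ℕ) W.apOfModel := by
    rintro _ ⟨y, hy, rfl⟩
    exact upE_mem_thetaPart h24 hS4 0 (hG'le hy).1.1
  have hgal4 : ∀ g : GQ, ∀ x ∈ G'.map (upE h24 0), g • x ∈ G'.map (upE h24 0) := by
    rintro g _ ⟨y, hy, rfl⟩
    exact ⟨g • y, hG'gal g y hy, hf4 g y⟩
  have hcard : Nat.card ↥(G'.map (upE h24 0)) = Nat.card ↥G' := by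
    symm
    refine Nat.card_congr (Equiv.ofBijective
      (fun y : G' => (⟨upE h24 0 y.1, ⟨y.1, y.2, rfl⟩⟩ : G'.map (upE h24 0))) ⟨?_, ?_⟩)
    · intro y y' hyy
      have h1 : upE h24 0 y.1 = upE h24 0 y'.1 := congrArg Subtype.val hyy
      have h3 : p ^ a • (y.1 - y'.1) = 0 := by
        rw [nsmul_sub, (hG'le y.2).2.1, (hG'le y'.2).2.1, sub_zero]
      exact Subtype.ext (sub_eq_zero.1 (upE_eq_zero_of_torsion Nat.prime_two h24 0
        (pow_ne_zero a hp.ne_zero) h3 (by rw [map_sub, h1, sub_self])))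
    · rintro ⟨_, y, hy, rfl⟩
      exact ⟨⟨y, hy⟩, rfl⟩
  have hp2' : p ∉ ({2} : Finset ℕ) := fun h => X.C.hp2 (Finset.mem_singleton.1 h)
  refine ⟨G'.map (upE h24 0), X.isCell_of' hLow F hP hp2' L₀ hLc _ hle4 hgal4 ?_ ?_ ?_ ?_ ?_,
    by rw [hcard]; exact hG'c⟩
  · refine two_box_cyc hM4 TC4' han hA hcyc _ hle4 hgal4 ?_ ?_
    · rintro _ ⟨y, hy, rfl⟩
      rw [← map_nsmul, (hG'le hy).2.1, map_zero]
    · rintro i _ ⟨y, hy, rfl⟩
      rw [← map_zOp_iterate (upE h24 0) hf4, (hG'le hy).2.2 i, map_zero]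
  · rintro _ ⟨y, hy, rfl⟩ i
    exact isNewAt_upE Nat.prime_two (qv i).2 (hqv i) h24 0 ((hG'le hy).1.2.2.2 i)
  · intro q hq
    rw [Finset.mem_singleton.1 hq]
    exact locSt_map (upE h24 0) hf4 hout.1
  · exact fun _ h => absurd (Finset.mem_singleton_self 2) h
  · exact fun _ => locUnip_map (upE h24 0) hf4 hout.2

end Fermat.Agent.ML.At2.R2

namespace Fermat.Agent.ML.At2.R2

open Fermat.Agent.ML Fermat.Agent.ML.At2 Fermat.Agent.ML.Lift Fermat.Agent.ML.ESide Fermat.Agent.RIB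

/-- **(C-STEP-2)**. -/
theorem stepTwoStmt_soft (hLow : LowerStmt) : StepTwoStmt := by
  intro W p _ T b L₀ _ eps eP X t h2
  obtain ⟨M, hM, hodd, hsq⟩ := X.BP.shape
  have : NeZero M := ⟨by rintro rfl; exact (NeZero.ne L₀) (by rw [hM, Nat.zero_mul])⟩
  obtain ⟨e, he⟩ := At2.exists_card_eq_pow
    (X := ↥(WS M p (↑T : Set ℕ) W.apOfModel)) p (fun x => Subtype.ext x.2.2)
  refine ⟨2, 2 ^ t * e * 1 * (p ^ (2 ^ t * e) * (t + 1)) ^ t, fun a m n K qv F _ Lc _ hLc => ?_⟩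
  have hLc' : Lc = L₀ := by rw [hLc]; simp [cellLevel]
  subst hLc'
  exact two_cell hLow X h2 (by rw [hM]; ring)
    (fun h => (Nat.not_even_iff_odd.2 hodd) (even_iff_two_dvd.2 h)) hsq he F

end Fermat.Agent.ML.At2.R2
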